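/-
S13 (Frey curve: reducible mod-`p` representation has a Galois-stable cofixed line).
Frozen interface file: shared definitions and the exact statements (as `Prop`-valued definitions)
of every work package.  Each package proves one statement (possibly from other statements taken
as hypotheses); `Fermat/Agent/S13.lean` assembles them.

Conventions: `KummerData`, `AddVal`, `tropW`, `foldSum`, `kumX`, `kumY` are those of
`Fermat.Agent.S05`.  For a `KummerData` `D` (the curve `Y² = X (X² + a X + b)`) we write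
`b₂ = 4 a`; "`ν.Ge x r`" means `x = 0 ∨ r ≤ ν.v x`.
-/
import Mathlib
import Fermat.Prelude.Def_FLTPrelim_FreyPackage
import Fermat.Prelude.Def_FLTPrelim_GaloisRep
import Fermat.Prelude.Def_FLTPrelim_Ramification
import Fermat.Prelude.Def_FLTPrelim_CofixedLine
import Fermat.Agent.S05.Defs
import Fermat.Agent.S05.ValCalc
import Fermat.Agent.S05.TropDefs
import Fermat.Agent.S05.Kummer
import Fermat.Agent.S05.Val

set_option autoImplicit false

namespace Fermat.Agent.S13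

open Fermat.Agent.S05 Polynomial
open WeierstrassCurve WeierstrassCurve.Affine WeierstrassCurve.Affine.Point

/-! ### Shared definitions -/

/-- The chord formula for the `X`-coordinate of a sum, in terms of both coordinates. -/
def SlopeLaw {G K : Type} [AddCommGroup G] [Field K] (D : KummerData G K) : Prop :=
  ∀ P Q : G, P ≠ 0 → Q ≠ 0 → D.X P ≠ D.X Q →
    D.X (P + Q) * (D.X P - D.X Q) ^ 2 =
      (D.Y P - D.Y Q) ^ 2 - (D.X P + D.X Q + D.a) * (D.X P - D.X Q) ^ 2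

/-- Every solution of `y² = x (x² + a x + b)` is the pair of coordinates of a nonzero point. -/
def KumSurj {G K : Type} [AddCommGroup G] [Field K] (D : KummerData G K) : Prop :=
  ∀ x y : K, y ^ 2 = x * (x ^ 2 + D.a * x + D.b) → ∃ P : G, P ≠ 0 ∧ D.X P = x ∧ D.Y P = y

/-- `σ` (a ring endomorphism of the field) and `τ` (an additive endomorphism of the group of
points) form an "inertia-like pair" for the valuation `ν`: `τ` is injective and compatible with
`σ` on coordinates, `σ` preserves `ν` and moves integral elements only by elements of positive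
valuation. -/
def InertPair {G K : Type} [AddCommGroup G] [Field K] (D : KummerData G K) (ν : AddVal K)
    (σ : K →+* K) (τ : G →+ G) : Prop :=
  (∀ P : G, τ P = 0 → P = 0) ∧
  (∀ P : G, P ≠ 0 → D.X (τ P) = σ (D.X P)) ∧
  (∀ P : G, P ≠ 0 → D.Y (τ P) = σ (D.Y P)) ∧
  (∀ x : K, x ≠ 0 → ν.v (σ x) = ν.v x) ∧
  (∀ x : K, x ≠ 0 → 0 ≤ ν.v x → σ x = x ∨ 0 < ν.v (σ x - x))

/-- Conclusion of the local analysis at `p`: a two-step filtration `Z ≤ Z'` of the `p`-torsion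
(`Z` = the torsion points with `v X < 0`, together with `0`) on whose graded pieces every
inertia-like pair acts trivially. -/
def LocPConcl {G K : Type} [AddCommGroup G] [Field K] (D : KummerData G K) (ν : AddVal K)
    (p : ℕ) : Prop :=
  ∃ Z Z' : AddSubgroup G, Z ≤ Z' ∧
    (∀ P : G, P ∈ Z ↔ p • P = 0 ∧ (P = 0 ∨ (D.X P ≠ 0 ∧ ν.v (D.X P) < 0))) ∧
    (∀ P : G, P ∈ Z' → p • P = 0) ∧
    ∀ (σ : K →+* K) (τ : G →+ G), InertPair D ν σ τ →
      (∀ P : G, p • P = 0 → τ P - P ∈ Z') ∧ (∀ P : G, P ∈ Z' → τ P - P ∈ Z)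

/-- "Division polynomial data" for `Y² = X (X² + a X + b)`: the `X`-coordinate of `n • P` is
`f n / g n` evaluated at the `X`-coordinate of `P`. -/
structure DivData {k : Type} [Field k] (a b : k) (f g : ℕ → k[X]) : Prop where
  f_zero : f 0 = 1
  g_zero : g 0 = 0
  f_one : f 1 = X
  g_one : g 1 = 1
  idA : ∀ n : ℕ, 1 ≤ n → f (n + 1) * f (n - 1) = (X * f n - C b * g n) ^ 2
  idC : ∀ n : ℕ, 1 ≤ n → g (n + 1) * g (n - 1) = (f n - X * g n) ^ 2
  idB : ∀ n : ℕ, 1 ≤ n → f (n + 1) * g (n - 1) + f (n - 1) * g (n + 1) =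
    2 * (f n + X * g n) * (X * f n + C b * g n) + 4 * C a * X * f n * g n
  coprime : ∀ n : ℕ, IsCoprime (f n) (g n)
  f_monic : ∀ n : ℕ, (f n).Monic
  f_natDegree : ∀ n : ℕ, (f n).natDegree = n ^ 2
  g_natDegree : ∀ n : ℕ, (g n).natDegree = n ^ 2 - 1
  g_leadingCoeff : ∀ n : ℕ, (g n).leadingCoeff = (n : k) ^ 2

/-- The field `ℚ̄`. -/
abbrev Kbar : Type := AlgebraicClosure ℚ

/-- The absolute Galois group of `ℚ`. -/
abbrev GalQ : Type := Kbar ≃ₐ[ℚ] Kbar

/-- The Frey curve over `ℚ̄`. -/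
noncomputable abbrev FW (P : FreyPackage) : Affine Kbar := (P.freyCurve : Affine ℚ)⁄Kbar

/-- The `p`-torsion of the Frey curve over `ℚ̄`. -/
abbrev FV (P : FreyPackage) : Type := Submodule.torsionBy ℤ (FW P).Point P.p

/-! ### Part A: division polynomial data and the number of torsion points -/

/-- WP `DivExists`. -/
def DivExistsStatement : Prop :=
  ∀ (k : Type) [Field k] [CharZero k] (a b : k), b ≠ 0 → a ^ 2 - 4 * b ≠ 0 →
    ∃ f g : ℕ → k[X], DivData a b f g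

/-- WP `Spec`: specialisation of the division polynomial data at a point. -/
def SpecStatement : Prop :=
  ∀ (G K : Type) [AddCommGroup G] [Field K] [CharZero K] (D : KummerData G K)
    (f g : ℕ → K[X]), DivData D.a D.b f g → ∀ P : G, P ≠ 0 → ∀ n : ℕ,
      (n • P = 0 ↔ (g n).eval (D.X P) = 0) ∧
        (n • P ≠ 0 → D.X (n • P) * (g n).eval (D.X P) = (f n).eval (D.X P))

/-- WP `Count`: there are exactly `n²` points killed by `n`. -/
def CountStatement : Prop :=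
  ∀ (G K : Type) [AddCommGroup G] [Field K] [CharZero K] [IsAlgClosed K] (D : KummerData G K),
    D.b ≠ 0 → D.a ^ 2 - 4 * D.b ≠ 0 → KumSurj D →
    ∀ n : ℕ, 0 < n → Nat.card {P : G // n • P = 0} = n ^ 2

/-- WP `Prod`: the product of the `X`-coordinates of the nonzero `p`-torsion points. -/
def ProdStatement : Prop :=
  ∀ (G K : Type) [AddCommGroup G] [Field K] [CharZero K] [IsAlgClosed K] (D : KummerData G K),
    D.b ≠ 0 → D.a ^ 2 - 4 * D.b ≠ 0 → KumSurj D →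
    ∀ p : ℕ, Odd p → ∀ s : Finset G, (∀ Q : G, Q ∈ s ↔ Q ≠ 0 ∧ p • Q = 0) →
      (p : K) ^ 2 * ∏ Q ∈ s, D.X Q = D.b ^ ((p ^ 2 - 1) / 2)

/-- WP `KumExtra`: the Kummer data of a Weierstrass curve `y² + x y = x³ + a₂ x² + a₄ x`, with the
chord formula and surjectivity. -/
def KumExtraStatement : Prop :=
  ∀ (K : Type) [Field K] [DecidableEq K] [CharZero K] (W : Affine K),
    W.a₁ = 1 → W.a₃ = 0 → W.a₆ = 0 →
    ∀ e : K, e ^ 3 + (W.a₂ + 1 / 4) * e ^ 2 + W.a₄ * e = 0 →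
    ∃ D : KummerData W.Point K, D.X = kumX W e ∧ D.Y = kumY W ∧
      D.a = 3 * e + W.a₂ + 1 / 4 ∧ D.b = 3 * e ^ 2 + 2 * (W.a₂ + 1 / 4) * e + W.a₄ ∧
      SlopeLaw D ∧ (D.b ≠ 0 → D.a ^ 2 - 4 * D.b ≠ 0 → KumSurj D)

/-! ### Valuation-theoretic lemmas on the Kummer line -/

/-- WP `Trop2`: the tropical addition and duplication laws at a prime of multiplicative reduction,
in a form valid in every residue characteristic (`b₂ = 4 a` a unit, `v b > 0`, `v 2 ≥ 0`). -/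
def Trop2Statement : Prop :=
  ∀ (G K : Type) [AddCommGroup G] [Field K] [CharZero K] (D : KummerData G K) (ν : AddVal K),
    0 ≤ ν.v 2 → D.a ≠ 0 → ν.v (4 * D.a) = 0 → D.b ≠ 0 → 0 < ν.v D.b →
    (∀ P Q : G, P ≠ 0 → Q ≠ 0 → D.X Q ≠ D.X P → 0 < tropW D ν P →
      (tropW D ν (Q + P) = |tropW D ν Q - tropW D ν P| ∧
          tropW D ν (Q - P) = foldSum (ν.v D.b) (tropW D ν Q) (tropW D ν P)) ∨
        (tropW D ν (Q + P) = foldSum (ν.v D.b) (tropW D ν Q) (tropW D ν P) ∧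
          tropW D ν (Q - P) = |tropW D ν Q - tropW D ν P|)) ∧
    (∀ P : G, P ≠ 0 → 0 < tropW D ν P →
      tropW D ν (P + P) = foldSum (ν.v D.b) (tropW D ν P) (tropW D ν P))

/-- WP `Tors2`: valuations of the `X`-coordinates of odd-order torsion points, and the points with
`tropW = 0` are closed under addition. -/
def Tors2Statement : Prop :=
  ∀ (G K : Type) [AddCommGroup G] [Field K] [CharZero K] (D : KummerData G K) (ν : AddVal K),
    0 ≤ ν.v 2 → D.a ≠ 0 → ν.v (4 * D.a) = 0 → D.b ≠ 0 → 0 < ν.v D.b →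
    (∀ p : ℕ, Odd p → ∀ P : G, P ≠ 0 → p • P = 0 →
      D.X P ≠ 0 ∧ ν.v (D.X P) < ν.v D.b ∧
        (0 < ν.v (D.X P) → ∃ j : ℤ, (p : ℝ) * ν.v (D.X P) = 2 * ν.v D.b * j)) ∧
    (∀ P Q : G, tropW D ν P = 0 → tropW D ν Q = 0 → tropW D ν (P + Q) = 0)

/-- WP `Deepen2`: in residue characteristic `2` no point of odd order has an `X`-coordinate of
negative valuation. -/
def Deepen2Statement : Prop :=
  ∀ (G K : Type) [AddCommGroup G] [Field K] [CharZero K] (D : KummerData G K) (ν : AddVal K),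
    0 < ν.v 2 → D.a ≠ 0 → ν.v (4 * D.a) = 0 → (D.b = 0 ∨ 0 ≤ ν.v D.b) →
    ∀ n : ℕ, Odd n → ∀ P : G, P ≠ 0 → D.X P ≠ 0 → ν.v (D.X P) < 0 → n • P ≠ 0

/-- WP `E1Add`: in odd residue characteristic the points with `v X < 0` (together with `0`) are
closed under addition. -/
def E1AddStatement : Prop :=
  ∀ (G K : Type) [AddCommGroup G] [Field K] [CharZero K] (D : KummerData G K) (ν : AddVal K),
    ν.v 2 = 0 → ν.Ge D.a 0 → ν.Ge D.b 0 →
    ∀ P Q : G, P ≠ 0 → Q ≠ 0 → D.X P ≠ 0 → ν.v (D.X P) < 0 → D.X Q ≠ 0 → ν.v (D.X Q) < 0 →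
      P + Q = 0 ∨ (D.X (P + Q) ≠ 0 ∧ ν.v (D.X (P + Q)) < 0)

/-- WP `InertSing`: an inertia-like pair moves a point with singular reduction
(`0 < v X < v b`) by a point with `v X ≤ 0`. -/
def InertSingStatement : Prop :=
  ∀ (G K : Type) [AddCommGroup G] [Field K] [CharZero K] (D : KummerData G K) (ν : AddVal K),
    SlopeLaw D → 0 ≤ ν.v 2 → D.a ≠ 0 → ν.v (4 * D.a) = 0 → ν.Ge (D.a - 1 / 4) 0 →
    D.b ≠ 0 → 0 < ν.v D.b →
    ∀ (σ : K →+* K) (τ : G →+ G), InertPair D ν σ τ →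
      ∀ P : G, P ≠ 0 → D.X P ≠ 0 → 0 < ν.v (D.X P) → ν.v (D.X P) < ν.v D.b →
        τ P = P ∨ (D.X (τ P - P) ≠ 0 ∧ ν.v (D.X (τ P - P)) ≤ 0)

/-- WP `InertNs`: an inertia-like pair moves a point with integral coordinates whose
reduction is not a `2`-torsion point (`v (2 Y) = 0`) by a point with `v X < 0`. -/
def InertNsStatement : Prop :=
  ∀ (G K : Type) [AddCommGroup G] [Field K] [CharZero K] (D : KummerData G K) (ν : AddVal K),
    SlopeLaw D → 0 ≤ ν.v 2 → ν.Ge (D.a - 1 / 4) 0 → ν.Ge D.b 0 →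
    ∀ (σ : K →+* K) (τ : G →+ G), InertPair D ν σ τ →
      ∀ P : G, P ≠ 0 → ν.Ge (D.X P) 0 → 2 * D.Y P ≠ 0 → ν.v (2 * D.Y P) = 0 →
        τ P = P ∨ (D.X (τ P - P) ≠ 0 ∧ ν.v (D.X (τ P - P)) < 0)

/-- WP `Loc2Abs`: the local structure of the odd-order torsion at a prime of multiplicative
reduction of residue characteristic `2`. -/
def Loc2AbsStatement : Prop :=
  ∀ (G K : Type) [AddCommGroup G] [Field K] [CharZero K] (D : KummerData G K) (ν : AddVal K),
    SlopeLaw D → 0 < ν.v 2 → D.a ≠ 0 → ν.v (4 * D.a) = 0 → ν.Ge (D.a - 1 / 4) 0 →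
    D.b ≠ 0 → 0 < ν.v D.b →
    ∀ p : ℕ, Odd p →
      (∀ P : G, P ≠ 0 → p • P = 0 →
        D.X P ≠ 0 ∧ 0 ≤ ν.v (D.X P) ∧ ν.v (D.X P) < ν.v D.b ∧
          (0 < ν.v (D.X P) → ∃ j : ℤ, (p : ℝ) * ν.v (D.X P) = 2 * ν.v D.b * j)) ∧
      ∃ Z : AddSubgroup G, (∀ P : G, P ∈ Z ↔ p • P = 0 ∧ (P = 0 ∨ ν.v (D.X P) = 0)) ∧
        ∀ (σ : K →+* K) (τ : G →+ G), InertPair D ν σ τ →
          (∀ P : G, p • P = 0 → τ P - P ∈ Z) ∧ (∀ P : G, P ∈ Z → τ P = P)

/-- WP `LocPGood`: local structure of the `p`-torsion in odd residue characteristic, good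
reduction (`b` and the discriminant `a² - 4 b` are units). -/
def LocPGoodStatement : Prop :=
  ∀ (G K : Type) [AddCommGroup G] [Field K] [CharZero K] (D : KummerData G K) (ν : AddVal K),
    SlopeLaw D → ν.v 2 = 0 → ν.Ge D.a 0 → D.b ≠ 0 → ν.v D.b = 0 →
    D.a ^ 2 - 4 * D.b ≠ 0 → ν.v (D.a ^ 2 - 4 * D.b) = 0 →
    ∀ p : ℕ, Odd p → LocPConcl D ν p

/-- WP `LocPMult`: local structure of the `p`-torsion in odd residue characteristic,
multiplicative reduction with the node at `X = 0` (`a` a unit, `v b > 0`). -/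
def LocPMultStatement : Prop :=
  ∀ (G K : Type) [AddCommGroup G] [Field K] [CharZero K] (D : KummerData G K) (ν : AddVal K),
    SlopeLaw D → ν.v 2 = 0 → D.a ≠ 0 → ν.v D.a = 0 → D.b ≠ 0 → 0 < ν.v D.b →
    ∀ p : ℕ, Odd p → LocPConcl D ν p

/-- WP `Alpha`: not all nonzero `p`-torsion points can have `v X < 0` if a proper nonempty
symmetric subset has a "rational" sum of valuations. -/
def AlphaStatement : Prop :=
  ∀ (G K : Type) [AddCommGroup G] [Field K] [CharZero K] (D : KummerData G K) (ν : AddVal K)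
    (p : ℕ), Odd p → 0 < ν.v (p : K) → D.b ≠ 0 → 0 ≤ ν.v D.b →
    ∀ s : Finset G, (∀ Q : G, Q ∈ s ↔ Q ≠ 0 ∧ p • Q = 0) →
      (p : K) ^ 2 * ∏ Q ∈ s, D.X Q = D.b ^ ((p ^ 2 - 1) / 2) →
    ∀ t : Finset G, t ⊆ s → t ≠ s → t.Nonempty →
      (∃ k : ℤ, ∑ Q ∈ t, ν.v (D.X Q) = 2 * (k * ν.v (p : K))) →
      ¬ ∀ Q : G, Q ∈ s → D.X Q ≠ 0 ∧ ν.v (D.X Q) < 0

/-- WP `PairSum`: a sum over a symmetric set of points without `2`-torsion is twice the sum over
the set of `X`-coordinates. -/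
def PairSumStatement : Prop :=
  ∀ (G K : Type) [AddCommGroup G] [Field K] [DecidableEq K] (D : KummerData G K) (t : Finset G),
    (∀ Q : G, Q ∈ t → Q ≠ 0 ∧ -Q ∈ t ∧ Q + Q ≠ 0) →
    ∀ F : K → ℝ, ∑ Q ∈ t, F (D.X Q) = 2 * ∑ x ∈ t.image D.X, F x

/-- WP `LA1`: linear algebra for the two-step filtration. -/
def LA1Statement : Prop :=
  ∀ (V : Type) [AddCommGroup V] (p : ℕ), p.Prime → Nat.card V = p ^ 2 →
    ∀ N Z Z' : AddSubgroup V, Nat.card N = p → Z ≤ Z' → Z ≠ ⊤ →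
    ∀ T : Set (V → V), (∀ φ ∈ T, ∀ x : V, φ x - x ∈ Z') → (∀ φ ∈ T, ∀ x ∈ Z', φ x - x ∈ Z) →
      (∀ φ ∈ T, ∀ x ∈ N, φ x ∈ N) →
      (∀ φ ∈ T, ∀ x : V, φ x - x ∈ N) ∨ (∀ φ ∈ T, ∀ x ∈ N, φ x = x)

/-- WP `LA2`: linear algebra for a one-step filtration with trivial action on both pieces. -/
def LA2Statement : Prop :=
  ∀ (V : Type) [AddCommGroup V] (p : ℕ), p.Prime → Nat.card V = p ^ 2 →
    ∀ N Z : AddSubgroup V, Nat.card N = p →
    ∀ T : Set (V →+ V), (∀ φ ∈ T, ∀ x : V, φ x - x ∈ Z) → (∀ φ ∈ T, ∀ x ∈ Z, φ x = x) →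
      (∀ φ ∈ T, ∀ x ∈ N, φ x ∈ N) →
      (∀ φ ∈ T, ∀ x : V, φ x - x ∈ N) ∧ (∀ φ ∈ T, ∀ x ∈ N, φ x = x)

/-! ### Galois theory: inertia and Minkowski -/

/-- WP `InertiaLift`: every element of the inertia group of a finite Galois subextension `F/ℚ`
(at the prime cut out by the valuation subring `A`) is the restriction of an element of the
inertia subgroup of `A`. -/
def InertiaLiftStatement : Prop :=
  ∀ (A : ValuationSubring Kbar) (ℓ : ℕ), ℓ.Prime → A.LiesOverPrime ℓ →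
    ∀ (F : IntermediateField ℚ Kbar) [FiniteDimensional ℚ F] [IsGalois ℚ F] (σ₀ : F ≃ₐ[ℚ] F),
      (∀ x : F, IsIntegral ℤ x → ((σ₀ x : F) : Kbar) - (x : Kbar) ∈ A.nonunits) →
      ∃ σ : GalQ, σ ∈ A.inertiaSubgroupIn ℚ ∧ ∀ x : F, σ (x : Kbar) = ((σ₀ x : F) : Kbar)

/-- WP `MinkFin`: a finite Galois extension of `ℚ` inside `ℚ̄` in which, for every prime `ℓ`, the
inertia group at one prime above `ℓ` is trivial, is `ℚ`. -/
def MinkFinStatement : Prop :=
  ∀ (F : IntermediateField ℚ Kbar) [FiniteDimensional ℚ F] [IsGalois ℚ F],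
    (∀ ℓ : ℕ, ℓ.Prime → ∃ A : ValuationSubring Kbar, A.LiesOverPrime ℓ ∧
      ∀ σ₀ : F ≃ₐ[ℚ] F,
        (∀ x : F, IsIntegral ℤ x → ((σ₀ x : F) : Kbar) - (x : Kbar) ∈ A.nonunits) → σ₀ = 1) →
    F = ⊥

/-- WP `Mink`: a normal subgroup of `Gal(ℚ̄/ℚ)` which contains the pointwise stabiliser of a
finite set and, for every prime `ℓ`, the inertia subgroup of one valuation subring over `ℓ`,
is the whole group. -/
def MinkStatement : Prop :=
  ∀ (H : Subgroup GalQ), H.Normal →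
    (∃ S : Finset Kbar, ∀ σ : GalQ, (∀ x ∈ S, σ x = x) → σ ∈ H) →
    (∀ ℓ : ℕ, ℓ.Prime → ∃ A : ValuationSubring Kbar, A.LiesOverPrime ℓ ∧
      A.inertiaSubgroupIn ℚ ≤ H) →
    H = ⊤

/-- WP `RatVal`: a Galois-fixed element of `ℚ̄` is rational, so its valuation is an integral
multiple of the valuation of the residue characteristic. -/
def RatValStatement : Prop :=
  ∀ (ν : AddVal Kbar) (q : ℕ), q.Prime → (∀ n : ℤ, ¬ (q : ℤ) ∣ n → ν.v (n : Kbar) = 0) →
    ∀ x : Kbar, x ≠ 0 → (∀ σ : GalQ, σ x = x) → ∃ k : ℤ, ν.v x = k * ν.v (q : Kbar)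

/-! ### The Frey curve -/

/-- WP `FreyCard`. -/
def FreyCardStatement : Prop :=
  ∀ P : FreyPackage, Nat.card (FV P) = P.p ^ 2

/-- WP `FreyOpen`: the action on the `p`-torsion factors through a finite quotient. -/
def FreyOpenStatement : Prop :=
  ∀ P : FreyPackage, ∃ S : Finset Kbar, ∀ σ : GalQ, (∀ x ∈ S, σ x = x) → ∀ v : FV P, σ • v = v

/-- WP `Local2`: at a valuation subring over `2`, inertia acts trivially on a Galois-stable line
and on the quotient by it. -/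
def Local2Statement : Prop :=
  ∀ (P : FreyPackage) (A : ValuationSubring Kbar), A.LiesOverPrime 2 →
    ∀ N : Submodule (ZMod P.p) (FV P), IsGaloisStable ℚ N → N ≠ ⊥ → N ≠ ⊤ →
      ∀ σ : GalQ, σ ∈ A.inertiaSubgroupIn ℚ →
        (∀ x : FV P, σ • x - x ∈ N) ∧ (∀ x : FV P, x ∈ N → σ • x = x)

/-- WP `Local2Rat`: the Frey curve has no nonzero `p`-torsion point fixed by the whole Galois
group. -/
def Local2RatStatement : Prop :=
  ∀ (P : FreyPackage) (x : FV P), x ≠ 0 → ∃ σ : GalQ, σ • x ≠ x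

/-- WP `LocalP`: at a valuation subring over `p`, inertia acts trivially on the quotient by a
Galois-stable line, or trivially on the line. -/
def LocalPStatement : Prop :=
  ∀ (P : FreyPackage) (A : ValuationSubring Kbar), A.LiesOverPrime P.p →
    ∀ N : Submodule (ZMod P.p) (FV P), IsGaloisStable ℚ N → N ≠ ⊥ → N ≠ ⊤ →
      (∀ σ : GalQ, σ ∈ A.inertiaSubgroupIn ℚ → ∀ x : FV P, σ • x - x ∈ N) ∨
        (∀ σ : GalQ, σ ∈ A.inertiaSubgroupIn ℚ → ∀ x : FV P, x ∈ N → σ • x = x)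

end Fermat.Agent.S13
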