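/-
S13, work package `Alpha`: two elementary combinatorial/valuation-theoretic lemmas.

* `alp_alpha : AlphaStatement`: if the product of the `X`-coordinates of the nonzero `p`-torsion
  points is `b^((p²-1)/2) / p²` with `v b ≥ 0`, and a proper nonempty subset `t` has a sum of
  valuations in `2 ℤ · v p`, then not all nonzero `p`-torsion points have `v X < 0`.
* `alp_pairSum : PairSumStatement`: a sum of a function of the `X`-coordinate over a symmetric
  set of points without `2`-torsion is twice the sum over the set of `X`-coordinates.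
-/
import Fermat.Agent.S13.Defs

set_option autoImplicit false

namespace Fermat.Agent.S13

open Fermat.Agent.S05

/-- The valuation of a finite product of nonzero elements is the sum of the valuations. -/
theorem alp_v_prod {ι K : Type} [Field K] (ν : AddVal K) (f : ι → K) (s : Finset ι)
    (h : ∀ i ∈ s, f i ≠ 0) : ν.v (∏ i ∈ s, f i) = ∑ i ∈ s, ν.v (f i) := by
  induction s using Finset.cons_induction with
  | empty => simp [ν.v_one]
  | cons a s ha ih =>
    have h1 : f a ≠ 0 := h a (Finset.mem_cons_self a s)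
    have h2 : ∀ i ∈ s, f i ≠ 0 := fun i hi => h i (Finset.mem_cons_of_mem hi)
    rw [Finset.prod_cons, Finset.sum_cons, ν.v_mul h1 (Finset.prod_ne_zero_iff.mpr h2), ih h2]

/-- WP `Alpha`. -/
theorem alp_alpha : AlphaStatement := by
  intro G K _ _ _ D ν p hp hπ hb hvb s _hs hprod t hts hne htne hk hall
  obtain ⟨k, hk⟩ := hk
  classical
  -- `p ≠ 0` in `K`
  have hp0 : (p : K) ≠ 0 := by
    have hpn : p ≠ 0 := by
      rintro rfl
      exact absurd hp (by decide)
    exact_mod_cast hpn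
  have hX : ∀ Q ∈ s, D.X Q ≠ 0 := fun Q hQ => (hall Q hQ).1
  have hprod0 : ∏ Q ∈ s, D.X Q ≠ 0 := Finset.prod_ne_zero_iff.mpr hX
  -- valuations in the product formula
  have hv := congrArg ν.v hprod
  rw [ν.v_mul (pow_ne_zero 2 hp0) hprod0, ν.v_sq hp0, alp_v_prod ν D.X s hX, ν.v_pow hb] at hv
  have hs_ge : -(2 * ν.v (p : K)) ≤ ∑ Q ∈ s, ν.v (D.X Q) := by
    have h0 : (0 : ℝ) ≤ (((p ^ 2 - 1) / 2 : ℕ) : ℝ) * ν.v D.b :=
      mul_nonneg (Nat.cast_nonneg _) hvb
    linarith
  -- the sum over `t` is negative, hence at most `-2 v(p)`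
  have ht_neg : ∑ Q ∈ t, ν.v (D.X Q) < 0 :=
    Finset.sum_neg (fun Q hQ => (hall Q (hts hQ)).2) htne
  have hk_neg : k < 0 := by
    by_contra hk0
    have hk0' : (0 : ℤ) ≤ k := not_lt.mp hk0
    have h0 : (0 : ℝ) ≤ (k : ℝ) * ν.v (p : K) := mul_nonneg (by exact_mod_cast hk0') hπ.le
    linarith
  have hk_le : (k : ℝ) ≤ -1 := by
    have hk1 : k ≤ -1 := by omega
    exact_mod_cast hk1
  have ht_le : ∑ Q ∈ t, ν.v (D.X Q) ≤ -(2 * ν.v (p : K)) := by
    rw [hk]
    nlinarith
  -- the sum over the complement is nonnegative, but all its terms are negative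
  have hsd := Finset.sum_sdiff (f := fun Q => ν.v (D.X Q)) hts
  have hsd_ne : (s \ t).Nonempty := by
    rw [Finset.sdiff_nonempty]
    intro hst
    exact hne (Finset.Subset.antisymm hts hst)
  have hsd_neg : ∑ Q ∈ s \ t, ν.v (D.X Q) < 0 :=
    Finset.sum_neg (fun Q hQ => (hall Q (Finset.mem_sdiff.mp hQ).1).2) hsd_ne
  linarith

/-- WP `PairSum`. -/
theorem alp_pairSum : PairSumStatement := by
  intro G K _ _ _ D t ht F
  classical
  rw [Finset.mul_sum]
  symm
  apply Finset.sum_image'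
  intro Q₀ hQ₀
  obtain ⟨hQ₀0, hQ₀neg, hQ₀2⟩ := ht Q₀ hQ₀
  have hne : Q₀ ≠ -Q₀ := by
    intro h
    apply hQ₀2
    nth_rewrite 2 [h]
    exact add_neg_cancel Q₀
  have hfilter : t.filter (fun Q => D.X Q = D.X Q₀) = {Q₀, -Q₀} := by
    ext Q
    simp only [Finset.mem_filter, Finset.mem_insert, Finset.mem_singleton]
    constructor
    · rintro ⟨hQ, hXQ⟩
      exact D.eq_or_eq_neg Q Q₀ (ht Q hQ).1 hQ₀0 hXQ
    · rintro (rfl | rfl)
      · exact ⟨hQ₀, rfl⟩
      · exact ⟨hQ₀neg, D.X_neg Q₀⟩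
  rw [hfilter, Finset.sum_pair hne, D.X_neg]
  ring

end Fermat.Agent.S13
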