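/-
S13, work package `Count`: over an algebraically closed field of characteristic zero, the Kummer
data of the curve `Y² = X (X² + a X + b)` has exactly `n²` points killed by `n`.

Proof: with `f = f n`, `g = g n` the division polynomial data, choose `c` such that
`F = f - c g` has only simple roots and `c (c² + a c + b) ≠ 0`; let `Q₀` be a point with
`X Q₀ = c`.  Then `X` is a bijection from `{P | n • P = Q₀}` onto the set of roots of `F`, which
has `deg F = n²` elements, and `{P | n • P = 0}` is a translate of `{P | n • P = Q₀}`.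
-/
import Fermat.Agent.S13.Defs

set_option autoImplicit false

namespace Fermat.Agent.S13

open Fermat.Agent.S05 Polynomial

/-- The "Wronskian" `f' g - f g'` of two coprime polynomials, `f` nonconstant, is nonzero in
characteristic zero. -/
theorem cta_wronskian_ne_zero {K : Type} [Field K] [CharZero K] (f g : K[X])
    (hcop : IsCoprime f g) (hdeg : f.natDegree ≠ 0) :
    derivative f * g - f * derivative g ≠ 0 := by
  intro hW
  have h1 : f ∣ derivative f * g := ⟨derivative g, by linear_combination hW⟩
  have h2 : f ∣ derivative f := hcop.dvd_of_dvd_mul_right h1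
  have h3 : derivative f ≠ 0 := derivative_ne_zero.mpr hdeg
  have h4 := natDegree_le_of_dvd h2 h3
  have h5 := natDegree_derivative_lt hdeg
  omega

/-- Coprime polynomials have no common root. -/
theorem cta_eval_ne_zero_of_coprime {K : Type} [Field K] (f g : K[X]) (hcop : IsCoprime f g)
    (x : K) (hg : g.eval x = 0) : f.eval x ≠ 0 := by
  obtain ⟨u, v, huv⟩ := hcop
  intro hf
  have h := congrArg (eval x) huv
  simp [hf, hg] at h

/-- Over an algebraically closed field, a nonzero polynomial without multiple roots has exactly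
`natDegree` roots. -/
theorem cta_ncard_roots {K : Type} [Field K] [IsAlgClosed K] (F : K[X]) (hF : F ≠ 0)
    (hsimple : ∀ x : K, F.eval x = 0 → (derivative F).eval x ≠ 0) :
    Set.ncard {x : K | F.eval x = 0} = F.natDegree := by
  classical
  have hnodup : F.roots.Nodup := by
    rw [Multiset.nodup_iff_count_le_one]
    intro x
    rw [count_roots]
    by_contra hlt
    have h := (one_lt_rootMultiplicity_iff_isRoot hF).mp (not_le.mp hlt)
    exact hsimple x h.1 h.2
  have hset : {x : K | F.eval x = 0} = ↑F.roots.toFinset := by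
    ext x
    simp [mem_roots hF, IsRoot]
  rw [hset, Set.ncard_coe_finset, Multiset.toFinset_card_of_nodup hnodup]
  exact splits_iff_card_roots.mp (IsAlgClosed.splits F)

/-- The counting argument, for abstract polynomials `f`, `g` computing the `X`-coordinate of
`n • P`. -/
theorem cta_count_aux {G K : Type} [AddCommGroup G] [Field K] [CharZero K] [IsAlgClosed K]
    (D : KummerData G K) (hsurj : KumSurj D) (n : ℕ) (f g : K[X])
    (hf : f.Monic) (hfdeg : f.natDegree = n ^ 2) (hgdeg : g.natDegree < n ^ 2)
    (hcop : IsCoprime f g)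
    (hspec : ∀ P : G, P ≠ 0 → (n • P = 0 ↔ g.eval (D.X P) = 0) ∧
        (n • P ≠ 0 → D.X (n • P) * g.eval (D.X P) = f.eval (D.X P))) :
    Nat.card {P : G // n • P = 0} = n ^ 2 := by
  classical
  -- the Wronskian and the cubic
  have hW : derivative f * g - f * derivative g ≠ 0 :=
    cta_wronskian_ne_zero f g hcop (by omega)
  have hT : (X * (X ^ 2 + C D.a * X + C D.b) : K[X]) ≠ 0 := by
    intro h
    have h1 := congrArg (fun p : K[X] => p.coeff 3) h
    simp only [coeff_zero] at h1
    have h2 : (X * (X ^ 2 + C D.a * X + C D.b) : K[X]) =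
        X ^ 3 + C D.a * X ^ 2 + C D.b * X := by ring
    rw [h2] at h1
    simp [coeff_C_mul] at h1
  -- choice of `c`
  obtain ⟨c, hc⟩ := Infinite.exists_notMem_finset
    ((derivative f * g - f * derivative g).roots.toFinset.image (fun x => f.eval x / g.eval x) ∪
      (X * (X ^ 2 + C D.a * X + C D.b) : K[X]).roots.toFinset)
  have hc1 : ∀ x : K, (derivative f * g - f * derivative g).eval x = 0 → g.eval x ≠ 0 →
      f.eval x ≠ c * g.eval x := by
    intro x hx hg hfx
    apply hc
    rw [Finset.mem_union]
    left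
    rw [Finset.mem_image]
    refine ⟨x, ?_, ?_⟩
    · rw [Multiset.mem_toFinset, mem_roots hW]
      exact hx
    · rw [hfx, mul_div_assoc, div_self hg, mul_one]
  have hc2 : c * (c ^ 2 + D.a * c + D.b) ≠ 0 := by
    intro h
    apply hc
    rw [Finset.mem_union]
    right
    rw [Multiset.mem_toFinset, mem_roots hT]
    simpa [IsRoot] using h
  -- the polynomial `F = f - c g`
  have hFeval : ∀ x : K, (f - C c * g).eval x = f.eval x - c * g.eval x := by
    intro x
    simp
  have hlt : (C c * g).natDegree < f.natDegree :=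
    lt_of_le_of_lt (natDegree_C_mul_le c g) (by rw [hfdeg]; exact hgdeg)
  have hFmonic : (f - C c * g).Monic := hf.sub_of_left (degree_lt_degree hlt)
  have hFdeg : (f - C c * g).natDegree = n ^ 2 := by
    rw [natDegree_sub_eq_left_of_natDegree_lt hlt, hfdeg]
  have hgne : ∀ x : K, (f - C c * g).eval x = 0 → g.eval x ≠ 0 := by
    intro x hx hg
    refine cta_eval_ne_zero_of_coprime f g hcop x hg ?_
    rw [hFeval, hg, mul_zero, sub_zero] at hx
    exact hx
  have hFsimple : ∀ x : K, (f - C c * g).eval x = 0 →
      (derivative (f - C c * g)).eval x ≠ 0 := by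
    intro x hx hx'
    have hg := hgne x hx
    have h1 : f.eval x = c * g.eval x := by
      rw [hFeval] at hx
      linear_combination hx
    have h2 : (derivative f).eval x = c * (derivative g).eval x := by
      simp only [derivative_sub, derivative_mul, derivative_C, zero_mul, zero_add, eval_sub,
        eval_mul, eval_C] at hx'
      linear_combination hx'
    refine hc1 x ?_ hg h1
    simp only [eval_sub, eval_mul, h1, h2]
    ring
  have hcard : Set.ncard {x : K | (f - C c * g).eval x = 0} = n ^ 2 := by
    rw [cta_ncard_roots _ hFmonic.ne_zero hFsimple, hFdeg]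
  -- the point `Q₀` with `X Q₀ = c`
  obtain ⟨y, hy⟩ := IsAlgClosed.exists_pow_nat_eq (c * (c ^ 2 + D.a * c + D.b))
    (n := 2) (by norm_num)
  obtain ⟨Q₀, hQ₀, hXQ₀, hYQ₀⟩ := hsurj c y hy
  have hQ₀2 : Q₀ + Q₀ ≠ 0 := by
    intro h
    have h0 := (D.two_torsion Q₀ hQ₀).mp h
    rw [hYQ₀] at h0
    rw [h0] at hy
    apply hc2
    rw [← hy]
    ring
  -- the fibre `{P | n • P = Q₀}`
  have hne0 : ∀ P : G, n • P = Q₀ → P ≠ 0 := by
    rintro P hP rfl
    exact hQ₀ (by rw [← hP, smul_zero])
  have hmaps : ∀ P : G, n • P = Q₀ → (f - C c * g).eval (D.X P) = 0 := by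
    intro P hP
    have h := (hspec P (hne0 P hP)).2 (by rw [hP]; exact hQ₀)
    rw [hP, hXQ₀] at h
    rw [hFeval, ← h]
    ring
  have hinj : Set.InjOn D.X {P : G | n • P = Q₀} := by
    intro P hP P' hP' hX
    change n • P = Q₀ at hP
    change n • P' = Q₀ at hP'
    rcases D.eq_or_eq_neg P P' (hne0 P hP) (hne0 P' hP') hX with h | h
    · exact h
    · exfalso
      apply hQ₀2
      have h3 : n • P = -(n • P') := by rw [h, smul_neg]
      rw [hP, hP'] at h3
      nth_rewrite 1 [h3]
      exact neg_add_cancel Q₀
  have hsurj' : ∀ x : K, (f - C c * g).eval x = 0 → ∃ P : G, n • P = Q₀ ∧ D.X P = x := by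
    intro x hx
    obtain ⟨y', hy'⟩ := IsAlgClosed.exists_pow_nat_eq (x * (x ^ 2 + D.a * x + D.b))
      (n := 2) (by norm_num)
    obtain ⟨P, hP, hXP, -⟩ := hsurj x y' hy'
    have h1 : f.eval x = c * g.eval x := by
      rw [hFeval] at hx
      linear_combination hx
    have hg := hgne x hx
    have hnP : n • P ≠ 0 := by
      intro h
      apply hg
      rw [← hXP]
      exact (hspec P hP).1.mp h
    have h2 := (hspec P hP).2 hnP
    rw [hXP, h1] at h2
    have h3 : D.X (n • P) = c := mul_right_cancel₀ hg h2
    rcases D.eq_or_eq_neg (n • P) Q₀ hnP hQ₀ (by rw [h3, hXQ₀]) with h | h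
    · exact ⟨P, h, hXP⟩
    · exact ⟨-P, by rw [smul_neg, h, neg_neg], by rw [D.X_neg, hXP]⟩
  have himage : D.X '' {P : G | n • P = Q₀} = {x : K | (f - C c * g).eval x = 0} := by
    ext x
    constructor
    · rintro ⟨P, hP, rfl⟩
      exact hmaps P hP
    · intro hx
      obtain ⟨P, hP, hXP⟩ := hsurj' x hx
      exact ⟨P, hP, hXP⟩
  have hcardS : Set.ncard {P : G | n • P = Q₀} = n ^ 2 := by
    rw [← hinj.ncard_image, himage, hcard]
  -- a point `P₁` of the fibre, and the translation by it
  obtain ⟨P₁, hP₁⟩ : {P : G | n • P = Q₀}.Nonempty :=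
    Set.nonempty_of_ncard_ne_zero (by rw [hcardS]; omega)
  change n • P₁ = Q₀ at hP₁
  have e : {P : G // n • P = 0} ≃ {P : G // n • P = Q₀} :=
    { toFun := fun P => ⟨P.1 + P₁, by rw [smul_add, P.2, zero_add, hP₁]⟩
      invFun := fun P => ⟨P.1 - P₁, by rw [smul_sub, P.2, hP₁, sub_self]⟩
      left_inv := fun P => by
        apply Subtype.ext
        simp
      right_inv := fun P => by
        apply Subtype.ext
        simp }
  have hcoe : Nat.card {P : G // n • P = Q₀} = Set.ncard {P : G | n • P = Q₀} :=
    Nat.card_coe_set_eq _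
  rw [Nat.card_congr e, hcoe, hcardS]

/-- WP `Count`: there are exactly `n²` points killed by `n`. -/
theorem cta_count (hE : DivExistsStatement) (hS : SpecStatement) : CountStatement := by
  intro G K _ _ _ _ D hb hdisc hsurj n hn
  obtain ⟨f, g, hfg⟩ := hE K D.a D.b hb hdisc
  refine cta_count_aux D hsurj n (f n) (g n) (hfg.f_monic n) (hfg.f_natDegree n) ?_
    (hfg.coprime n) ?_
  · rw [hfg.g_natDegree]
    have h : 0 < n ^ 2 := pow_pos hn 2
    omega
  · intro P hP
    exact hS G K D f g hfg P hP n

end Fermat.Agent.S13
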