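/-
S13, work package `Deepen2`: in residue characteristic `2` (with `b₂ = 4 a` a unit and `b`
integral) no point of odd order of the Kummer line `Y² = X (X² + a X + b)` has an `X`-coordinate
of negative valuation.

Key step: for a point `Q ≠ 0` of odd order with `x = X(Q) ≠ 0`, `v x < 0`, the duplication
formula `X(2Q) (2Y)² = (x² - b)²` with `(2Y)² = 4x³ + (4a)x² + 4bx` gives `v (2Y)² > 3 v x`
(each of the three terms has valuation `> 3 v x` because `v 2 > 0`, `v (4a) = 0`, `v x < 0`,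
`v b ≥ 0`) and `v (x² - b)² = 4 v x`, hence `v X(2Q) < v x`.  Iterating along `2^k • P` and using
`2^φ(n) ≡ 1 mod n` gives a contradiction.
-/
import Mathlib
import Fermat.Agent.S13.Defs

set_option autoImplicit false

namespace Fermat.Agent.S13

open Fermat.Agent.S05

/-- Valuation form of the duplication step in residue characteristic `2`. -/
theorem dp2_dbl_val {K : Type} [Field K] [CharZero K] {ν : AddVal K} {x Y X2 a b : K}
    (hθ : 0 < ν.v 2) (ha : a ≠ 0) (hav : ν.v (4 * a) = 0) (hb : b = 0 ∨ 0 ≤ ν.v b)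
    (hx : x ≠ 0) (hr : ν.v x < 0) (hY : Y ≠ 0)
    (heqn : Y ^ 2 = x * (x ^ 2 + a * x + b))
    (hdbl : X2 * (2 * Y) ^ 2 = (x ^ 2 - b) ^ 2) :
    X2 ≠ 0 ∧ ν.v X2 < ν.v x := by
  have h2 : (2 : K) ≠ 0 := two_ne_zero
  have h4 : (4 : K) ≠ 0 := by
    have e : (4 : K) = 2 * 2 := by norm_num
    rw [e]
    exact mul_ne_zero h2 h2
  have h4v : ν.v (4 : K) = 2 * ν.v 2 := by
    have e : (4 : K) = 2 * 2 := by norm_num
    rw [e, ν.v_mul h2 h2]; ring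
  have h4a : (4 : K) * a ≠ 0 := mul_ne_zero h4 ha
  have hx2 : x ^ 2 ≠ 0 := pow_ne_zero 2 hx
  have hx2v : ν.v (x ^ 2) = 2 * ν.v x := ν.v_sq hx
  have hx3 : x ^ 3 ≠ 0 := pow_ne_zero 3 hx
  have hx3v : ν.v (x ^ 3) = 3 * ν.v x := by
    have h := ν.v_pow hx 3
    push_cast at h
    exact h
  have hbge : ν.Ge b 0 := hb
  -- the numerator `x² - b`
  obtain ⟨hN0, hNv⟩ := AddVal.v_sub_eq_of_gt hx2 (y := b)
    (hbge.gt_of_lt (by rw [hx2v]; linarith))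
  -- the denominator `(2Y)² = 4x³ + (4a)x² + 4bx`
  have hΔ0 : (2 * Y) ^ 2 ≠ 0 := pow_ne_zero 2 (mul_ne_zero h2 hY)
  have hΔ : (2 * Y) ^ 2 = 4 * x ^ 3 + (4 * a) * x ^ 2 + 4 * (b * x) := by
    linear_combination 4 * heqn
  have t1 : ν.Gt (4 * x ^ 3) (3 * ν.v x) := by
    refine AddVal.gt_of_ne ?_
    rw [ν.v_mul h4 hx3, h4v, hx3v]; linarith
  have t2 : ν.Gt ((4 * a) * x ^ 2) (3 * ν.v x) := by
    refine AddVal.gt_of_ne ?_
    rw [ν.v_mul h4a hx2, hav, hx2v]; linarith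
  have t3 : ν.Gt (4 * (b * x)) (3 * ν.v x) := by
    have h4gt : ν.Gt (4 : K) 0 := AddVal.gt_of_ne (by rw [h4v]; linarith)
    have hbx : ν.Ge (b * x) (0 + ν.v x) := hbge.mul (AddVal.ge_self x)
    exact (h4gt.mul_ge hbx).mono (by linarith)
  have hΔgt : ν.Gt ((2 * Y) ^ 2) (3 * ν.v x) := by
    rw [hΔ]; exact (t1.add t2).add t3
  have hΔv := hΔgt.lt hΔ0
  have hL0 : X2 * (2 * Y) ^ 2 ≠ 0 := by rw [hdbl]; exact pow_ne_zero 2 hN0
  have hX2 : X2 ≠ 0 := left_ne_zero_of_mul hL0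
  refine ⟨hX2, ?_⟩
  have hv := congrArg ν.v hdbl
  rw [ν.v_mul hX2 hΔ0, ν.v_sq hN0, hNv, hx2v] at hv
  linarith

/-- A nonzero point killed by `p` is not killed by any `n` coprime to `p`. -/
theorem dp2_nsmul_ne_zero {G : Type} [AddCommGroup G] {P : G} (hP : P ≠ 0) {p n : ℕ}
    (hpP : p • P = 0) (hcop : Nat.Coprime n p) : n • P ≠ 0 := by
  intro hn
  have h1 : addOrderOf P ∣ n := addOrderOf_dvd_of_nsmul_eq_zero hn
  have h2 : addOrderOf P ∣ p := addOrderOf_dvd_of_nsmul_eq_zero hpP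
  have h3 : addOrderOf P ∣ Nat.gcd n p := Nat.dvd_gcd h1 h2
  rw [hcop.gcd_eq_one] at h3
  have h4 : addOrderOf P = 1 := Nat.dvd_one.mp h3
  exact hP (AddMonoid.addOrderOf_eq_one_iff.mp h4)

theorem dp2_nsmul_mod {G : Type} [AddCommGroup G] {P : G} {p : ℕ} (hpP : p • P = 0) (n : ℕ) :
    n • P = (n % p) • P := by
  conv_lhs => rw [← Nat.div_add_mod n p]
  rw [add_nsmul, mul_nsmul, hpP, nsmul_zero, zero_add]

/-- The duplication step: a nonzero point `Q` of odd order with `v (X Q) < 0` has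
`Q + Q ≠ 0`, `X (Q + Q) ≠ 0` and `v (X (Q + Q)) < v (X Q)`. -/
theorem dp2_step {G K : Type} [AddCommGroup G] [Field K] [CharZero K] (D : KummerData G K)
    (ν : AddVal K) (hθ : 0 < ν.v 2) (ha : D.a ≠ 0) (hav : ν.v (4 * D.a) = 0)
    (hb : D.b = 0 ∨ 0 ≤ ν.v D.b) {n : ℕ} (hn : Odd n) {Q : G} (hQ0 : Q ≠ 0)
    (hnQ : n • Q = 0) (hX : D.X Q ≠ 0) (hr : ν.v (D.X Q) < 0) :
    Q + Q ≠ 0 ∧ D.X (Q + Q) ≠ 0 ∧ ν.v (D.X (Q + Q)) < ν.v (D.X Q) := by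
  have hQQ : Q + Q ≠ 0 := by
    have h := dp2_nsmul_ne_zero hQ0 hnQ (n := 2) (Nat.coprime_two_left.mpr hn)
    rwa [two_nsmul] at h
  have hY : D.Y Q ≠ 0 := fun h => hQQ ((D.two_torsion Q hQ0).mpr h)
  obtain ⟨h1, h2⟩ := dp2_dbl_val hθ ha hav hb hX hr hY (D.eqn Q hQ0) (D.dbl Q hQ0 hQQ)
  exact ⟨hQQ, h1, h2⟩

/-- WP `Deepen2`. -/
theorem dp2_deepen2 : Deepen2Statement := by
  intro G K _ _ _ D ν hθ ha hav hb n hn P hP hX hv hnP
  by_cases hn1 : n = 1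
  · subst hn1
    rw [one_nsmul] at hnP
    exact hP hnP
  have hcop1 : Nat.Coprime 2 n := Nat.coprime_two_left.mpr hn
  have hnQ : ∀ j : ℕ, n • (2 ^ j • P) = 0 := fun j => by
    rw [smul_comm, hnP, nsmul_zero]
  have key : ∀ j : ℕ, (2 ^ (j + 1) • P ≠ 0 ∧ D.X (2 ^ (j + 1) • P) ≠ 0 ∧
      ν.v (D.X (2 ^ (j + 1) • P)) < 0) ∧ ν.v (D.X (2 ^ (j + 1) • P)) < ν.v (D.X P) := by
    intro j
    induction j with
    | zero =>
      rw [zero_add, pow_one, two_nsmul]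
      obtain ⟨h1, h2, h3⟩ := dp2_step D ν hθ ha hav hb hn hP hnP hX hv
      exact ⟨⟨h1, h2, lt_trans h3 hv⟩, h3⟩
    | succ j ih =>
      obtain ⟨⟨i1, i2, i3⟩, i4⟩ := ih
      obtain ⟨h1, h2, h3⟩ := dp2_step D ν hθ ha hav hb hn i1 (hnQ _) i2 i3
      have e : 2 ^ (j + 1 + 1) • P = 2 ^ (j + 1) • P + 2 ^ (j + 1) • P := by
        rw [pow_succ, mul_nsmul, two_nsmul]
      rw [e]
      exact ⟨⟨h1, h2, lt_trans h3 i3⟩, lt_trans h3 i4⟩
  have hpos : 0 < Nat.totient n := Nat.totient_pos.mpr hn.pos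
  obtain ⟨j, hj⟩ : ∃ j, Nat.totient n = j + 1 := ⟨Nat.totient n - 1, by omega⟩
  have hflt : 2 ^ Nat.totient n % n = 1 % n := Nat.ModEq.pow_totient hcop1
  have hn2 : 1 < n := by
    have := hn.pos
    omega
  have hPP : 2 ^ (j + 1) • P = P := by
    rw [← hj, dp2_nsmul_mod hnP, hflt, Nat.mod_eq_of_lt hn2, one_nsmul]
  have hfin := (key j).2
  rw [hPP] at hfin
  exact lt_irrefl _ hfin

end Fermat.Agent.S13
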