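/-
S13, work package `DivExists` (variant B): existence of "division polynomial data" for the curve
`Y² = X (X² + a X + b)`.

The proof is purely algebraic (no elliptic curve is used).  Writing the `X`-coordinate of `n • P`
as `f n / g n`, the pair `{(n+1) • P, (n-1) • P}` is cut out by the quadratic form
`C_n u² - B_n u v + A_n v²` with
`A_n = (X f_n - b g_n)²`, `C_n = (f_n - X g_n)²`,
`B_n = 2 (f_n + X g_n) (X f_n + b g_n) + 4 a X f_n g_n`.
The key point is that the triquadratic form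
`Rel (f₁ : g₁) (f₃ : g₃) = C(f₁, g₁) f₃² - B(f₁, g₁) f₃ g₃ + A(f₁, g₁) g₃²` is symmetric in its two
arguments.  Hence, if the three identities hold at stage `n`, then `(f_n : g_n)` is a root of the
quadratic form of stage `n + 1`, and coprimality of `f_n`, `g_n` yields the exact divisions
defining `f_{n+2}`, `g_{n+2}`.  Coprimality of the new pair follows from the fact that no prime
divides `A`, `B` and `C` simultaneously (here `b ≠ 0` and `a² ≠ 4 b` are used).
-/
import Fermat.Agent.S13.Defs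

set_option autoImplicit false

namespace Fermat.Agent.S13

open Polynomial

section deb

variable {k : Type} [Field k]

/-- The form `A(f, g) = (X f - b g)²`. -/
noncomputable def deb_PA (b : k) (f g : k[X]) : k[X] := (X * f - C b * g) ^ 2

/-- The form `C(f, g) = (f - X g)²`. -/
noncomputable def deb_PC (f g : k[X]) : k[X] := (f - X * g) ^ 2

/-- The form `B(f, g) = 2 (f + X g) (X f + b g) + 4 a X f g`. -/
noncomputable def deb_PB (a b : k) (f g : k[X]) : k[X] :=
  2 * (f + X * g) * (X * f + C b * g) + 4 * C a * X * f * g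

/-- The triquadratic relation (the third point being `(X : 1)`). -/
noncomputable def deb_Rel (a b : k) (f1 g1 f3 g3 : k[X]) : k[X] :=
  deb_PC f1 g1 * f3 ^ 2 - deb_PB a b f1 g1 * (f3 * g3) + deb_PA b f1 g1 * g3 ^ 2

/-- Symmetry of the triquadratic relation. -/
theorem deb_Rel_symm (a b : k) (f1 g1 f3 g3 : k[X]) :
    deb_Rel a b f1 g1 f3 g3 = deb_Rel a b f3 g3 f1 g1 := by
  unfold deb_Rel deb_PA deb_PB deb_PC
  ring

/-- The sequence of pairs `(f n, g n)`. -/
noncomputable def deb_fg (a b : k) : ℕ → k[X] × k[X]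
  | 0 => (1, 0)
  | 1 => (X, 1)
  | (n + 2) =>
    (deb_PA b (deb_fg a b (n + 1)).1 (deb_fg a b (n + 1)).2 / (deb_fg a b n).1,
      (deb_PB a b (deb_fg a b (n + 1)).1 (deb_fg a b (n + 1)).2 -
        deb_PA b (deb_fg a b (n + 1)).1 (deb_fg a b (n + 1)).2 / (deb_fg a b n).1 *
          (deb_fg a b n).2) / (deb_fg a b n).1)

theorem deb_fg_zero (a b : k) : deb_fg a b 0 = (1, 0) := by
  rw [deb_fg]

theorem deb_fg_one (a b : k) : deb_fg a b 1 = (X, 1) := by
  rw [deb_fg]

theorem deb_fg_add_two (a b : k) (n : ℕ) :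
    deb_fg a b (n + 2) =
      (deb_PA b (deb_fg a b (n + 1)).1 (deb_fg a b (n + 1)).2 / (deb_fg a b n).1,
        (deb_PB a b (deb_fg a b (n + 1)).1 (deb_fg a b (n + 1)).2 -
          deb_PA b (deb_fg a b (n + 1)).1 (deb_fg a b (n + 1)).2 / (deb_fg a b n).1 *
            (deb_fg a b n).2) / (deb_fg a b n).1) := by
  rw [deb_fg]

/-- The exact divisions: if `(f0 : g0)` is a root of the quadratic form attached to `(f1, g1)`
and `f0`, `g0` are coprime, then the quotients satisfy the three identities. -/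
theorem deb_step_ids (a b : k) (f0 g0 f1 g1 : k[X]) (hf0 : f0 ≠ 0) (hcop : IsCoprime f0 g0)
    (hrel : deb_Rel a b f1 g1 f0 g0 = 0) :
    f0 * (deb_PA b f1 g1 / f0) = deb_PA b f1 g1 ∧
      f0 * ((deb_PB a b f1 g1 - deb_PA b f1 g1 / f0 * g0) / f0) =
        deb_PB a b f1 g1 - deb_PA b f1 g1 / f0 * g0 ∧
      g0 * ((deb_PB a b f1 g1 - deb_PA b f1 g1 / f0 * g0) / f0) = deb_PC f1 g1 := by
  unfold deb_Rel at hrel
  have h1 : f0 ∣ deb_PA b f1 g1 := by
    have h : f0 ∣ deb_PA b f1 g1 * g0 ^ 2 :=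
      ⟨deb_PB a b f1 g1 * g0 - deb_PC f1 g1 * f0, by linear_combination hrel⟩
    exact hcop.pow_right.dvd_of_dvd_mul_right h
  have e1 : f0 * (deb_PA b f1 g1 / f0) = deb_PA b f1 g1 := EuclideanDomain.mul_div_cancel' hf0 h1
  generalize deb_PA b f1 g1 / f0 = f2 at e1 ⊢
  have h2 : deb_PC f1 g1 * f0 = g0 * (deb_PB a b f1 g1 - f2 * g0) := by
    apply mul_left_cancel₀ hf0
    linear_combination hrel + g0 ^ 2 * e1
  have h3 : f0 ∣ deb_PB a b f1 g1 - f2 * g0 :=
    hcop.dvd_of_dvd_mul_left ⟨deb_PC f1 g1, by linear_combination -h2⟩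
  have e2 : f0 * ((deb_PB a b f1 g1 - f2 * g0) / f0) = deb_PB a b f1 g1 - f2 * g0 :=
    EuclideanDomain.mul_div_cancel' hf0 h3
  refine ⟨e1, e2, ?_⟩
  generalize (deb_PB a b f1 g1 - f2 * g0) / f0 = g2 at e2 ⊢
  apply mul_left_cancel₀ hf0
  linear_combination g0 * e2 - h2

/-- No prime divides `A(f, g)`, `B(f, g)` and `C(f, g)` when `f`, `g` are coprime. -/
theorem deb_no_common_prime [CharZero k] (a b : k) (hb : b ≠ 0) (hab : a ^ 2 - 4 * b ≠ 0)
    (f g p : k[X]) (hp : Prime p) (hcop : IsCoprime f g) (hA : p ∣ deb_PA b f g)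
    (hB : p ∣ deb_PB a b f g) (hC : p ∣ deb_PC f g) : False := by
  have hv : p ∣ X * f - C b * g := hp.dvd_of_dvd_pow hA
  have hu : p ∣ f - X * g := hp.dvd_of_dvd_pow hC
  have hunit : ∀ c : k, c ≠ 0 → ¬ p ∣ C c := fun c hc h =>
    hp.not_isUnit (isUnit_of_dvd_unit h (isUnit_C.mpr (isUnit_iff_ne_zero.mpr hc)))
  obtain ⟨r, s, hrs⟩ := hcop
  have hw : p ∣ X ^ 2 - C b := by
    have e : X ^ 2 - C b = (r * X + s) * (X * f - C b * g) + (-(r * C b) - s * X) * (f - X * g) := by
      linear_combination (-(X ^ 2 - C b)) * hrs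
    rw [e]
    exact dvd_add (dvd_mul_of_dvd_right hv _) (dvd_mul_of_dvd_right hu _)
  have hB' : p ∣ C (4 * b) * g ^ 2 * (2 * X + C a) := by
    have e : C (4 * b) * g ^ 2 * (2 * X + C a) = deb_PB a b f g -
        (X ^ 2 - C b) * (4 * X * g ^ 2 + 4 * C a * g ^ 2 + 2 * (f - X * g) * g) -
        (f - X * g) * (4 * X ^ 2 * g + 4 * C b * g + 2 * X * (f - X * g) + 4 * C a * X * g) := by
      unfold deb_PB
      simp only [map_mul, map_ofNat]
      ring
    rw [e]
    exact dvd_sub (dvd_sub hB (dvd_mul_of_dvd_left hw _)) (dvd_mul_of_dvd_left hu _)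
  have h4b : (4 * b : k) ≠ 0 := mul_ne_zero (by norm_num) hb
  rcases hp.dvd_or_dvd hB' with h | h
  · rcases hp.dvd_or_dvd h with h | h
    · exact hunit _ h4b h
    · have hg : p ∣ g := hp.dvd_of_dvd_pow h
      have hf : p ∣ f := by
        have e : f = (f - X * g) + X * g := by ring
        rw [e]
        exact dvd_add hu (dvd_mul_of_dvd_right hg _)
      have h1 : p ∣ 1 := by
        rw [← hrs]
        exact dvd_add (dvd_mul_of_dvd_right hf _) (dvd_mul_of_dvd_right hg _)
      exact hp.not_isUnit (isUnit_of_dvd_one h1)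
  · apply hunit _ hab
    have e : C (a ^ 2 - 4 * b) = 4 * (X ^ 2 - C b) - (2 * X + C a) * (2 * X - C a) := by
      simp only [map_sub, map_mul, map_pow, map_ofNat]
      ring
    rw [e]
    exact dvd_sub (dvd_mul_of_dvd_right hw _) (dvd_mul_of_dvd_left h _)

/-- `X f - b g` is monic of degree `deg f + 1` when `f` is monic and `deg g ≤ deg f`. -/
theorem deb_lin_monic (b : k) (f g : k[X]) (m : ℕ) (hf : f.Monic) (hfd : f.natDegree = m)
    (hgd : g.natDegree ≤ m) :
    (X * f - C b * g).Monic ∧ (X * f - C b * g).natDegree = m + 1 := by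
  have hXf : (X * f).natDegree = m + 1 := by rw [natDegree_X_mul hf.ne_zero, hfd]
  have hlt : (C b * g).natDegree < (X * f).natDegree := by
    rw [hXf]
    exact lt_of_le_of_lt (natDegree_C_mul_le b g) (Nat.lt_succ_of_le hgd)
  exact ⟨(monic_X.mul hf).sub_of_left (degree_lt_degree hlt),
    by rw [natDegree_sub_eq_left_of_natDegree_lt hlt, hXf]⟩

/-- `f - X g` has degree `m + 1` and leading coefficient `1 - c` when `f` is monic of degree
`m + 1`, `g` has degree `m` and leading coefficient `c ≠ 1`. -/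
theorem deb_diff_degree (f g : k[X]) (m : ℕ) (c : k) (hf : f.Monic) (hfd : f.natDegree = m + 1)
    (hgd : g.natDegree = m) (hgl : g.leadingCoeff = c) (hc : 1 - c ≠ 0) :
    (f - X * g).natDegree = m + 1 ∧ (f - X * g).leadingCoeff = 1 - c := by
  have hle : (f - X * g).natDegree ≤ m + 1 := by
    have h := natDegree_sub_le_of_le (p := f) (q := X * g) (m := m + 1) (n := m + 1) hfd.le
      (le_trans natDegree_mul_le (by rw [natDegree_X, hgd, add_comm]))
    simpa using h
  have hco : (f - X * g).coeff (m + 1) = 1 - c := by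
    rw [coeff_sub, coeff_X_mul, ← hfd, hf.coeff_natDegree, ← hgd, coeff_natDegree, hgl]
  have hnd : (f - X * g).natDegree = m + 1 :=
    natDegree_eq_of_le_of_coeff_ne_zero hle (by rw [hco]; exact hc)
  exact ⟨hnd, by rw [leadingCoeff, hnd, hco]⟩

/-- The invariant of the construction at stage `n`, for
`(f0, g0, f1, g1) = (f n, g n, f (n + 1), g (n + 1))`. -/
def deb_Inv (a b : k) (n : ℕ) (f0 g0 f1 g1 : k[X]) : Prop :=
  deb_Rel a b f1 g1 f0 g0 = 0 ∧ IsCoprime f0 g0 ∧ IsCoprime f1 g1 ∧ f0.Monic ∧ f1.Monic ∧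
    f0.natDegree = n ^ 2 ∧ f1.natDegree = (n + 1) ^ 2 ∧
    g0.natDegree = n ^ 2 - 1 ∧ g1.natDegree = (n + 1) ^ 2 - 1 ∧
    g0.leadingCoeff = (n : k) ^ 2 ∧ g1.leadingCoeff = ((n + 1 : ℕ) : k) ^ 2 ∧
    (n = 0 → f0 = 1 ∧ g0 = 0 ∧ f1 = X ∧ g1 = 1)

theorem deb_Inv_zero (a b : k) : deb_Inv a b 0 1 0 X 1 := by
  refine ⟨?_, isCoprime_one_left, isCoprime_one_right, monic_one, monic_X, ?_, ?_, ?_, ?_, ?_, ?_,
    fun _ => ⟨rfl, rfl, rfl, rfl⟩⟩
  · unfold deb_Rel deb_PC
    ring
  · simp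
  · simp
  · simp
  · simp
  · simp
  · simp

/-- The induction step. -/
theorem deb_step [CharZero k] (a b : k) (hb : b ≠ 0) (hab : a ^ 2 - 4 * b ≠ 0) (n : ℕ)
    (f0 g0 f1 g1 f2 g2 : k[X]) (h : deb_Inv a b n f0 g0 f1 g1)
    (e1 : f0 * f2 = deb_PA b f1 g1) (e2 : f0 * g2 = deb_PB a b f1 g1 - f2 * g0)
    (e3 : g0 * g2 = deb_PC f1 g1) : deb_Inv a b (n + 1) f1 g1 f2 g2 := by
  obtain ⟨-, -, hc1, hm0, hm1, hd0, hd1, he0, he1, hl0, hl1, hz⟩ := h
  -- the relation at the next stage
  have hrel' : deb_Rel a b f2 g2 f1 g1 = 0 := by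
    rw [deb_Rel_symm]
    unfold deb_Rel
    linear_combination (-f2 ^ 2) * e3 + (f2 * g2) * e2 - g2 ^ 2 * e1
  -- `f2` is monic of the right degree
  obtain ⟨hlm, hld⟩ := deb_lin_monic b f1 g1 ((n + 1) ^ 2) hm1 hd1 (by rw [he1]; exact Nat.sub_le _ _)
  have hPAm : (deb_PA b f1 g1).Monic := hlm.pow 2
  have hPAd : (deb_PA b f1 g1).natDegree = 2 * ((n + 1) ^ 2 + 1) := by
    unfold deb_PA
    rw [hlm.natDegree_pow, hld]
  have hm2 : f2.Monic := hm0.of_mul_monic_left (by rw [e1]; exact hPAm)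
  have hd2 : f2.natDegree = (n + 1 + 1) ^ 2 := by
    have h := hm0.natDegree_mul hm2
    rw [e1, hPAd, hd0] at h
    have e : (n + 1 + 1) ^ 2 + n ^ 2 = 2 * ((n + 1) ^ 2 + 1) := by ring
    omega
  -- coprimality
  have hc2 : IsCoprime f2 g2 := by
    apply isCoprime_of_prime_dvd
    · rintro ⟨h2, -⟩
      exact hm2.ne_zero h2
    · intro p hp hf hg
      refine deb_no_common_prime a b hb hab f1 g1 p hp hc1 ?_ ?_ ?_
      · rw [← e1]
        exact dvd_mul_of_dvd_right hf _
      · have e : deb_PB a b f1 g1 = f0 * g2 + f2 * g0 := by linear_combination -e2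
        rw [e]
        exact dvd_add (dvd_mul_of_dvd_right hg _) (dvd_mul_of_dvd_left hf _)
      · rw [← e3]
        exact dvd_mul_of_dvd_right hg _
  -- degree and leading coefficient of `g2`
  have hg2 : g2.natDegree = (n + 1 + 1) ^ 2 - 1 ∧ g2.leadingCoeff = ((n + 1 + 1 : ℕ) : k) ^ 2 := by
    rcases Nat.eq_zero_or_pos n with hn | hn
    · obtain ⟨rfl, rfl, rfl, rfl⟩ := hz hn
      subst hn
      have e : g2 = C (4 : k) * X ^ 3 + C (4 * a) * X ^ 2 + C (4 * b) * X + C 0 := by
        have e2' := e2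
        unfold deb_PB at e2'
        simp only [map_mul, map_ofNat, map_zero]
        linear_combination e2'
      have h4 : (4 : k) ≠ 0 := by norm_num
      rw [e]
      refine ⟨natDegree_cubic h4, ?_⟩
      rw [leadingCoeff_cubic h4]
      push_cast
      norm_num
    · have hn0 : (n : k) ≠ 0 := Nat.cast_ne_zero.mpr hn.ne'
      have hn2 : (n : k) + 2 ≠ 0 := by
        have h : ((n + 2 : ℕ) : k) ≠ 0 := Nat.cast_ne_zero.mpr (by omega)
        simpa using h
      have hc : (1 : k) - ((n + 1 : ℕ) : k) ^ 2 = -((n : k) * ((n : k) + 2)) := by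
        push_cast
        ring
      have hsq : 1 ≤ n ^ 2 := Nat.one_le_pow _ _ hn
      have hsq1 : (n + 1) ^ 2 = n ^ 2 + 2 * n + 1 := by ring
      have hsq2 : (n + 1 + 1) ^ 2 = n ^ 2 + 4 * n + 4 := by ring
      obtain ⟨hdd, hdl⟩ := deb_diff_degree f1 g1 ((n + 1) ^ 2 - 1) (((n + 1 : ℕ) : k) ^ 2) hm1
        (by rw [hd1]; omega) he1 hl1
        (by rw [hc]; exact neg_ne_zero.mpr (mul_ne_zero hn0 hn2))
      have hPCd : (deb_PC f1 g1).natDegree = 2 * ((n + 1) ^ 2 - 1 + 1) := by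
        unfold deb_PC
        rw [natDegree_pow, hdd]
      have hPCl : (deb_PC f1 g1).leadingCoeff = ((n : k) * ((n : k) + 2)) ^ 2 := by
        unfold deb_PC
        rw [leadingCoeff_pow, hdl, hc]
        ring
      have hPC0 : deb_PC f1 g1 ≠ 0 := by
        intro h0
        rw [h0, leadingCoeff_zero] at hPCl
        exact pow_ne_zero 2 (mul_ne_zero hn0 hn2) hPCl.symm
      have hg0 : g0 ≠ 0 := by
        intro h0
        rw [h0, zero_mul] at e3
        exact hPC0 e3.symm
      have hg20 : g2 ≠ 0 := by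
        intro h0
        rw [h0, mul_zero] at e3
        exact hPC0 e3.symm
      constructor
      · have h := natDegree_mul hg0 hg20
        rw [e3, hPCd, he0] at h
        omega
      · have h := leadingCoeff_mul g0 g2
        rw [e3, hPCl, hl0] at h
        apply mul_left_cancel₀ (pow_ne_zero 2 hn0)
        rw [← h]
        push_cast
        ring
  exact ⟨hrel', hc1, hc2, hm1, hm2, hd1, hd2, he1, hg2.1, hl1, hg2.2, fun h => absurd h (by omega)⟩

/-- The invariant holds at every stage. -/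
theorem deb_inv_all [CharZero k] (a b : k) (hb : b ≠ 0) (hab : a ^ 2 - 4 * b ≠ 0) (n : ℕ) :
    deb_Inv a b n (deb_fg a b n).1 (deb_fg a b n).2 (deb_fg a b (n + 1)).1
      (deb_fg a b (n + 1)).2 := by
  induction n with
  | zero =>
    rw [deb_fg_zero, deb_fg_one]
    exact deb_Inv_zero a b
  | succ n ih =>
    obtain ⟨e1, e2, e3⟩ := deb_step_ids a b (deb_fg a b n).1 (deb_fg a b n).2
      (deb_fg a b (n + 1)).1 (deb_fg a b (n + 1)).2 ih.2.2.2.1.ne_zero ih.2.1 ih.1
    have h := deb_step a b hb hab n _ _ _ _ _ _ ih e1 e2 e3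
    rw [deb_fg_add_two]
    exact h

/-- The three identities between consecutive stages. -/
theorem deb_ids_all [CharZero k] (a b : k) (hb : b ≠ 0) (hab : a ^ 2 - 4 * b ≠ 0) (n : ℕ) :
    (deb_fg a b n).1 * (deb_fg a b (n + 2)).1 =
        deb_PA b (deb_fg a b (n + 1)).1 (deb_fg a b (n + 1)).2 ∧
      (deb_fg a b n).1 * (deb_fg a b (n + 2)).2 =
        deb_PB a b (deb_fg a b (n + 1)).1 (deb_fg a b (n + 1)).2 -
          (deb_fg a b (n + 2)).1 * (deb_fg a b n).2 ∧
      (deb_fg a b n).2 * (deb_fg a b (n + 2)).2 =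
        deb_PC (deb_fg a b (n + 1)).1 (deb_fg a b (n + 1)).2 := by
  have ih := deb_inv_all a b hb hab n
  have h := deb_step_ids a b (deb_fg a b n).1 (deb_fg a b n).2
    (deb_fg a b (n + 1)).1 (deb_fg a b (n + 1)).2 ih.2.2.2.1.ne_zero ih.2.1 ih.1
  rw [deb_fg_add_two]
  exact h

end deb

/-- WP `DivExists`: existence of division polynomial data. -/
theorem deb_divExists : DivExistsStatement := by
  intro k _ _ a b hb hab
  refine ⟨fun n => (deb_fg a b n).1, fun n => (deb_fg a b n).2, ?_⟩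
  have H := deb_inv_all a b hb hab
  have I := deb_ids_all a b hb hab
  refine
    { f_zero := by simp only [deb_fg_zero]
      g_zero := by simp only [deb_fg_zero]
      f_one := by simp only [deb_fg_one]
      g_one := by simp only [deb_fg_one]
      idA := ?_
      idC := ?_
      idB := ?_
      coprime := fun n => (H n).2.1
      f_monic := fun n => (H n).2.2.2.1
      f_natDegree := fun n => (H n).2.2.2.2.2.1
      g_natDegree := fun n => (H n).2.2.2.2.2.2.2.1
      g_leadingCoeff := fun n => (H n).2.2.2.2.2.2.2.2.2.1 }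
  · intro n hn
    obtain ⟨m, rfl⟩ := Nat.exists_eq_add_of_le' hn
    obtain ⟨e1, -, -⟩ := I m
    simp only [Nat.add_sub_cancel]
    unfold deb_PA at e1
    linear_combination e1
  · intro n hn
    obtain ⟨m, rfl⟩ := Nat.exists_eq_add_of_le' hn
    obtain ⟨-, -, e3⟩ := I m
    simp only [Nat.add_sub_cancel]
    unfold deb_PC at e3
    linear_combination e3
  · intro n hn
    obtain ⟨m, rfl⟩ := Nat.exists_eq_add_of_le' hn
    obtain ⟨-, e2, -⟩ := I m
    simp only [Nat.add_sub_cancel]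
    unfold deb_PB at e2
    linear_combination e2

end Fermat.Agent.S13
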