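/-
S13, work package `E1Add`: in odd residue characteristic the points of the Kummer line
`Y² = X (X² + a X + b)` (with `a`, `b` integral) whose `X`-coordinate has negative valuation,
together with `0`, are closed under addition.
-/
import Fermat.Agent.S13.Defs

set_option autoImplicit false

namespace Fermat.Agent.S13

open Fermat.Agent.S05

/-- Duplication: if `v (X P) < 0` and `P + P ≠ 0` then `v (X (P + P)) = v (X P) < 0`. -/
theorem e1a_dbl {G K : Type} [AddCommGroup G] [Field K] [CharZero K] (D : KummerData G K)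
    (ν : AddVal K) (h2 : ν.v 2 = 0) (ha : ν.Ge D.a 0) (hb : ν.Ge D.b 0)
    (P : G) (hP : P ≠ 0) (hx : D.X P ≠ 0) (hvx : ν.v (D.X P) < 0) (hPP : P + P ≠ 0) :
    D.X (P + P) ≠ 0 ∧ ν.v (D.X (P + P)) < 0 := by
  have hdbl := D.dbl P hP hPP
  have heqn := D.eqn P hP
  have h2ne : (2 : K) ≠ 0 := two_ne_zero
  have hx2 : D.X P ^ 2 ≠ 0 := pow_ne_zero 2 hx
  have hvx2 : ν.v (D.X P ^ 2) = 2 * ν.v (D.X P) := ν.v_sq hx
  -- `a x + b` has valuation `> 2 v x`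
  have hax : ν.Gt (D.a * D.X P) (ν.v (D.X P ^ 2)) := by
    have h := ha.mul (AddVal.ge_self (ν := ν) (D.X P))
    rw [zero_add] at h
    exact h.gt_of_lt (by rw [hvx2]; linarith)
  have hb' : ν.Gt D.b (ν.v (D.X P ^ 2)) := hb.gt_of_lt (by rw [hvx2]; linarith)
  have h1 : D.X P ^ 2 + (D.a * D.X P + D.b) ≠ 0 ∧
      ν.v (D.X P ^ 2 + (D.a * D.X P + D.b)) = ν.v (D.X P ^ 2) :=
    AddVal.v_add_eq_of_gt hx2 (hax.add hb')
  have h3 : D.X P ^ 2 - D.b ≠ 0 ∧ ν.v (D.X P ^ 2 - D.b) = ν.v (D.X P ^ 2) :=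
    AddVal.v_sub_eq_of_gt hx2 hb'
  have key : D.X (P + P) * (2 * 2 * (D.X P * (D.X P ^ 2 + (D.a * D.X P + D.b)))) =
      (D.X P ^ 2 - D.b) ^ 2 := by
    rw [← hdbl, mul_pow, heqn]; ring
  have hrhs : (D.X P ^ 2 - D.b) ^ 2 ≠ 0 := pow_ne_zero 2 h3.1
  have hX : D.X (P + P) ≠ 0 := by
    intro h0
    rw [h0, zero_mul] at key
    exact hrhs key.symm
  refine ⟨hX, ?_⟩
  have hv := congrArg ν.v key
  rw [ν.v_mul hX (mul_ne_zero (mul_ne_zero h2ne h2ne) (mul_ne_zero hx h1.1)),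
    ν.v_mul (mul_ne_zero h2ne h2ne) (mul_ne_zero hx h1.1), ν.v_mul h2ne h2ne, h2,
    ν.v_mul hx h1.1, h1.2, ν.v_sq h3.1, h3.2, hvx2] at hv
  linarith

/-- Addition of two points with distinct `X`-coordinates of negative valuation. -/
theorem e1a_add {G K : Type} [AddCommGroup G] [Field K] [CharZero K] (D : KummerData G K)
    (ν : AddVal K) (h2 : ν.v 2 = 0) (ha : ν.Ge D.a 0) (hb : ν.Ge D.b 0)
    (P Q : G) (hP : P ≠ 0) (hQ : Q ≠ 0) (hx : D.X P ≠ 0) (hvx : ν.v (D.X P) < 0)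
    (hz : D.X Q ≠ 0) (hvz : ν.v (D.X Q) < 0) (hne : D.X P ≠ D.X Q) :
    D.X (P + Q) ≠ 0 ∧ ν.v (D.X (P + Q)) < 0 := by
  have hmul := D.addsub_mul P Q hP hQ hne
  have hadd := D.addsub_add P Q hP hQ hne
  have h2ne : (2 : K) ≠ 0 := two_ne_zero
  have hxz : D.X P * D.X Q ≠ 0 := mul_ne_zero hx hz
  have hvxz : ν.v (D.X P * D.X Q) = ν.v (D.X P) + ν.v (D.X Q) := ν.v_mul hx hz
  have hd : D.X P - D.X Q ≠ 0 := sub_ne_zero.mpr hne
  have hd2 : (D.X P - D.X Q) ^ 2 ≠ 0 := pow_ne_zero 2 hd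
  have hb' : ν.Gt D.b (ν.v (D.X P * D.X Q)) := hb.gt_of_lt (by rw [hvxz]; linarith)
  have h1 : D.X P * D.X Q - D.b ≠ 0 ∧ ν.v (D.X P * D.X Q - D.b) = ν.v (D.X P * D.X Q) :=
    AddVal.v_sub_eq_of_gt hxz hb'
  have hrhs : (D.X P * D.X Q - D.b) ^ 2 ≠ 0 := pow_ne_zero 2 h1.1
  have hXp : D.X (P + Q) ≠ 0 := by
    intro h0
    rw [h0, zero_mul, zero_mul] at hmul
    exact hrhs hmul.symm
  have hXm : D.X (P - Q) ≠ 0 := by
    intro h0
    rw [h0, mul_zero, zero_mul] at hmul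
    exact hrhs hmul.symm
  refine ⟨hXp, ?_⟩
  have hv := congrArg ν.v hmul
  rw [ν.v_mul (mul_ne_zero hXp hXm) hd2, ν.v_mul hXp hXm, ν.v_sq hd, ν.v_sq h1.1, h1.2,
    hvxz] at hv
  -- hv : v X₊ + v X₋ + 2 v (x - z) = 2 (v x + v z)
  by_contra hcon
  have hcon' : 0 ≤ ν.v (D.X (P + Q)) := not_lt.mp hcon
  have hm1 : min (ν.v (D.X P)) (ν.v (D.X Q)) ≤ ν.v (D.X P) := min_le_left _ _
  have hm2 : min (ν.v (D.X P)) (ν.v (D.X Q)) ≤ ν.v (D.X Q) := min_le_right _ _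
  have hdge : min (ν.v (D.X P)) (ν.v (D.X Q)) ≤ ν.v (D.X P - D.X Q) := ν.v_sub_ge hx hz hd
  have hmc : min (ν.v (D.X P)) (ν.v (D.X Q)) = ν.v (D.X P) ∨
      min (ν.v (D.X P)) (ν.v (D.X Q)) = ν.v (D.X Q) := min_choice _ _
  -- `v X₋ < v X₊`
  have hlt : ν.v (D.X (P - Q)) < ν.v (D.X (P + Q)) := by
    rcases hmc with h | h <;> rw [h] at hdge <;> linarith
  obtain ⟨hsum0, hsumv⟩ := ν.v_add_eq_of_lt' hXp hXm hlt
  -- the valuation of the right-hand side of the sum formula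
  have hge : ν.Ge (2 * ((D.X P + D.X Q) * (D.X P * D.X Q + D.b) + 2 * D.a * (D.X P * D.X Q)))
      (min (ν.v (D.X P)) (ν.v (D.X Q)) + (ν.v (D.X P) + ν.v (D.X Q))) := by
    have hs : ν.Ge (D.X P + D.X Q) (min (ν.v (D.X P)) (ν.v (D.X Q))) :=
      (AddVal.ge_of_ne hm1).add (AddVal.ge_of_ne hm2)
    have hp : ν.Ge (D.X P * D.X Q) (ν.v (D.X P) + ν.v (D.X Q)) :=
      AddVal.ge_of_ne (le_of_eq hvxz.symm)
    have hpb : ν.Ge (D.X P * D.X Q + D.b) (ν.v (D.X P) + ν.v (D.X Q)) :=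
      hp.add (hb.mono (by linarith))
    have ht1 := hs.mul hpb
    have h2ge : ν.Ge (2 : K) 0 := AddVal.ge_of_ne (le_of_eq h2.symm)
    have ht2 : ν.Ge (2 * D.a * (D.X P * D.X Q))
        (min (ν.v (D.X P)) (ν.v (D.X Q)) + (ν.v (D.X P) + ν.v (D.X Q))) :=
      ((h2ge.mul ha).mul hp).mono (by linarith)
    have ht3 := h2ge.mul (ht1.add ht2)
    rwa [zero_add] at ht3
  have hlhs : (D.X (P + Q) + D.X (P - Q)) * (D.X P - D.X Q) ^ 2 ≠ 0 := mul_ne_zero hsum0 hd2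
  rw [← hadd] at hge
  have h5 := hge.le hlhs
  rw [ν.v_mul hsum0 hd2, hsumv, ν.v_sq hd] at h5
  rcases hmc with h | h <;> rw [h] at h5 <;> linarith

/-- WP `E1Add`: in odd residue characteristic the points with `v X < 0` (together with `0`) are
closed under addition. -/
theorem e1a_e1Add : E1AddStatement := by
  intro G K _ _ _ D ν h2 ha hb P Q hP hQ hx hvx hz hvz
  by_cases hne : D.X P = D.X Q
  · rcases D.eq_or_eq_neg P Q hP hQ hne with h | h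
    · subst h
      by_cases hPP : P + P = 0
      · exact Or.inl hPP
      · exact Or.inr (e1a_dbl D ν h2 ha hb P hP hx hvx hPP)
    · left
      rw [h]
      exact neg_add_cancel Q
  · exact Or.inr (e1a_add D ν h2 ha hb P Q hP hQ hx hvx hz hvz hne)

end Fermat.Agent.S13
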