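/-
S13: final assembly from the top-level work-package statements.
If the mod-`p` representation of the Frey curve is reducible, there is a Galois-stable line `N`.
The subgroups `H_χ = {σ | σ acts trivially on V/N}` and `H_N = {σ | σ acts trivially on N}` are
normal, contain the stabiliser of a finite set, and contain inertia at every prime different
from `p`; at `p` one of them contains an inertia subgroup.  By Minkowski one of them is the whole
Galois group; `H_N = ⊤` is impossible because the Frey curve has no rational `p`-torsion point.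
-/
import Mathlib
import Fermat.Agent.S13.Defs
import Fermat.Agent.S05.Main
import Fermat.Agent.Lib.FrobeniusExists

set_option autoImplicit false

namespace Fermat.Agent.S13

open Fermat.Agent.S05
open WeierstrassCurve WeierstrassCurve.Affine WeierstrassCurve.Affine.Point

/-- The subgroup of Galois elements acting trivially on the quotient by a Galois-stable
submodule. -/
noncomputable def fin13_Hchi (P : FreyPackage) (N : Submodule (ZMod P.p) (FV P))
    (hst : IsGaloisStable ℚ N) : Subgroup GalQ where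
  carrier := {σ | ∀ x : FV P, σ • x - x ∈ N}
  mul_mem' := by
    intro σ τ hσ hτ x
    have h1 : (σ * τ) • x - x = σ • (τ • x - x) + (σ • x - x) := by
      rw [mul_smul, smul_sub]; abel
    rw [h1]
    exact N.add_mem (hst σ _ (hτ x)) (hσ x)
  one_mem' := by
    intro x
    rw [one_smul, sub_self]
    exact N.zero_mem
  inv_mem' := by
    intro σ hσ x
    have h1 : σ⁻¹ • x - x = -(σ⁻¹ • (σ • x - x)) := by
      rw [smul_sub, inv_smul_smul]; abel
    rw [h1]
    exact N.neg_mem (hst σ⁻¹ _ (hσ x))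

theorem fin13_mem_Hchi (P : FreyPackage) (N : Submodule (ZMod P.p) (FV P))
    (hst : IsGaloisStable ℚ N) (σ : GalQ) :
    σ ∈ fin13_Hchi P N hst ↔ ∀ x : FV P, σ • x - x ∈ N := Iff.rfl

theorem fin13_Hchi_normal (P : FreyPackage) (N : Submodule (ZMod P.p) (FV P))
    (hst : IsGaloisStable ℚ N) : (fin13_Hchi P N hst).Normal := by
  refine ⟨fun σ hσ g => ?_⟩
  rw [fin13_mem_Hchi] at hσ ⊢
  intro x
  have h1 : (g * σ * g⁻¹) • x - x = g • (σ • (g⁻¹ • x) - g⁻¹ • x) := by
    rw [smul_sub, mul_smul, mul_smul, smul_inv_smul]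
  rw [h1]
  exact hst g _ (hσ _)

/-- The subgroup of Galois elements acting trivially on a Galois-stable submodule. -/
noncomputable def fin13_HN (P : FreyPackage) (N : Submodule (ZMod P.p) (FV P)) :
    Subgroup GalQ where
  carrier := {σ | ∀ x : FV P, x ∈ N → σ • x = x}
  mul_mem' := by
    intro σ τ hσ hτ x hx
    rw [mul_smul, hτ x hx, hσ x hx]
  one_mem' := by
    intro x _
    rw [one_smul]
  inv_mem' := by
    intro σ hσ x hx
    have h1 : σ⁻¹ • x = σ⁻¹ • (σ • x) := by rw [hσ x hx]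
    rw [h1, inv_smul_smul]

theorem fin13_mem_HN (P : FreyPackage) (N : Submodule (ZMod P.p) (FV P)) (σ : GalQ) :
    σ ∈ fin13_HN P N ↔ ∀ x : FV P, x ∈ N → σ • x = x := Iff.rfl

theorem fin13_HN_normal (P : FreyPackage) (N : Submodule (ZMod P.p) (FV P))
    (hst : IsGaloisStable ℚ N) : (fin13_HN P N).Normal := by
  refine ⟨fun σ hσ g => ?_⟩
  rw [fin13_mem_HN] at hσ ⊢
  intro x hx
  rw [mul_smul, mul_smul, hσ _ (hst g⁻¹ x hx), smul_inv_smul]

theorem fin13_main (hC : FreyCardStatement) (hO : FreyOpenStatement) (h2 : Local2Statement)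
    (h2r : Local2RatStatement) (hp : LocalPStatement) (hM : MinkStatement) (P : FreyPackage)
    (hred : ¬ GaloisRepIsIrreducible (K := AlgebraicClosure ℚ) ℚ P.freyCurve P.p) :
    HasGaloisStableCofixedLine (K := AlgebraicClosure ℚ) ℚ P.freyCurve P.p := by
  have hcard : Nat.card (FV P) = P.p ^ 2 := hC P
  have hnt : Nontrivial (FV P) := by
    have h1 : 1 < Nat.card (FV P) := by
      rw [hcard]; exact Nat.one_lt_pow two_ne_zero P.pp.one_lt
    have hfin : Finite (FV P) := Nat.finite_of_card_ne_zero (by omega)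
    exact Finite.one_lt_card_iff_nontrivial.mp h1
  have hex : ∃ N : Submodule (ZMod P.p) (FV P), IsGaloisStable ℚ N ∧ N ≠ ⊥ ∧ N ≠ ⊤ := by
    by_contra hcon
    apply hred
    refine ⟨hnt, fun N hN => ?_⟩
    by_contra h
    push Not at h
    exact hcon ⟨N, hN, h.1, h.2⟩
  obtain ⟨N, hst, hbot, htop⟩ := hex
  obtain ⟨S, hS⟩ := hO P
  obtain ⟨A2, hA2⟩ := Fermat.Agent.Lib.FrobeniusExists.exists_liesOverPrime 2 Nat.prime_two
  obtain ⟨Ap, hAp⟩ := Fermat.Agent.Lib.FrobeniusExists.exists_liesOverPrime P.p P.pp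
  have hodd : ∀ ℓ : ℕ, ℓ.Prime → ℓ ≠ 2 → ℓ ≠ P.p → ∃ A : ValuationSubring Kbar,
      A.LiesOverPrime ℓ ∧ ∀ σ : GalQ, σ ∈ A.inertiaSubgroupIn ℚ → ∀ x : FV P, σ • x = x := by
    intro ℓ hℓ hℓ2 hℓp
    obtain ⟨A, hA⟩ := Fermat.Agent.Lib.FrobeniusExists.exists_liesOverPrime ℓ hℓ
    exact ⟨A, hA, fun σ hσ x => main_result P hℓ hℓ2 hℓp A hA σ hσ x⟩
  rcases hp P Ap hAp N hst hbot htop with hpχ | hpN
  · -- inertia at `p` acts trivially on the quotient: `H_χ = ⊤`
    have htopχ : fin13_Hchi P N hst = ⊤ := by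
      refine hM _ (fin13_Hchi_normal P N hst) ⟨S, fun σ hσ => ?_⟩ ?_
      · rw [fin13_mem_Hchi]
        intro x
        rw [hS σ hσ x, sub_self]
        exact N.zero_mem
      · intro ℓ hℓ
        by_cases hℓ2 : ℓ = 2
        · subst hℓ2
          exact ⟨A2, hA2, fun σ hσ => (h2 P A2 hA2 N hst hbot htop σ hσ).1⟩
        by_cases hℓp : ℓ = P.p
        · subst hℓp
          exact ⟨Ap, hAp, fun σ hσ => hpχ σ hσ⟩
        obtain ⟨A, hA, hAI⟩ := hodd ℓ hℓ hℓ2 hℓp
        refine ⟨A, hA, fun σ hσ => ?_⟩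
        rw [fin13_mem_Hchi]
        intro x
        rw [hAI σ hσ x, sub_self]
        exact N.zero_mem
    refine ⟨N, hst, hbot, htop, fun σ x => ?_⟩
    have hσ : σ ∈ fin13_Hchi P N hst := by rw [htopχ]; exact Subgroup.mem_top σ
    exact hσ x
  · -- inertia at `p` acts trivially on the line: `H_N = ⊤`, impossible
    exfalso
    have htopN : fin13_HN P N = ⊤ := by
      refine hM _ (fin13_HN_normal P N hst) ⟨S, fun σ hσ => ?_⟩ ?_
      · rw [fin13_mem_HN]
        intro x _
        exact hS σ hσ x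
      · intro ℓ hℓ
        by_cases hℓ2 : ℓ = 2
        · subst hℓ2
          exact ⟨A2, hA2, fun σ hσ => (h2 P A2 hA2 N hst hbot htop σ hσ).2⟩
        by_cases hℓp : ℓ = P.p
        · subst hℓp
          exact ⟨Ap, hAp, fun σ hσ => hpN σ hσ⟩
        obtain ⟨A, hA, hAI⟩ := hodd ℓ hℓ hℓ2 hℓp
        refine ⟨A, hA, fun σ hσ => ?_⟩
        rw [fin13_mem_HN]
        intro x _
        exact hAI σ hσ x
    obtain ⟨x, hxN, hx0⟩ := (Submodule.ne_bot_iff N).mp hbot
    obtain ⟨σ, hσ⟩ := h2r P x hx0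
    have hσN : σ ∈ fin13_HN P N := by rw [htopN]; exact Subgroup.mem_top σ
    exact hσ (hσN x hxN)

end Fermat.Agent.S13
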