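/-
S13, work package `FreyCard`: the `p`-torsion of the Frey curve over `ℚ̄` has exactly `p²` elements
(from the abstract count of torsion points on a Kummer line), and the Galois action on it factors
through the stabiliser of a finite set of elements of `ℚ̄` (the coordinates of the torsion points).
-/
import Fermat.Agent.S13.Defs

set_option autoImplicit false

namespace Fermat.Agent.S13

open Fermat.Agent.S05
open WeierstrassCurve WeierstrassCurve.Affine

/-- The `x`-coordinate of a point (junk value `0` at the origin). -/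
noncomputable def frc_x {K : Type} [Field K] (W : Affine K) : W.Point → K
  | .zero => 0
  | .some x _ _ => x

/-- The `y`-coordinate of a point (junk value `0` at the origin). -/
noncomputable def frc_y {K : Type} [Field K] (W : Affine K) : W.Point → K
  | .zero => 0
  | .some _ y _ => y

/-- The number of points of the Frey curve over `ℚ̄` killed by `p`, as a subtype. -/
theorem frc_card_subtype (hK : KumExtraStatement) (hC : CountStatement) (P : FreyPackage) :
    Nat.card {Q : (FW P).Point // P.p • Q = 0} = P.p ^ 2 := by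
  -- the three `p`-th powers
  have haK : ((P.a : ℤ) : Kbar) ≠ 0 := Int.cast_ne_zero.mpr P.ha0
  have hbK : ((P.b : ℤ) : Kbar) ≠ 0 := Int.cast_ne_zero.mpr P.hb0
  have hcK : ((P.c : ℤ) : Kbar) ≠ 0 := Int.cast_ne_zero.mpr P.hc0
  obtain ⟨A, hA⟩ : ∃ A : Kbar, A = (P.a : Kbar) ^ P.p := ⟨_, rfl⟩
  obtain ⟨B, hB⟩ : ∃ B : Kbar, B = (P.b : Kbar) ^ P.p := ⟨_, rfl⟩
  obtain ⟨C, hC'⟩ : ∃ C : Kbar, C = (P.c : Kbar) ^ P.p := ⟨_, rfl⟩
  have hA0 : A ≠ 0 := by rw [hA]; exact pow_ne_zero _ haK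
  have hB0 : B ≠ 0 := by rw [hB]; exact pow_ne_zero _ hbK
  have hC0 : C ≠ 0 := by rw [hC']; exact pow_ne_zero _ hcK
  have hABC : C = A + B := by
    rw [hA, hB, hC']
    exact_mod_cast (congrArg (Int.cast : ℤ → Kbar) P.hFLT).symm
  have h4K : (4 : Kbar) ≠ 0 := by norm_num
  have h16K : (16 : Kbar) ≠ 0 := by norm_num
  -- the curve
  have hW₁ : (FW P).a₁ = 1 := by
    show algebraMap ℚ Kbar P.freyCurve.a₁ = 1
    rw [show P.freyCurve.a₁ = 1 from rfl, map_one]
  have hW₃ : (FW P).a₃ = 0 := by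
    show algebraMap ℚ Kbar P.freyCurve.a₃ = 0
    rw [show P.freyCurve.a₃ = 0 from rfl, map_zero]
  have hW₆ : (FW P).a₆ = 0 := by
    show algebraMap ℚ Kbar P.freyCurve.a₆ = 0
    rw [show P.freyCurve.a₆ = 0 from rfl, map_zero]
  have hW₂ : (FW P).a₂ = (B - 1 - A) / 4 := by
    show algebraMap ℚ Kbar P.freyCurve.a₂ = (B - 1 - A) / 4
    rw [show P.freyCurve.a₂ = ((P.b : ℚ) ^ P.p - 1 - (P.a : ℚ) ^ P.p) / 4 from rfl, hA, hB]
    simp
  have hW₄ : (FW P).a₄ = -A * B / 16 := by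
    show algebraMap ℚ Kbar P.freyCurve.a₄ = -A * B / 16
    rw [show P.freyCurve.a₄ = -((P.a : ℚ) ^ P.p) * ((P.b : ℚ) ^ P.p) / 16 from rfl, hA, hB]
    simp
  obtain ⟨D, -, -, hDa, hDb, -, hsurj⟩ := hK Kbar (FW P) hW₁ hW₃ hW₆ 0 (by ring)
  have hDa' : D.a = (B - A) / 4 := by rw [hDa, hW₂]; ring
  have hDb' : D.b = -A * B / 16 := by rw [hDb, hW₂, hW₄]; ring
  have hb0 : D.b ≠ 0 := by
    rw [hDb']
    exact div_ne_zero (mul_ne_zero (neg_ne_zero.mpr hA0) hB0) h16K
  have hdisc : D.a ^ 2 - 4 * D.b = C ^ 2 / 16 := by rw [hDa', hDb', hABC]; ring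
  have hdisc0 : D.a ^ 2 - 4 * D.b ≠ 0 := by
    rw [hdisc]
    exact div_ne_zero (pow_ne_zero 2 hC0) h16K
  exact hC (FW P).Point Kbar D hb0 hdisc0 (hsurj hb0 hdisc0) P.p P.hppos

/-- WP `FreyCard`. -/
theorem frc_card (hK : KumExtraStatement) (hC : CountStatement) : FreyCardStatement := by
  intro P
  rw [← frc_card_subtype hK hC P]
  refine Nat.card_congr (Equiv.subtypeEquivRight ?_)
  intro Q
  rw [Submodule.mem_torsionBy_iff, natCast_zsmul]

/-- WP `FreyOpen`. -/
theorem frc_open (hCard : FreyCardStatement) : FreyOpenStatement := by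
  intro P
  have hfin : Finite (FV P) := by
    apply Nat.finite_of_card_ne_zero
    rw [hCard P]
    exact pow_ne_zero 2 P.hp0
  refine ⟨(Set.finite_range (fun v : FV P => frc_x (FW P) v.1)).toFinset ∪
    (Set.finite_range (fun v : FV P => frc_y (FW P) v.1)).toFinset, ?_⟩
  intro σ hσ v
  apply Subtype.ext
  show Affine.Point.map (W' := P.freyCurve) σ.toAlgHom v.1 = v.1
  have hx : σ (frc_x (FW P) v.1) = frc_x (FW P) v.1 :=
    hσ _ (Finset.mem_union_left _ ((Set.Finite.mem_toFinset _).mpr ⟨v, rfl⟩))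
  have hy : σ (frc_y (FW P) v.1) = frc_y (FW P) v.1 :=
    hσ _ (Finset.mem_union_right _ ((Set.Finite.mem_toFinset _).mpr ⟨v, rfl⟩))
  revert hx hy
  generalize v.1 = Q
  rcases Q with _ | ⟨x, y, h⟩
  · intro _ _
    rfl
  · intro hx hy
    rw [Affine.Point.map_some]
    have hx' : σ x = x := hx
    have hy' : σ y = y := hy
    simp only [Affine.Point.some.injEq]
    exact ⟨hx', hy'⟩

end Fermat.Agent.S13
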