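/-
S13, work package `InertNs`: an inertia-like pair moves a point with integral coordinates whose
reduction is not a `2`-torsion point (`v (2 Y) = 0`) by a point with `v X < 0`.

Idea.  Put `a₂ = a - 1/4`, `y = Y - x/2` (so that `y² + x y = x³ + a₂ x² + b x`, an integral
Weierstrass model in every residue characteristic, and `2 Y = 2 y + x`).  Then `y` is integral, and
`σ` moves `x` and `y` by `0` or by elements of positive valuation.  If `σ x = x` then `τ P = ± P`,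
and `τ P = -P` is impossible because it gives `σ y - y = -2 Y`, a unit.  If `σ x ≠ x`, the chord
formula for `τ P - P` reads
`X (τ P - P) · Δ² = (2Y + δ + Δ) (2Y + δ) - (σ x + x + a₂) Δ²`, with `Δ = σ x - x`, `δ = σ y - y`,
whose right-hand side is a unit, so `v X (τ P - P) = - 2 v Δ < 0`.
-/
import Fermat.Agent.S13.Defs

set_option autoImplicit false

namespace Fermat.Agent.S13

open Fermat.Agent.S05

/-- The inertia property, extended to `0`: an integral element is moved by `0` or by an element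
of positive valuation. -/
theorem inn_inert_gt {K : Type} [Field K] (ν : AddVal K) (σ : K →+* K)
    (hσi : ∀ x : K, x ≠ 0 → 0 ≤ ν.v x → σ x = x ∨ 0 < ν.v (σ x - x))
    {x : K} (hx : ν.Ge x 0) : ν.Gt (σ x - x) 0 := by
  rcases eq_or_ne x 0 with rfl | hx0
  · left
    rw [map_zero, sub_zero]
  · rcases hσi x hx0 (hx.le hx0) with h | h
    · left
      rw [h, sub_self]
    · right
      exact h

/-- If `y (y + x)` and `x` are integral then so is `y`. -/
theorem inn_y_integral {K : Type} [Field K] (ν : AddVal K) {x y c : K}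
    (hx : ν.Ge x 0) (hc : ν.Ge c 0) (h : y * (y + x) = c) : ν.Ge y 0 := by
  rcases eq_or_ne y 0 with rfl | hy0
  · exact Or.inl rfl
  · right
    by_contra hlt
    have hlt' : ν.v y < 0 := lt_of_not_ge hlt
    have hxg : ν.Gt x (ν.v y) := hx.gt_of_lt hlt'
    obtain ⟨hne, hv⟩ := AddVal.v_add_eq_of_gt hy0 hxg
    have hprod : y * (y + x) ≠ 0 := mul_ne_zero hy0 hne
    have hv2 : ν.v (y * (y + x)) = ν.v y + ν.v y := by rw [ν.v_mul hy0 hne, hv]
    have hc0 : c ≠ 0 := by rw [← h]; exact hprod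
    have hle : 0 ≤ ν.v c := hc.le hc0
    rw [← h, hv2] at hle
    linarith

/-- The field-theoretic core of `InertNs`. -/
theorem inn_core {K : Type} [Field K] [CharZero K] (ν : AddVal K) (σ : K →+* K)
    (hσv : ∀ x : K, x ≠ 0 → ν.v (σ x) = ν.v x)
    (hσi : ∀ x : K, x ≠ 0 → 0 ≤ ν.v x → σ x = x ∨ 0 < ν.v (σ x - x))
    {x Y a b : K} (heq : Y ^ 2 = x * (x ^ 2 + a * x + b))
    (hx : ν.Ge x 0) (ha : ν.Ge (a - 1 / 4) 0) (hb : ν.Ge b 0)
    (hη0 : 2 * Y ≠ 0) (hηv : ν.v (2 * Y) = 0) :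
    ¬ (σ x = x ∧ σ Y = -Y) ∧
    (σ x ≠ x → σ x - x ≠ 0 ∧ 0 < ν.v (σ x - x) ∧
      (σ Y + Y) ^ 2 - (σ x + x + a) * (σ x - x) ^ 2 ≠ 0 ∧
      ν.v ((σ Y + Y) ^ 2 - (σ x + x + a) * (σ x - x) ^ 2) = 0) := by
  -- the integral Weierstrass equation for `y = Y - x / 2`
  have hyeq : (Y - x / 2) * ((Y - x / 2) + x) = x ^ 3 + (a - 1 / 4) * x ^ 2 + b * x := by
    have e : (Y - x / 2) * ((Y - x / 2) + x) = Y ^ 2 - x ^ 2 / 4 := by ring
    rw [e, heq]
    ring
  have hc : ν.Ge (x ^ 3 + (a - 1 / 4) * x ^ 2 + b * x) 0 := by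
    have h1 : ν.Ge (x ^ 3) 0 := by simpa using hx.pow 3
    have h2 : ν.Ge (x ^ 2) 0 := by simpa using hx.pow 2
    have h3 : ν.Ge ((a - 1 / 4) * x ^ 2) 0 := by simpa using ha.mul h2
    have h4 : ν.Ge (b * x) 0 := by simpa using hb.mul hx
    exact (h1.add h3).add h4
  have hy : ν.Ge (Y - x / 2) 0 := inn_y_integral ν hx hc hyeq
  have hσy : σ (Y - x / 2) = σ Y - σ x / 2 := by
    rw [map_sub, map_div₀, map_ofNat]
  have hdy : ν.Gt (σ (Y - x / 2) - (Y - x / 2)) 0 := inn_inert_gt ν σ hσi hy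
  have hdx : ν.Gt (σ x - x) 0 := inn_inert_gt ν σ hσi hx
  refine ⟨?_, ?_⟩
  · rintro ⟨h1, h2⟩
    rw [hσy, h1, h2] at hdy
    have e : -Y - x / 2 - (Y - x / 2) = -(2 * Y) := by ring
    rw [e] at hdy
    rcases hdy with h | h
    · exact hη0 (neg_eq_zero.mp h)
    · rw [ν.v_neg, hηv] at h
      exact lt_irrefl _ h
  · intro hne
    have hΔ0 : σ x - x ≠ 0 := sub_ne_zero.mpr hne
    have hΔv : 0 < ν.v (σ x - x) := hdx.lt hΔ0
    refine ⟨hΔ0, hΔv, ?_⟩
    have hid : (σ Y + Y) ^ 2 - (σ x + x + a) * (σ x - x) ^ 2 =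
        (2 * Y + ((σ (Y - x / 2) - (Y - x / 2)) + (σ x - x))) *
            (2 * Y + (σ (Y - x / 2) - (Y - x / 2)))
          - (σ x + x + (a - 1 / 4)) * (σ x - x) ^ 2 := by
      rw [hσy]
      ring
    rw [hid]
    have hA : 2 * Y + ((σ (Y - x / 2) - (Y - x / 2)) + (σ x - x)) ≠ 0 ∧
        ν.v (2 * Y + ((σ (Y - x / 2) - (Y - x / 2)) + (σ x - x))) = ν.v (2 * Y) :=
      AddVal.v_add_eq_of_gt hη0 (by rw [hηv]; exact hdy.add hdx)
    have hB : 2 * Y + (σ (Y - x / 2) - (Y - x / 2)) ≠ 0 ∧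
        ν.v (2 * Y + (σ (Y - x / 2) - (Y - x / 2))) = ν.v (2 * Y) :=
      AddVal.v_add_eq_of_gt hη0 (by rw [hηv]; exact hdy)
    have hAB0 : (2 * Y + ((σ (Y - x / 2) - (Y - x / 2)) + (σ x - x))) *
        (2 * Y + (σ (Y - x / 2) - (Y - x / 2))) ≠ 0 := mul_ne_zero hA.1 hB.1
    have hABv : ν.v ((2 * Y + ((σ (Y - x / 2) - (Y - x / 2)) + (σ x - x))) *
        (2 * Y + (σ (Y - x / 2) - (Y - x / 2)))) = 0 := by
      rw [ν.v_mul hA.1 hB.1, hA.2, hB.2, hηv, add_zero]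
    have hσx : ν.Ge (σ x) 0 := by
      rcases eq_or_ne x 0 with rfl | hx0
      · left
        exact map_zero σ
      · right
        rw [hσv x hx0]
        exact hx.le hx0
    have hC : ν.Gt ((σ x + x + (a - 1 / 4)) * (σ x - x) ^ 2) 0 := by
      have h1 : ν.Ge (σ x + x + (a - 1 / 4)) 0 := (hσx.add hx).add ha
      have h2 : ν.Gt ((σ x - x) ^ 2) 0 := by
        right
        rw [ν.v_sq hΔ0]
        linarith
      have h3 := h1.mul_gt h2
      rwa [add_zero] at h3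
    have hfin := AddVal.v_sub_eq_of_gt hAB0 (by rw [hABv]; exact hC)
    exact ⟨hfin.1, by rw [hfin.2, hABv]⟩

/-- WP `InertNs`. -/
theorem inn_inertNs : InertNsStatement := by
  intro G K _ _ _ D ν hS _h2 ha hb σ τ hI P hP hx hη0 hηv
  obtain ⟨hinj, hX, hY, hσv, hσi⟩ := hI
  have hR : τ P ≠ 0 := fun h => hP (hinj P h)
  have hXR : D.X (τ P) = σ (D.X P) := hX P hP
  have hYR : D.Y (τ P) = σ (D.Y P) := hY P hP
  obtain ⟨hc1, hc2⟩ := inn_core ν σ hσv hσi (D.eqn P hP) hx ha hb hη0 hηv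
  by_cases hxx : σ (D.X P) = D.X P
  · left
    rcases D.eq_or_eq_neg (τ P) P hR hP (by rw [hXR, hxx]) with h | h
    · exact h
    · exfalso
      apply hc1
      refine ⟨hxx, ?_⟩
      rw [← hYR, h, D.Y_neg]
  · right
    obtain ⟨hΔ0, hΔv, hT0, hTv⟩ := hc2 hxx
    have hnP : -P ≠ 0 := neg_ne_zero.mpr hP
    have hne : D.X (τ P) ≠ D.X (-P) := by
      rw [D.X_neg, hXR]
      exact hxx
    have hs := hS (τ P) (-P) hR hnP hne
    rw [← sub_eq_add_neg, D.X_neg, D.Y_neg, sub_neg_eq_add, hXR, hYR] at hs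
    rw [← hs] at hT0 hTv
    have hX0 : D.X (τ P - P) ≠ 0 := left_ne_zero_of_mul hT0
    refine ⟨hX0, ?_⟩
    rw [ν.v_mul hX0 (pow_ne_zero 2 hΔ0), ν.v_sq hΔ0] at hTv
    linarith

end Fermat.Agent.S13
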