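/-
S13, work package `InertSing`: an inertia-like pair moves a point with singular reduction
(`0 < v X < v b`) by a point with `v X ≤ 0`.

Notation in the comments: `x = X(P)`, `x' = X(τ P)`, `w = Y(P)/x`, `w' = Y(τ P)/x'`,
`S = X(τ P + P)`, `T = X(τ P - P)`, `s = v x = v x'`, `h = v b`.
-/
import Fermat.Agent.S13.Defs

set_option autoImplicit false

namespace Fermat.Agent.S13

open Fermat.Agent.S05

/-- If `β² + β` is integral then so is `β`. -/
theorem ins_int_of_sq_add {K : Type} [Field K] {ν : AddVal K} {β : K}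
    (h : ν.Ge (β ^ 2 + β) 0) : ν.Ge β 0 := by
  rcases eq_or_ne β 0 with rfl | hβ
  · exact Or.inl rfl
  by_contra hcon
  have hlt : ν.v β < 0 := by
    by_contra h'
    exact hcon (Or.inr (not_lt.mp h'))
  have h1 : β + 1 ≠ 0 ∧ ν.v (β + 1) = ν.v β :=
    ν.v_add_eq_of_lt hβ one_ne_zero (by rw [ν.v_one]; exact hlt)
  have e : β ^ 2 + β = β * (β + 1) := by ring
  rw [e] at h
  have h3 := h.le (mul_ne_zero hβ h1.1)
  rw [ν.v_mul hβ h1.1, h1.2] at h3
  linarith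

/-- The curve equation in terms of the slope `w = y / x`. -/
theorem ins_w {K : Type} [Field K] {x y a b : K} (hx : x ≠ 0)
    (heq : y ^ 2 = x * (x ^ 2 + a * x + b)) : (y / x) ^ 2 = x + a + b / x := by
  have e1 : (y / x) ^ 2 = y ^ 2 / x ^ 2 := div_pow y x 2
  rw [e1, heq]
  field_simp

/-- `u = 2 w` is a unit: `u² = 4 a + 4 x + 4 b / x`. -/
theorem ins_unit {K : Type} [Field K] [CharZero K] {ν : AddVal K} {x w a b : K}
    (h2 : 0 ≤ ν.v 2) (ha : a ≠ 0) (hv4a : ν.v (4 * a) = 0)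
    (hb : b ≠ 0) (hx : x ≠ 0) (hs : 0 < ν.v x) (hsh : ν.v x < ν.v b)
    (hw : w ^ 2 = x + a + b / x) :
    2 * w ≠ 0 ∧ ν.v (2 * w) = 0 := by
  have h2ne : (2 : K) ≠ 0 := two_ne_zero
  have h4 : (4 : K) ≠ 0 := by norm_num
  have h4a : 4 * a ≠ 0 := mul_ne_zero h4 ha
  have hv4 : 0 ≤ ν.v (4 : K) := by
    have e4 : (4 : K) = 2 * 2 := by norm_num
    rw [e4, ν.v_mul h2ne h2ne]
    linarith
  have e : (2 * w) ^ 2 = 4 * a + (4 * x + 4 * (b / x)) := by
    linear_combination 4 * hw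
  have hgt : ν.Gt (4 * x + 4 * (b / x)) (ν.v (4 * a)) := by
    rw [hv4a]
    apply AddVal.Gt.add
    · right
      rw [ν.v_mul h4 hx]
      linarith
    · right
      rw [ν.v_mul h4 (div_ne_zero hb hx), ν.v_div hb hx]
      linarith
  obtain ⟨hne, hv⟩ := AddVal.v_add_eq_of_gt h4a hgt
  rw [← e] at hne hv
  have hu : 2 * w ≠ 0 := by
    intro h0
    rw [h0] at hne
    exact hne (by ring)
  refine ⟨hu, ?_⟩
  rw [ν.v_sq hu, hv4a] at hv
  linarith

/-- The valuation-theoretic core, for `x' ≠ x`. -/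
theorem ins_core {K : Type} [Field K] [CharZero K] {ν : AddVal K} {x x' w w' a b S T : K}
    (h2 : 0 ≤ ν.v 2) (ha : a ≠ 0) (hv4a : ν.v (4 * a) = 0)
    (hb : b ≠ 0) (hx : x ≠ 0) (hx' : x' ≠ 0) (hs : 0 < ν.v x) (hsh : ν.v x < ν.v b)
    (hvx' : ν.v x' = ν.v x)
    (hw : w ^ 2 = x + a + b / x) (hw' : w' ^ 2 = x' + a + b / x')
    (hd : ν.Gt (w' - w) 0) (hne : x' ≠ x)
    (hT : T * (x' - x) ^ 2 = (w' * x' + w * x) ^ 2 - (x' + x + a) * (x' - x) ^ 2)
    (hS : S * (x' - x) ^ 2 = (w' * x' - w * x) ^ 2 - (x' + x + a) * (x' - x) ^ 2)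
    (hadd : (S + T) * (x' - x) ^ 2 =
      2 * ((x' + x) * (x' * x + b) + 2 * a * (x' * x))) :
    T ≠ 0 ∧ ν.v T ≤ 0 := by
  have h2ne : (2 : K) ≠ 0 := two_ne_zero
  have h4 : (4 : K) ≠ 0 := by norm_num
  have h4a : 4 * a ≠ 0 := mul_ne_zero h4 ha
  obtain ⟨hu, hvu⟩ := ins_unit h2 ha hv4a hb hx hs hsh hw
  obtain ⟨hu', hvu'⟩ := ins_unit h2 ha hv4a hb hx' (by rw [hvx']; exact hs)
    (by rw [hvx']; exact hsh) hw'
  have hΔ : x' - x ≠ 0 := sub_ne_zero.mpr hne
  have hΔv : ν.v x ≤ ν.v (x' - x) := by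
    have h1 := ν.v_sub_ge hx' hx hΔ
    rwa [hvx', min_self] at h1
  have hc'v : 0 < ν.v (b / x') := by
    rw [ν.v_div hb hx', hvx']
    linarith
  have hcx : ν.Gt (b / x' - x) 0 := AddVal.Gt.sub (Or.inr hc'v) (Or.inr hs)
  have hΔ2v : ν.v ((x' - x) ^ 2) = 2 * ν.v (x' - x) := ν.v_sq hΔ
  have hΔ2 : (x' - x) ^ 2 ≠ 0 := pow_ne_zero 2 hΔ
  rcases lt_or_eq_of_le hΔv with hlt | heq
  · -- sub-case `v (x' - x) > s`: then `v T = 2 s - 2 v (x' - x) < 0`
    have hww : 2 * w + (w' - w) ≠ 0 ∧ ν.v (2 * w + (w' - w)) = ν.v (2 * w) :=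
      AddVal.v_add_eq_of_gt hu (by rw [hvu]; exact hd)
    have eww : 2 * w + (w' - w) = w' + w := by ring
    rw [eww, hvu] at hww
    have hκ : (w' + w) * x ≠ 0 := mul_ne_zero hww.1 hx
    have hκv : ν.v ((w' + w) * x) = ν.v x := by
      rw [ν.v_mul hww.1 hx, hww.2, zero_add]
    have e : T * (x' - x) ^ 2 = ((w' + w) * x) ^ 2 +
        ((2 * w') * ((w' + w) * x) * (x' - x) + (b / x' - x) * (x' - x) ^ 2) := by
      linear_combination hT + (x' - x) ^ 2 * hw'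
    have hκ2v : ν.v (((w' + w) * x) ^ 2) = 2 * ν.v x := by
      rw [ν.v_sq hκ, hκv]
    have hgt : ν.Gt ((2 * w') * ((w' + w) * x) * (x' - x) + (b / x' - x) * (x' - x) ^ 2)
        (ν.v (((w' + w) * x) ^ 2)) := by
      rw [hκ2v]
      apply AddVal.Gt.add
      · right
        rw [ν.v_mul (mul_ne_zero hu' hκ) hΔ, ν.v_mul hu' hκ, hvu', hκv]
        linarith
      · have h1 : ν.Ge ((x' - x) ^ 2) (2 * ν.v x) := Or.inr (by rw [hΔ2v]; linarith)
        have h3 := hcx.mul_ge h1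
        rwa [zero_add] at h3
    obtain ⟨hne0, hv⟩ := AddVal.v_add_eq_of_gt (pow_ne_zero 2 hκ) hgt
    rw [← e] at hne0 hv
    have hT0 : T ≠ 0 := left_ne_zero_of_mul hne0
    refine ⟨hT0, ?_⟩
    rw [ν.v_mul hT0 hΔ2, hΔ2v, hκ2v] at hv
    linarith
  · -- sub-case `v (x' - x) = s`: then `v S > 0` and `v (S + T) = 0`
    have hκ : ν.Gt ((w' - w) * x) (ν.v x) := by
      have h1 := hd.mul_ge (AddVal.ge_self x)
      rwa [zero_add] at h1
    have hΔge : ν.Ge (x' - x) (ν.v x) := Or.inr hΔv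
    have hΔ2ge : ν.Ge ((x' - x) ^ 2) (2 * ν.v x) := Or.inr (by rw [hΔ2v]; linarith)
    have eS : S * (x' - x) ^ 2 = (b / x' - x) * (x' - x) ^ 2 +
        ((2 * w') * ((w' - w) * x) * (x' - x) + ((w' - w) * x) * ((w' - w) * x)) := by
      linear_combination hS + (x' - x) ^ 2 * hw'
    have hSgt : ν.Gt (S * (x' - x) ^ 2) (2 * ν.v x) := by
      rw [eS]
      apply AddVal.Gt.add
      · have h1 := hcx.mul_ge hΔ2ge
        rwa [zero_add] at h1
      apply AddVal.Gt.add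
      · have h1 : ν.Ge (2 * w') 0 := Or.inr hvu'.ge
        have h3 := (h1.mul_gt hκ).mul_ge hΔge
        have e2 : 0 + ν.v x + ν.v x = 2 * ν.v x := by ring
        rwa [e2] at h3
      · have h3 := hκ.mul_ge hκ.ge
        have e2 : ν.v x + ν.v x = 2 * ν.v x := by ring
        rwa [e2] at h3
    have hS0 : ν.Gt S 0 := by
      rcases eq_or_ne S 0 with h0 | h0
      · exact Or.inl h0
      · right
        have h1 := hSgt.lt (mul_ne_zero h0 hΔ2)
        rw [ν.v_mul h0 hΔ2, hΔ2v, ← heq] at h1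
        linarith
    have hsum : 4 * a + (2 * x' + 2 * x) ≠ 0 ∧
        ν.v (4 * a + (2 * x' + 2 * x)) = ν.v (4 * a) := by
      apply AddVal.v_add_eq_of_gt h4a
      rw [hv4a]
      apply AddVal.Gt.add
      · right
        rw [ν.v_mul h2ne hx', hvx']
        linarith
      · right
        rw [ν.v_mul h2ne hx]
        linarith
    rw [hv4a] at hsum
    have hmain : x' * x * (4 * a + (2 * x' + 2 * x)) ≠ 0 :=
      mul_ne_zero (mul_ne_zero hx' hx) hsum.1
    have hmainv : ν.v (x' * x * (4 * a + (2 * x' + 2 * x))) = 2 * ν.v x := by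
      rw [ν.v_mul (mul_ne_zero hx' hx) hsum.1, ν.v_mul hx' hx, hvx', hsum.2]
      ring
    have eadd : (S + T) * (x' - x) ^ 2 =
        x' * x * (4 * a + (2 * x' + 2 * x)) + 2 * b * (x' + x) := by
      linear_combination hadd
    have hrest : ν.Gt (2 * b * (x' + x)) (ν.v (x' * x * (4 * a + (2 * x' + 2 * x)))) := by
      rw [hmainv]
      have h1 : ν.Gt (2 * b) (ν.v x) := Or.inr (by rw [ν.v_mul h2ne hb]; linarith)
      have h3 : ν.Ge (x' + x) (ν.v x) := AddVal.Ge.add (Or.inr hvx'.ge) (Or.inr le_rfl)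
      have h5 := h1.mul_ge h3
      have e2 : ν.v x + ν.v x = 2 * ν.v x := by ring
      rwa [e2] at h5
    obtain ⟨hne0, hv⟩ := AddVal.v_add_eq_of_gt hmain hrest
    rw [← eadd] at hne0 hv
    have hST0 : S + T ≠ 0 := left_ne_zero_of_mul hne0
    have hSTv : ν.v (S + T) = 0 := by
      rw [ν.v_mul hST0 hΔ2, hΔ2v, hmainv, ← heq] at hv
      linarith
    have hfin := AddVal.v_sub_eq_of_gt hST0 (by rw [hSTv]; exact hS0 : ν.Gt S (ν.v (S + T)))
    have eT : S + T - S = T := by ring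
    rw [eT, hSTv] at hfin
    exact ⟨hfin.1, hfin.2.le⟩

/-- WP `InertSing`. -/
theorem ins_inertSing : InertSingStatement := by
  intro G K _ _ _ D ν hSl h2 ha hv4a haq hb hbv σ τ hI P hP hx hs hsh
  obtain ⟨hinj, hX, hY, hσv, hσi⟩ := hI
  have hR : τ P ≠ 0 := fun h => hP (hinj P h)
  have hXR : D.X (τ P) = σ (D.X P) := hX P hP
  have hYR : D.Y (τ P) = σ (D.Y P) := hY P hP
  have hx' : D.X (τ P) ≠ 0 := by
    rw [hXR]
    exact (map_ne_zero σ).mpr hx
  have hvx' : ν.v (D.X (τ P)) = ν.v (D.X P) := by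
    rw [hXR]
    exact hσv _ hx
  have hw : (D.Y P / D.X P) ^ 2 = D.X P + D.a + D.b / D.X P := ins_w hx (D.eqn P hP)
  have hw' : (D.Y (τ P) / D.X (τ P)) ^ 2 = D.X (τ P) + D.a + D.b / D.X (τ P) :=
    ins_w hx' (D.eqn (τ P) hR)
  have hσw : σ (D.Y P / D.X P) = D.Y (τ P) / D.X (τ P) := by
    rw [map_div₀, hXR, hYR]
  -- the branch parameter `β = w - 1/2` is integral
  have hβint : ν.Ge (D.Y P / D.X P - 1 / 2) 0 := by
    apply ins_int_of_sq_add
    have e : (D.Y P / D.X P - 1 / 2) ^ 2 + (D.Y P / D.X P - 1 / 2) =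
        D.X P + (D.a - 1 / 4) + D.b / D.X P := by
      linear_combination hw
    rw [e]
    apply AddVal.Ge.add
    · apply AddVal.Ge.add
      · exact Or.inr hs.le
      · exact haq
    · right
      rw [ν.v_div hb hx]
      linarith
  have hd : ν.Gt (D.Y (τ P) / D.X (τ P) - D.Y P / D.X P) 0 := by
    have e : D.Y (τ P) / D.X (τ P) - D.Y P / D.X P =
        σ (D.Y P / D.X P - 1 / 2) - (D.Y P / D.X P - 1 / 2) := by
      rw [map_sub, hσw, map_div₀, map_one, map_ofNat]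
      ring
    rw [e]
    rcases eq_or_ne (D.Y P / D.X P - 1 / 2) 0 with h0 | h0
    · left
      rw [h0, map_zero, sub_zero]
    · rcases hσi _ h0 (hβint.le h0) with h1 | h1
      · left
        rw [h1, sub_self]
      · right
        exact h1
  by_cases hne : D.X (τ P) = D.X P
  · left
    rcases D.eq_or_eq_neg (τ P) P hR hP hne with h1 | h1
    · exact h1
    · exfalso
      have hYn : D.Y (τ P) = -D.Y P := by rw [h1, D.Y_neg]
      obtain ⟨hu, hvu⟩ := ins_unit h2 ha hv4a hb hx hs hsh hw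
      rw [hYn, hne] at hd
      have e : -D.Y P / D.X P - D.Y P / D.X P = -(2 * (D.Y P / D.X P)) := by ring
      rw [e] at hd
      have h3 := hd.lt (neg_ne_zero.mpr hu)
      rw [ν.v_neg, hvu] at h3
      exact lt_irrefl _ h3
  · right
    have hT := hSl (τ P) (-P) hR (neg_ne_zero.mpr hP) (by rw [D.X_neg]; exact hne)
    rw [D.X_neg, D.Y_neg, ← sub_eq_add_neg, sub_neg_eq_add] at hT
    have hS := hSl (τ P) P hR hP hne
    have hadd := D.addsub_add (τ P) P hR hP hne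
    refine ins_core (S := D.X (τ P + P)) h2 ha hv4a hb hx hx' hs hsh hvx' hw hw' hd hne
      ?_ ?_ hadd
    · rw [div_mul_cancel₀ _ hx, div_mul_cancel₀ _ hx']
      exact hT
    · rw [div_mul_cancel₀ _ hx, div_mul_cancel₀ _ hx']
      exact hS

end Fermat.Agent.S13
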