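/-
S13, work package `KumExtra`: the Kummer data of a Weierstrass curve
`y² + x y = x³ + a₂ x² + a₄ x` (with a marked root `e` of the completed-square cubic) satisfies,
in addition to the identities of `Fermat.Agent.S05.exists_kummerData`, the chord formula
(`SlopeLaw`) and, when the cubic `X (X² + a X + b)` is separable, surjectivity onto the solutions
of `Y² = X (X² + a X + b)` (`KumSurj`).
-/
import Fermat.Agent.S13.Defs

set_option autoImplicit false

namespace Fermat.Agent.S13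

open Fermat.Agent.S05
open WeierstrassCurve

/-- Pure field identity behind the chord formula. -/
theorem kxt_field_slope {K : Type} [Field K] (X₁ X₂ u₁ u₂ a : K) (hD : X₁ - X₂ ≠ 0) :
    (((u₁ - u₂) / (X₁ - X₂)) ^ 2 - (a + X₁ + X₂)) * (X₁ - X₂) ^ 2 =
      (u₁ - u₂) ^ 2 - (X₁ + X₂ + a) * (X₁ - X₂) ^ 2 := by
  field_simp
  ring

/-- The chord formula for the Kummer coordinates of a Weierstrass curve with `a₁ = 1`, `a₃ = 0`. -/
theorem kxt_slope {K : Type} [Field K] [DecidableEq K] [CharZero K] (W : Affine K)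
    (h₁ : W.a₁ = 1) (h₃ : W.a₃ = 0) (e : K) (P Q : W.Point) (hP : P ≠ 0) (hQ : Q ≠ 0)
    (hX : kumX W e P ≠ kumX W e Q) :
    kumX W e (P + Q) * (kumX W e P - kumX W e Q) ^ 2 =
      (kumY W P - kumY W Q) ^ 2 -
        (kumX W e P + kumX W e Q + (3 * e + W.a₂ + 1 / 4)) * (kumX W e P - kumX W e Q) ^ 2 := by
  rw [(kum_addsub W h₁ h₃ e P Q hP hQ hX).1]
  exact kxt_field_slope _ _ _ _ _ (sub_ne_zero.mpr hX)

/-- The Weierstrass equation, read backwards from the Kummer coordinates. -/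
theorem kxt_equation {K : Type} [Field K] [CharZero K] (W : Affine K)
    (h₁ : W.a₁ = 1) (h₃ : W.a₃ = 0) (h₆ : W.a₆ = 0) (e : K)
    (he : e ^ 3 + (W.a₂ + 1 / 4) * e ^ 2 + W.a₄ * e = 0) (x y : K)
    (hxy : y ^ 2 = x * (x ^ 2 + (3 * e + W.a₂ + 1 / 4) * x +
      (3 * e ^ 2 + 2 * (W.a₂ + 1 / 4) * e + W.a₄))) :
    W.Equation (x + e) (y - (x + e) / 2) := by
  rw [Affine.equation_iff, h₁, h₃, h₆]
  linear_combination hxy - he

/-- Nonsingularity of the point with given Kummer coordinates when the cubic is separable. -/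
theorem kxt_nonsingular {K : Type} [Field K] [CharZero K] (W : Affine K)
    (h₁ : W.a₁ = 1) (h₃ : W.a₃ = 0) (h₆ : W.a₆ = 0) (e : K)
    (he : e ^ 3 + (W.a₂ + 1 / 4) * e ^ 2 + W.a₄ * e = 0)
    (hb : 3 * e ^ 2 + 2 * (W.a₂ + 1 / 4) * e + W.a₄ ≠ 0)
    (hd : (3 * e + W.a₂ + 1 / 4) ^ 2 - 4 * (3 * e ^ 2 + 2 * (W.a₂ + 1 / 4) * e + W.a₄) ≠ 0)
    (x y : K)
    (hxy : y ^ 2 = x * (x ^ 2 + (3 * e + W.a₂ + 1 / 4) * x +
      (3 * e ^ 2 + 2 * (W.a₂ + 1 / 4) * e + W.a₄))) :
    W.Nonsingular (x + e) (y - (x + e) / 2) := by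
  rw [Affine.nonsingular_iff]
  refine ⟨kxt_equation W h₁ h₃ h₆ e he x y hxy, ?_⟩
  rw [h₁, h₃]
  by_contra hcon
  rw [not_or, not_not, not_not] at hcon
  obtain ⟨hx', hy'⟩ := hcon
  -- `y = 0`
  have hy0 : y = 0 := by linear_combination (1 / 2 : K) * hy'
  subst hy0
  -- the derivative of the cubic vanishes at `x`
  have hder : 3 * x ^ 2 + 2 * (3 * e + W.a₂ + 1 / 4) * x +
      (3 * e ^ 2 + 2 * (W.a₂ + 1 / 4) * e + W.a₄) = 0 := by
    linear_combination -hx'
  have hcub : x * (x ^ 2 + (3 * e + W.a₂ + 1 / 4) * x +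
      (3 * e ^ 2 + 2 * (W.a₂ + 1 / 4) * e + W.a₄)) = 0 := by
    rw [← hxy]; ring
  rcases mul_eq_zero.mp hcub with hx0 | hq
  · subst hx0
    apply hb
    linear_combination hder
  · -- `x (2 x + a) = 0`
    have h2 : x * (2 * x + (3 * e + W.a₂ + 1 / 4)) = 0 := by
      linear_combination hder - hq
    rcases mul_eq_zero.mp h2 with hx0 | hxa
    · subst hx0
      apply hb
      linear_combination hder
    · apply hd
      have hxe : x = -(3 * e + W.a₂ + 1 / 4) / 2 := by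
        linear_combination (1 / 2 : K) * hxa
      subst hxe
      linear_combination (-4 : K) * hq

/-- WP `KumExtra`. -/
theorem kxt_kumExtra : KumExtraStatement := by
  intro K _ _ _ W h₁ h₃ h₆ e he
  obtain ⟨D, hX, hY, ha, hb⟩ := exists_kummerData W h₁ h₃ h₆ e he
  refine ⟨D, hX, hY, ha, hb, ?_, ?_⟩
  · intro P Q hP hQ hne
    rw [hX, hY, ha]
    rw [hX] at hne
    exact kxt_slope W h₁ h₃ e P Q hP hQ hne
  · intro hb0 hd0 x y hxy
    rw [hb] at hb0
    rw [ha, hb] at hd0 hxy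
    have hns := kxt_nonsingular W h₁ h₃ h₆ e he hb0 hd0 x y hxy
    refine ⟨Affine.Point.some _ _ hns, Affine.Point.some_ne_zero hns, ?_, ?_⟩
    · rw [hX, kum_X_some]
      ring
    · rw [hY, kum_Y_some]
      ring

end Fermat.Agent.S13
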