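/-
S13, work package `LinAlg`: the two linear-algebra lemmas `LA1`, `LA2` (subgroups of a group of
order `p²` versus a subgroup of order `p`) and `RatVal` (valuation of a Galois-fixed element
of `ℚ̄`).
-/
import Mathlib
import Fermat.Agent.S13.Defs

set_option autoImplicit false

namespace Fermat.Agent.S13

open Fermat.Agent.S05

/-! ### Subgroups of a group of order `p²` -/

/-- A subgroup of prime order meets any subgroup trivially or is contained in it. -/
theorem lna_inf_eq_bot_or_le {V : Type} [AddCommGroup V] {p : ℕ} (hp : p.Prime)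
    (N Z : AddSubgroup V) (hN : Nat.card N = p) : N ⊓ Z = ⊥ ∨ N ≤ Z := by
  have hfin : Finite N := Nat.finite_of_card_ne_zero (by rw [hN]; exact hp.ne_zero)
  have hdvd : Nat.card (N ⊓ Z : AddSubgroup V) ∣ p := by
    rw [← hN]
    exact AddSubgroup.card_dvd_of_le inf_le_left
  rcases (Nat.dvd_prime hp).mp hdvd with h1 | h1
  · left
    exact AddSubgroup.eq_bot_of_card_eq _ h1
  · right
    have h2 : N ⊓ Z = N := AddSubgroup.eq_of_le_of_card_ge inf_le_left (by rw [h1, hN])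
    exact inf_eq_left.mp h2

/-- In a group of order `p²`, a subgroup containing a subgroup of order `p` is that subgroup or
the whole group. -/
theorem lna_eq_or_eq_top {V : Type} [AddCommGroup V] {p : ℕ} (hp : p.Prime)
    (hV : Nat.card V = p ^ 2) (N Z : AddSubgroup V) (hN : Nat.card N = p) (hNZ : N ≤ Z) :
    Z = N ∨ Z = ⊤ := by
  have hVfin : Finite V :=
    Nat.finite_of_card_ne_zero (by rw [hV]; exact pow_ne_zero 2 hp.ne_zero)
  have h1 : Nat.card Z ∣ p ^ 2 := by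
    rw [← hV]
    exact AddSubgroup.card_addSubgroup_dvd_card Z
  have h2 : p ∣ Nat.card Z := by
    rw [← hN]
    exact AddSubgroup.card_dvd_of_le hNZ
  obtain ⟨i, hi, hZ⟩ := (Nat.dvd_prime_pow hp).mp h1
  have hi' : i = 0 ∨ i = 1 ∨ i = 2 := by omega
  rcases hi' with rfl | rfl | rfl
  · exfalso
    rw [hZ, pow_zero] at h2
    exact hp.one_lt.ne' (Nat.dvd_one.mp h2)
  · left
    rw [pow_one] at hZ
    exact (AddSubgroup.eq_of_le_of_card_ge hNZ (by rw [hZ, hN])).symm
  · right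
    exact (AddSubgroup.card_eq_iff_eq_top Z).mp (by rw [hZ, hV])

/-- WP `LA1`. -/
theorem lna_la1 : LA1Statement := by
  intro V _ p hp hV N Z Z' hN hZZ' hZtop T ha hb hc
  rcases lna_inf_eq_bot_or_le hp N Z hN with hNZ | hNZ
  · -- `N ⊓ Z = ⊥`: the right alternative
    right
    intro φ hφ x hx
    have h1 : φ x - x ∈ N := N.sub_mem (hc φ hφ x hx) hx
    have h2 : φ x - x ∈ Z' := ha φ hφ x
    rcases lna_inf_eq_bot_or_le hp N Z' hN with hNZ' | hNZ'
    · have h3 : φ x - x ∈ N ⊓ Z' := ⟨h1, h2⟩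
      rw [hNZ', AddSubgroup.mem_bot] at h3
      exact sub_eq_zero.mp h3
    · have h3 : φ x - x ∈ N ⊓ Z := ⟨h1, hb φ hφ x (hNZ' hx)⟩
      rw [hNZ, AddSubgroup.mem_bot] at h3
      exact sub_eq_zero.mp h3
  · -- `N ≤ Z`: the left alternative
    left
    have hZN : Z = N := (lna_eq_or_eq_top hp hV N Z hN hNZ).resolve_right hZtop
    intro φ hφ x
    rcases lna_eq_or_eq_top hp hV N Z' hN (hNZ.trans hZZ') with hZ' | hZ'
    · rw [← hZ']
      exact ha φ hφ x
    · rw [← hZN]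
      exact hb φ hφ x (by rw [hZ']; exact AddSubgroup.mem_top x)

/-- WP `LA2`. -/
theorem lna_la2 : LA2Statement := by
  intro V _ p hp hV N Z hN T ha hb hc
  have hsecond : ∀ φ ∈ T, ∀ x ∈ N, φ x = x := by
    intro φ hφ x hx
    rcases lna_inf_eq_bot_or_le hp N Z hN with hNZ | hNZ
    · have h3 : φ x - x ∈ N ⊓ Z := ⟨N.sub_mem (hc φ hφ x hx) hx, ha φ hφ x⟩
      rw [hNZ, AddSubgroup.mem_bot] at h3
      exact sub_eq_zero.mp h3
    · exact hb φ hφ x (hNZ hx)
  refine ⟨?_, hsecond⟩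
  intro φ hφ x
  -- the subgroup of fixed points of `φ` contains `N` and `Z`
  have hNK : N ≤ AddMonoidHom.eqLocus φ (AddMonoidHom.id V) := by
    intro y hy
    exact hsecond φ hφ y hy
  have hZK : Z ≤ AddMonoidHom.eqLocus φ (AddMonoidHom.id V) := by
    intro y hy
    exact hb φ hφ y hy
  rcases lna_eq_or_eq_top hp hV N _ hN hNK with hK | hK
  · rw [hK] at hZK
    exact hZK (ha φ hφ x)
  · have hx : x ∈ AddMonoidHom.eqLocus φ (AddMonoidHom.id V) := by
      rw [hK]
      exact AddSubgroup.mem_top x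
    have hx' : φ x = x := hx
    rw [hx', sub_self]
    exact N.zero_mem

/-! ### Valuations of rational numbers -/

/-- The valuation of a nonzero natural number is a multiple of the valuation of `q`. -/
theorem lna_natVal (ν : AddVal Kbar) (q : ℕ) (hq : q.Prime)
    (hν : ∀ n : ℤ, ¬ (q : ℤ) ∣ n → ν.v (n : Kbar) = 0) (m : ℕ) (hm : m ≠ 0) :
    ∃ k : ℕ, ν.v (m : Kbar) = k * ν.v (q : Kbar) := by
  obtain ⟨e, m', hm', rfl⟩ := Nat.exists_eq_pow_mul_and_not_dvd hm q hq.ne_one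
  refine ⟨e, ?_⟩
  have hq0 : (q : Kbar) ≠ 0 := Nat.cast_ne_zero.mpr hq.ne_zero
  have hm'0 : m' ≠ 0 := by
    rintro rfl
    exact hm' (dvd_zero q)
  have hm'K : (m' : Kbar) ≠ 0 := Nat.cast_ne_zero.mpr hm'0
  have h1 : ν.v (m' : Kbar) = 0 := by
    have h2 := hν (m' : ℤ) (by rwa [Int.natCast_dvd_natCast])
    rwa [Int.cast_natCast] at h2
  rw [Nat.cast_mul, Nat.cast_pow, ν.v_mul (pow_ne_zero e hq0) hm'K, ν.v_pow hq0, h1, add_zero]

/-- The valuation of a nonzero integer is a multiple of the valuation of `q`. -/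
theorem lna_intVal (ν : AddVal Kbar) (q : ℕ) (hq : q.Prime)
    (hν : ∀ n : ℤ, ¬ (q : ℤ) ∣ n → ν.v (n : Kbar) = 0) (m : ℤ) (hm : m ≠ 0) :
    ∃ k : ℕ, ν.v (m : Kbar) = k * ν.v (q : Kbar) := by
  obtain ⟨k, hk⟩ := lna_natVal ν q hq hν m.natAbs (Int.natAbs_ne_zero.mpr hm)
  refine ⟨k, ?_⟩
  rcases Int.natAbs_eq m with h | h
  · rw [h, Int.cast_natCast]
    exact hk
  · rw [h, Int.cast_neg, Int.cast_natCast, ν.v_neg]
    exact hk

/-- `ℚ̄` is an algebraic closure of `ℚ` for the canonical `ℚ`-algebra structure of a division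
ring of characteristic zero (the one used in `GalQ`). -/
theorem lna_isAlgClosure : IsAlgClosure ℚ Kbar := by
  have h : (AlgebraicClosure.instAlgebra ℚ : Algebra ℚ (AlgebraicClosure ℚ)) =
      DivisionRing.toRatAlgebra := Subsingleton.elim _ _
  rw [← h]
  infer_instance

/-- `ℚ̄ / ℚ` is Galois. -/
theorem lna_isGalois : IsGalois ℚ Kbar :=
  haveI := lna_isAlgClosure
  IsAlgClosure.isGalois ℚ Kbar

/-- An element of `ℚ̄` fixed by the whole Galois group is rational. -/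
theorem lna_fixed_rat (x : Kbar) (hfix : ∀ σ : GalQ, σ x = x) :
    ∃ r : ℚ, algebraMap ℚ Kbar r = x :=
  haveI := lna_isGalois
  (InfiniteGalois.mem_range_algebraMap_iff_fixed (k := ℚ) (x : Kbar)).mpr hfix

/-- WP `RatVal`. -/
theorem lna_ratVal : RatValStatement := by
  intro ν q hq hν x hx hfix
  obtain ⟨r, rfl⟩ := lna_fixed_rat x hfix
  have hr : r ≠ 0 := by
    rintro rfl
    exact hx (map_zero _)
  have hnum : r.num ≠ 0 := Rat.num_ne_zero.mpr hr
  have hden : r.den ≠ 0 := r.den_ne_zero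
  obtain ⟨k₁, hk₁⟩ := lna_intVal ν q hq hν r.num hnum
  obtain ⟨k₂, hk₂⟩ := lna_natVal ν q hq hν r.den hden
  refine ⟨(k₁ : ℤ) - (k₂ : ℤ), ?_⟩
  have hnumK : ((r.num : ℤ) : Kbar) ≠ 0 := Int.cast_ne_zero.mpr hnum
  have hdenK : ((r.den : ℕ) : Kbar) ≠ 0 := Nat.cast_ne_zero.mpr hden
  rw [eq_ratCast, Rat.cast_def, ν.v_div hnumK hdenK, hk₁, hk₂]
  push_cast
  ring

end Fermat.Agent.S13
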