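/-
S13, work package `Loc2Abs`: the local structure of the odd-order torsion at a prime of
multiplicative reduction of residue characteristic `2` (abstract Kummer-line version), deduced
from the packages `Tors2`, `Deepen2`, `InertSing` and `InertNs` (taken as hypotheses).
-/
import Fermat.Agent.S13.Defs

set_option autoImplicit false

namespace Fermat.Agent.S13

open Fermat.Agent.S05

/-- `tropW` vanishes at the origin. -/
theorem l2a_tropW_zero {G K : Type} [AddCommGroup G] [Field K] (D : KummerData G K)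
    (ν : AddVal K) : tropW D ν (0 : G) = 0 := by
  unfold tropW
  rw [if_pos rfl]

/-- `tropW` at a nonzero point with nonzero `X`-coordinate. -/
theorem l2a_tropW_of_ne {G K : Type} [AddCommGroup G] [Field K] (D : KummerData G K)
    (ν : AddVal K) {P : G} (hP : P ≠ 0) (hX : D.X P ≠ 0) :
    tropW D ν P = max 0 (min (ν.v (D.X P)) (ν.v D.b)) := by
  unfold tropW
  rw [if_neg hP, if_neg hX]

/-- For a nonzero point whose `X`-coordinate is a unit, `2 Y` is a unit as well (residue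
characteristic `2`, `4 a` a unit, `v b > 0`). -/
theorem l2a_twoY_unit {G K : Type} [AddCommGroup G] [Field K] [CharZero K]
    (D : KummerData G K) (ν : AddVal K) (h2 : 0 < ν.v 2) (ha : D.a ≠ 0)
    (h4a : ν.v (4 * D.a) = 0) (hb : D.b ≠ 0) (hbv : 0 < ν.v D.b)
    {P : G} (hP0 : P ≠ 0) (hX : D.X P ≠ 0) (hv : ν.v (D.X P) = 0) :
    2 * D.Y P ≠ 0 ∧ ν.v (2 * D.Y P) = 0 := by
  have h2ne : (2 : K) ≠ 0 := two_ne_zero
  have h4ne : (4 : K) ≠ 0 := by norm_num
  have hv4 : ν.v (4 : K) = 2 * ν.v 2 := by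
    have h : (4 : K) = 2 ^ 2 := by norm_num
    rw [h, ν.v_sq h2ne]
  have h4a_ne : 4 * D.a ≠ 0 := mul_ne_zero h4ne ha
  have hmid_ne : 4 * D.a * D.X P ^ 2 ≠ 0 := mul_ne_zero h4a_ne (pow_ne_zero 2 hX)
  have hmid_v : ν.v (4 * D.a * D.X P ^ 2) = 0 := by
    rw [ν.v_mul h4a_ne (pow_ne_zero 2 hX), h4a, ν.v_sq hX, hv]
    ring
  have hrest : ν.Gt (4 * D.X P ^ 3 + 4 * D.b * D.X P) (ν.v (4 * D.a * D.X P ^ 2)) := by
    rw [hmid_v]
    apply AddVal.Gt.add
    · refine Or.inr ?_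
      rw [ν.v_mul h4ne (pow_ne_zero 3 hX), hv4, ν.v_pow hX, hv]
      linarith
    · refine Or.inr ?_
      rw [ν.v_mul (mul_ne_zero h4ne hb) hX, ν.v_mul h4ne hb, hv4, hv]
      linarith
  obtain ⟨hsum_ne, hsum_v⟩ := AddVal.v_add_eq_of_gt hmid_ne hrest
  have heq : (2 * D.Y P) ^ 2 = 4 * D.a * D.X P ^ 2 + (4 * D.X P ^ 3 + 4 * D.b * D.X P) := by
    have h := D.eqn P hP0
    calc (2 * D.Y P) ^ 2 = 4 * D.Y P ^ 2 := by ring
      _ = 4 * (D.X P * (D.X P ^ 2 + D.a * D.X P + D.b)) := by rw [h]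
      _ = 4 * D.a * D.X P ^ 2 + (4 * D.X P ^ 3 + 4 * D.b * D.X P) := by ring
  have h2Y_ne : 2 * D.Y P ≠ 0 := by
    intro h0
    apply hsum_ne
    rw [← heq, h0]
    ring
  refine ⟨h2Y_ne, ?_⟩
  have h1 : ν.v ((2 * D.Y P) ^ 2) = 0 := by rw [heq, hsum_v, hmid_v]
  rw [ν.v_sq h2Y_ne] at h1
  linarith

/-- WP `Loc2Abs`. -/
theorem l2a_loc2Abs (hT : Tors2Statement) (hD : Deepen2Statement) (hS : InertSingStatement)
    (hN : InertNsStatement) : Loc2AbsStatement := by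
  intro G K _ _ _ D ν hSl h2 ha h4a ha4 hb hbv p hp
  obtain ⟨hT1, hT2⟩ := hT G K D ν h2.le ha h4a hb hbv
  have hDD := hD G K D ν h2 ha h4a (Or.inr hbv.le)
  -- (i) valuations of the `X`-coordinates of the nonzero `p`-torsion points
  have key : ∀ P : G, P ≠ 0 → p • P = 0 →
      D.X P ≠ 0 ∧ 0 ≤ ν.v (D.X P) ∧ ν.v (D.X P) < ν.v D.b ∧
        (0 < ν.v (D.X P) → ∃ j : ℤ, (p : ℝ) * ν.v (D.X P) = 2 * ν.v D.b * j) := by
    intro P hP hpP
    obtain ⟨hX, hlt, hj⟩ := hT1 p hp P hP hpP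
    refine ⟨hX, ?_, hlt, hj⟩
    by_contra hneg
    exact hDD p hp P hP hX (not_le.mp hneg) hpP
  refine ⟨key, ?_⟩
  -- (ii) the subgroup `Z`
  have htrop : ∀ P : G, p • P = 0 → (P = 0 ∨ ν.v (D.X P) = 0) → tropW D ν P = 0 := by
    intro P hpP hP
    by_cases hP0 : P = 0
    · rw [hP0]
      exact l2a_tropW_zero D ν
    · have hv : ν.v (D.X P) = 0 := hP.resolve_left hP0
      rw [l2a_tropW_of_ne D ν hP0 (key P hP0 hpP).1, hv, min_eq_left hbv.le, max_self]
  let Z : AddSubgroup G :=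
    { carrier := {P | p • P = 0 ∧ (P = 0 ∨ ν.v (D.X P) = 0)}
      zero_mem' := ⟨smul_zero p, Or.inl rfl⟩
      add_mem' := by
        intro P Q hP hQ
        have hpPQ : p • (P + Q) = 0 := by rw [smul_add, hP.1, hQ.1, add_zero]
        refine ⟨hpPQ, ?_⟩
        by_cases h0 : P + Q = 0
        · exact Or.inl h0
        · right
          have ht := hT2 P Q (htrop P hP.1 hP.2) (htrop Q hQ.1 hQ.2)
          obtain ⟨hX, h0le, hlt, -⟩ := key (P + Q) h0 hpPQ
          rw [l2a_tropW_of_ne D ν h0 hX, min_eq_left hlt.le, max_eq_right h0le] at ht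
          exact ht
      neg_mem' := by
        intro P hP
        refine ⟨by rw [smul_neg, hP.1, neg_zero], ?_⟩
        rcases hP.2 with h | h
        · exact Or.inl (by rw [h, neg_zero])
        · exact Or.inr (by rw [D.X_neg]; exact h) }
  refine ⟨Z, fun P => Iff.rfl, ?_⟩
  -- (iii) inertia-like pairs
  intro σ τ hστ
  have hN' := hN G K D ν hSl h2.le ha4 (Or.inr hbv.le) σ τ hστ
  have hS' := hS G K D ν hSl h2.le ha h4a ha4 hb hbv σ τ hστ
  have hpτ : ∀ P : G, p • P = 0 → p • (τ P - P) = 0 := by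
    intro P hpP
    rw [smul_sub, ← map_nsmul, hpP, map_zero, sub_zero]
  have hfix : ∀ P : G, P ≠ 0 → p • P = 0 → ν.v (D.X P) = 0 → τ P = P := by
    intro P hP0 hpP hv
    obtain ⟨hX, -, -, -⟩ := key P hP0 hpP
    obtain ⟨h2Y_ne, h2Y_v⟩ := l2a_twoY_unit D ν h2 ha h4a hb hbv hP0 hX hv
    rcases hN' P hP0 (Or.inr (le_of_eq hv.symm)) h2Y_ne h2Y_v with h | ⟨-, hlt⟩
    · exact h
    · by_cases h0 : τ P - P = 0
      · exact sub_eq_zero.mp h0
      · exfalso
        have h3 := (key (τ P - P) h0 (hpτ P hpP)).2.1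
        exact absurd hlt (not_lt.mpr h3)
  refine ⟨?_, ?_⟩
  · intro P hpP
    by_cases hP0 : P = 0
    · rw [hP0, map_zero, sub_zero]
      exact Z.zero_mem
    · obtain ⟨hX, h0le, hlt, -⟩ := key P hP0 hpP
      rcases h0le.eq_or_lt with hv | hv
      · rw [hfix P hP0 hpP hv.symm, sub_self]
        exact Z.zero_mem
      · rcases hS' P hP0 hX hv hlt with h | ⟨-, hle⟩
        · rw [h, sub_self]
          exact Z.zero_mem
        · refine ⟨hpτ P hpP, ?_⟩
          by_cases h0 : τ P - P = 0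
          · exact Or.inl h0
          · exact Or.inr (le_antisymm hle (key (τ P - P) h0 (hpτ P hpP)).2.1)
  · intro P hP
    by_cases hP0 : P = 0
    · rw [hP0, map_zero]
    · exact hfix P hP0 hP.1 (hP.2.resolve_left hP0)

end Fermat.Agent.S13
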