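/-
S13, work package `LocPAbs`: the local structure of the `p`-torsion of the Kummer data of
`Y² = X (X² + a X + b)` in odd residue characteristic (`v 2 = 0`), in the case of good reduction
(`lpa_good`) and of multiplicative reduction with the node at `X = 0` (`lpa_mult`).

In both cases `Z` is the set of `p`-torsion points with `v X < 0` (together with `0`); it is a
subgroup by `E1AddStatement`.  A torsion point `P ∉ Z` with `v (2 Y) = 0` is moved by an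
inertia-like pair by an element of `Z` (`InertNsStatement`); the points with `v Y > 0` for which
`X² - b` is a unit lie in `Z` by the duplication formula ("doubling lemma").
-/
import Mathlib
import Fermat.Agent.S13.Defs

set_option autoImplicit false

namespace Fermat.Agent.S13

open Fermat.Agent.S05

section

variable {G K : Type} [AddCommGroup G] [Field K]

/-! ### Valuation calculus -/

theorem lpa_four_ne_zero [CharZero K] : (4 : K) ≠ 0 := by norm_num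

theorem lpa_v_four [CharZero K] (ν : AddVal K) (h2 : ν.v 2 = 0) : ν.v (4 : K) = 0 := by
  have h : (4 : K) = 2 * 2 := by norm_num
  rw [h, ν.v_mul two_ne_zero two_ne_zero, h2, add_zero]

theorem lpa_ge_sub_quarter [CharZero K] (ν : AddVal K) (h2 : ν.v 2 = 0) {a : K}
    (ha : ν.Ge a 0) : ν.Ge (a - 1 / 4) 0 := by
  refine ha.sub (Or.inr (le_of_eq ?_))
  rw [ν.v_div one_ne_zero lpa_four_ne_zero, ν.v_one, lpa_v_four ν h2, sub_zero]

theorem lpa_ge_mul (ν : AddVal K) {x y : K} (hx : ν.Ge x 0) (hy : ν.Ge y 0) :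
    ν.Ge (x * y) 0 := by
  have h := hx.mul hy
  rwa [add_zero] at h

theorem lpa_gt_mul (ν : AddVal K) {x y : K} (hx : ν.Gt x 0) (hy : ν.Ge y 0) :
    ν.Gt (x * y) 0 := by
  have h := hx.mul_ge hy
  rwa [add_zero] at h

/-- The cubic `x (x² + a x + b)` is integral when `x`, `a`, `b` are. -/
theorem lpa_ge_quad (ν : AddVal K) {a b x : K} (ha : ν.Ge a 0) (hb : ν.Ge b 0)
    (hx : ν.Ge x 0) : ν.Ge (x ^ 2 + a * x + b) 0 := by
  have h1 : ν.Ge (x ^ 2) 0 := by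
    rw [pow_two]
    exact lpa_ge_mul ν hx hx
  exact (h1.add (lpa_ge_mul ν ha hx)).add hb

/-- `y` is integral if `y² = x (x² + a x + b)` with `x`, `a`, `b` integral. -/
theorem lpa_v_y_nonneg (ν : AddVal K) {a b x y : K} (ha : ν.Ge a 0) (hb : ν.Ge b 0)
    (hx : ν.Ge x 0) (hy0 : y ≠ 0) (heq : y ^ 2 = x * (x ^ 2 + a * x + b)) : 0 ≤ ν.v y := by
  have h1 : ν.Ge (y ^ 2) 0 := by
    rw [heq]
    exact lpa_ge_mul ν hx (lpa_ge_quad ν ha hb hx)
  have h2 := h1.le (pow_ne_zero 2 hy0)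
  rw [ν.v_sq hy0] at h2
  linarith

/-- Good reduction: if `y² = x (x² + a x + b)` with `v y > 0`, then `x² - b` is a unit. -/
theorem lpa_good_unit [CharZero K] (ν : AddVal K) (h2 : ν.v 2 = 0) {a b x y : K}
    (ha : ν.Ge a 0) (hb0 : b ≠ 0) (hb : ν.v b = 0) (hd0 : a ^ 2 - 4 * b ≠ 0)
    (hd : ν.v (a ^ 2 - 4 * b) = 0) (hx : ν.Ge x 0) (hy0 : y ≠ 0) (hy : 0 < ν.v y)
    (heq : y ^ 2 = x * (x ^ 2 + a * x + b)) :
    x ^ 2 - b ≠ 0 ∧ ν.v (x ^ 2 - b) = 0 := by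
  have hbge : ν.Ge b 0 := Or.inr hb.ge
  have hy2 : y ^ 2 ≠ 0 := pow_ne_zero 2 hy0
  have hx0 : x ≠ 0 := by
    rintro rfl
    rw [zero_mul] at heq
    exact hy2 heq
  have hq0 : x ^ 2 + a * x + b ≠ 0 := by
    intro h
    rw [h, mul_zero] at heq
    exact hy2 heq
  have hxv : 0 ≤ ν.v x := hx.le hx0
  have hqge : ν.Ge (x ^ 2 + a * x + b) 0 := lpa_ge_quad ν ha hbge hx
  have hsum : ν.v x + ν.v (x ^ 2 + a * x + b) = 2 * ν.v y := by
    rw [← ν.v_mul hx0 hq0, ← heq, ν.v_sq hy0]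
  have hx2 : x ^ 2 ≠ 0 := pow_ne_zero 2 hx0
  rcases hxv.lt_or_eq with hxpos | hxzero
  · -- `v x > 0`
    have h := ν.v_sub_eq_of_lt' hx2 hb0 (by rw [ν.v_sq hx0, hb]; linarith)
    exact ⟨h.1, by rw [h.2, hb]⟩
  · -- `v x = 0`, hence `v (x² + a x + b) > 0`
    have hqgt : ν.Gt (x ^ 2 + a * x + b) 0 := Or.inr (by linarith)
    have hx2ge : ν.Ge (x ^ 2) 0 := by
      rw [pow_two]
      exact lpa_ge_mul ν hx hx
    have huge : ν.Ge (x ^ 2 - b) 0 := hx2ge.sub hbge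
    by_contra hcon
    have hugt : ν.Gt (x ^ 2 - b) 0 := by
      by_cases hu0 : x ^ 2 - b = 0
      · exact Or.inl hu0
      · refine Or.inr (lt_of_le_of_ne (huge.le hu0) ?_)
        intro h
        exact hcon ⟨hu0, h.symm⟩
    have h2b : ν.Ge (2 * b) 0 := Or.inr (by rw [ν.v_mul two_ne_zero hb0, h2, hb, add_zero])
    have haxge : ν.Ge (a * x - 2 * b) 0 := (lpa_ge_mul ν ha hx).sub h2b
    have h1 : ν.Gt ((x ^ 2 + a * x + b) - (x ^ 2 - b)) 0 := hqgt.sub hugt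
    have h3 : ν.Gt (((x ^ 2 + a * x + b) - (x ^ 2 - b)) * (a * x - 2 * b)) 0 :=
      lpa_gt_mul ν h1 haxge
    have ha2 : ν.Ge (a ^ 2) 0 := by
      rw [pow_two]
      exact lpa_ge_mul ν ha ha
    have h4 : ν.Gt ((x ^ 2 - b) * a ^ 2) 0 := lpa_gt_mul ν hugt ha2
    have h5 := h3.sub h4
    have e : ((x ^ 2 + a * x + b) - (x ^ 2 - b)) * (a * x - 2 * b) - (x ^ 2 - b) * a ^ 2 =
        b * (a ^ 2 - 4 * b) := by ring
    rw [e] at h5
    have h6 := h5.lt (mul_ne_zero hb0 hd0)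
    rw [ν.v_mul hb0 hd0, hb, hd, add_zero] at h6
    exact lt_irrefl _ h6

/-! ### Torsion points -/

theorem lpa_add_self_ne_zero {p : ℕ} (hp : Odd p) {P : G} (hP0 : P ≠ 0) (hpP : p • P = 0) :
    P + P ≠ 0 := by
  intro h
  obtain ⟨k, rfl⟩ := hp
  have e : (2 * k + 1) • P = k • (P + P) + P := by
    rw [add_smul, one_smul, mul_comm, mul_smul, two_smul]
  rw [e, h, smul_zero, zero_add] at hpP
  exact hP0 hpP

theorem lpa_mem_of_add_self_mem {p : ℕ} (hp : Odd p) (Z : AddSubgroup G) {P : G}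
    (hpP : p • P = 0) (h : P + P ∈ Z) : P ∈ Z := by
  obtain ⟨k, rfl⟩ := hp
  have e : (k + 1) • (P + P) = (2 * k + 1) • P + P := by
    rw [← two_smul ℕ P, ← mul_smul, add_smul (2 * k) 1 P, one_smul, add_assoc, ← two_smul ℕ P,
      ← add_smul]
    congr 1
    ring
  have e' : (k + 1) • (P + P) = P := by rw [e, hpP, zero_add]
  rw [← e']
  exact Z.nsmul_mem h _

/-- The subgroup `Z` of the `p`-torsion points with `v X < 0` (together with `0`). -/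
theorem lpa_exists_Z [CharZero K] (hE : E1AddStatement) (D : KummerData G K) (ν : AddVal K)
    (h2 : ν.v 2 = 0) (ha : ν.Ge D.a 0) (hb : ν.Ge D.b 0) (p : ℕ) :
    ∃ Z : AddSubgroup G,
      ∀ P : G, P ∈ Z ↔ p • P = 0 ∧ (P = 0 ∨ (D.X P ≠ 0 ∧ ν.v (D.X P) < 0)) := by
  refine ⟨{ carrier := {P | p • P = 0 ∧ (P = 0 ∨ (D.X P ≠ 0 ∧ ν.v (D.X P) < 0))}
            zero_mem' := ⟨smul_zero p, Or.inl rfl⟩
            add_mem' := ?_
            neg_mem' := ?_ }, fun P => Iff.rfl⟩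
  · rintro P Q ⟨hP, hP'⟩ ⟨hQ, hQ'⟩
    refine ⟨by rw [smul_add, hP, hQ, add_zero], ?_⟩
    by_cases hP0 : P = 0
    · rw [hP0, zero_add]
      exact hQ'
    by_cases hQ0 : Q = 0
    · rw [hQ0, add_zero]
      exact hP'
    have hP1 := hP'.resolve_left hP0
    have hQ1 := hQ'.resolve_left hQ0
    exact hE G K D ν h2 ha hb P Q hP0 hQ0 hP1.1 hP1.2 hQ1.1 hQ1.2
  · rintro P ⟨hP, hP'⟩
    refine ⟨by rw [smul_neg, hP, neg_zero], ?_⟩
    rcases hP' with hP0 | hP1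
    · exact Or.inl (by rw [hP0, neg_zero])
    · exact Or.inr (by rw [D.X_neg]; exact hP1)

/-- The subgroup of all `p`-torsion points. -/
theorem lpa_exists_V (G : Type) [AddCommGroup G] (p : ℕ) :
    ∃ V : AddSubgroup G, ∀ P : G, P ∈ V ↔ p • P = 0 := by
  refine ⟨{ carrier := {P | p • P = 0}
            zero_mem' := smul_zero p
            add_mem' := ?_
            neg_mem' := ?_ }, fun P => Iff.rfl⟩
  · intro P Q hP hQ
    have hP' : p • P = 0 := hP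
    have hQ' : p • Q = 0 := hQ
    show p • (P + Q) = 0
    rw [smul_add, hP', hQ', add_zero]
  · intro P hP
    have hP' : p • P = 0 := hP
    show p • (-P) = 0
    rw [smul_neg, hP', neg_zero]

theorem lpa_smul_tau_sub {p : ℕ} (τ : G →+ G) {P : G} (hpP : p • P = 0) :
    p • (τ P - P) = 0 := by
  rw [smul_sub, ← map_nsmul, hpP, map_zero, sub_zero]

/-- An inertia-like pair maps `Z` to itself. -/
theorem lpa_tau_mem (D : KummerData G K) (ν : AddVal K) {p : ℕ} (Z : AddSubgroup G)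
    (hZ : ∀ P : G, P ∈ Z ↔ p • P = 0 ∧ (P = 0 ∨ (D.X P ≠ 0 ∧ ν.v (D.X P) < 0)))
    (σ : K →+* K) (τ : G →+ G) (hI : InertPair D ν σ τ) {P : G} (hP : P ∈ Z) : τ P ∈ Z := by
  obtain ⟨-, hX, -, hv, -⟩ := hI
  obtain ⟨hpP, h⟩ := (hZ P).1 hP
  refine (hZ _).2 ⟨by rw [← map_nsmul, hpP, map_zero], ?_⟩
  by_cases hP0 : P = 0
  · left
    rw [hP0, map_zero]
  · obtain ⟨hx0, hxv⟩ := h.resolve_left hP0
    right
    rw [hX P hP0]
    exact ⟨(map_ne_zero σ).2 hx0, by rw [hv _ hx0]; exact hxv⟩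

/-- Doubling lemma: a `p`-torsion point `P` with `v (Y P) > 0` and `X P ^ 2 - b` a unit
lies in `Z`. -/
theorem lpa_double [CharZero K] (D : KummerData G K) (ν : AddVal K) (h2 : ν.v 2 = 0) {p : ℕ}
    (hp : Odd p) (Z : AddSubgroup G)
    (hZ : ∀ P : G, P ∈ Z ↔ p • P = 0 ∧ (P = 0 ∨ (D.X P ≠ 0 ∧ ν.v (D.X P) < 0)))
    {P : G} (hP0 : P ≠ 0) (hpP : p • P = 0) (hy0 : D.Y P ≠ 0) (hy : 0 < ν.v (D.Y P))
    (hu0 : D.X P ^ 2 - D.b ≠ 0) (hu : ν.v (D.X P ^ 2 - D.b) = 0) : P ∈ Z := by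
  have hPP : P + P ≠ 0 := lpa_add_self_ne_zero hp hP0 hpP
  have hdbl := D.dbl P hP0 hPP
  have h2y : 2 * D.Y P ≠ 0 := mul_ne_zero two_ne_zero hy0
  have hx0 : D.X (P + P) ≠ 0 := by
    intro h
    rw [h, zero_mul] at hdbl
    exact pow_ne_zero 2 hu0 hdbl.symm
  have hv := congrArg ν.v hdbl
  rw [ν.v_mul hx0 (pow_ne_zero 2 h2y), ν.v_sq h2y, ν.v_sq hu0, hu,
    ν.v_mul two_ne_zero hy0, h2] at hv
  refine lpa_mem_of_add_self_mem hp Z hpP ((hZ _).2 ⟨?_, Or.inr ⟨hx0, by linarith⟩⟩)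
  rw [smul_add, hpP, add_zero]

/-- Common step: a `p`-torsion point `P` is moved by an inertia-like pair by an element of `Z`,
as soon as `X P ^ 2 - b` is a unit whenever `P ∉ Z` has `v (Y P) > 0`. -/
theorem lpa_step [CharZero K] (hN : InertNsStatement) (D : KummerData G K) (ν : AddVal K)
    (hS : SlopeLaw D) (h2 : ν.v 2 = 0) (ha : ν.Ge D.a 0) (hb : ν.Ge D.b 0) {p : ℕ} (hp : Odd p)
    (Z : AddSubgroup G)
    (hZ : ∀ P : G, P ∈ Z ↔ p • P = 0 ∧ (P = 0 ∨ (D.X P ≠ 0 ∧ ν.v (D.X P) < 0)))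
    (σ : K →+* K) (τ : G →+ G) (hI : InertPair D ν σ τ) (P : G) (hpP : p • P = 0)
    (hunit : P ≠ 0 → ν.Ge (D.X P) 0 → D.Y P ≠ 0 → 0 < ν.v (D.Y P) →
      D.X P ^ 2 - D.b ≠ 0 ∧ ν.v (D.X P ^ 2 - D.b) = 0) :
    τ P - P ∈ Z := by
  by_cases hPZ : P ∈ Z
  · exact Z.sub_mem (lpa_tau_mem D ν Z hZ σ τ hI hPZ) hPZ
  have hP0 : P ≠ 0 := by
    rintro rfl
    exact hPZ Z.zero_mem
  have hxint : ν.Ge (D.X P) 0 := by
    by_cases hx0 : D.X P = 0
    · exact Or.inl hx0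
    · exact Or.inr (not_lt.mp (fun hlt => hPZ ((hZ P).2 ⟨hpP, Or.inr ⟨hx0, hlt⟩⟩)))
  have hPP : P + P ≠ 0 := lpa_add_self_ne_zero hp hP0 hpP
  have hy0 : D.Y P ≠ 0 := fun h => hPP ((D.two_torsion P hP0).2 h)
  have hyge : 0 ≤ ν.v (D.Y P) := lpa_v_y_nonneg ν ha hb hxint hy0 (D.eqn P hP0)
  have hyle : ¬ 0 < ν.v (D.Y P) := by
    intro hy
    obtain ⟨hu0, hu⟩ := hunit hP0 hxint hy0 hy
    exact hPZ (lpa_double D ν h2 hp Z hZ hP0 hpP hy0 hy hu0 hu)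
  have hyv : ν.v (D.Y P) = 0 := le_antisymm (not_lt.mp hyle) hyge
  have h2y : 2 * D.Y P ≠ 0 := mul_ne_zero two_ne_zero hy0
  have h2yv : ν.v (2 * D.Y P) = 0 := by rw [ν.v_mul two_ne_zero hy0, h2, hyv, add_zero]
  rcases hN G K D ν hS h2.ge (lpa_ge_sub_quarter ν h2 ha) hb σ τ hI P hP0 hxint h2y h2yv with
    h | h
  · rw [h, sub_self]
    exact Z.zero_mem
  · exact (hZ _).2 ⟨lpa_smul_tau_sub τ hpP, Or.inr h⟩

/-! ### Good reduction -/

/-- WP `LocPGood`. -/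
theorem lpa_good (hE : E1AddStatement) (hN : InertNsStatement) : LocPGoodStatement := by
  intro G K _ _ _ D ν hS h2 ha hb0 hb hd0 hd p hp
  have hbge : ν.Ge D.b 0 := Or.inr hb.ge
  obtain ⟨Z, hZ⟩ := lpa_exists_Z hE D ν h2 ha hbge p
  obtain ⟨V, hV⟩ := lpa_exists_V G p
  refine ⟨Z, V, fun P hP => (hV P).2 ((hZ P).1 hP).1, hZ, fun P hP => (hV P).1 hP, ?_⟩
  intro σ τ hI
  refine ⟨fun P hpP => (hV _).2 (lpa_smul_tau_sub τ hpP), fun P hP => ?_⟩
  refine lpa_step hN D ν hS h2 ha hbge hp Z hZ σ τ hI P ((hV P).1 hP) ?_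
  intro hP0 hxint hy0 hy
  exact lpa_good_unit ν h2 ha hb0 hb hd0 hd hxint hy0 hy (D.eqn P hP0)

/-! ### Multiplicative reduction -/

theorem lpa_tropW_eq_zero_iff (D : KummerData G K) (ν : AddVal K) (hb : 0 < ν.v D.b) (P : G) :
    tropW D ν P = 0 ↔ P = 0 ∨ (D.X P ≠ 0 ∧ ν.v (D.X P) ≤ 0) := by
  unfold tropW
  split_ifs with h1 h2
  · exact ⟨fun _ => Or.inl h1, fun _ => rfl⟩
  · constructor
    · intro h
      rw [h] at hb
      exact absurd hb (lt_irrefl _)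
    · rintro (h | h)
      · exact absurd h h1
      · exact absurd h2 h.1
  · constructor
    · intro h
      right
      refine ⟨h2, ?_⟩
      have h3 : min (ν.v (D.X P)) (ν.v D.b) ≤ 0 := by
        rw [← h]
        exact le_max_right _ _
      rcases min_le_iff.1 h3 with h4 | h4
      · exact h4
      · exact absurd hb (not_lt.mpr h4)
    · rintro (h | h)
      · exact absurd h h1
      · exact max_eq_left (le_trans (min_le_left _ _) h.2)

/-- The subgroup `Z'` of the `p`-torsion points with `v X ≤ 0` (together with `0`). -/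
theorem lpa_exists_Z' (D : KummerData G K) (ν : AddVal K) (hb : 0 < ν.v D.b)
    (hadd : ∀ P Q : G, tropW D ν P = 0 → tropW D ν Q = 0 → tropW D ν (P + Q) = 0) (p : ℕ) :
    ∃ Z' : AddSubgroup G, ∀ P : G, P ∈ Z' ↔ p • P = 0 ∧ tropW D ν P = 0 := by
  refine ⟨{ carrier := {P | p • P = 0 ∧ tropW D ν P = 0}
            zero_mem' := ⟨smul_zero p, (lpa_tropW_eq_zero_iff D ν hb 0).2 (Or.inl rfl)⟩
            add_mem' := ?_
            neg_mem' := ?_ }, fun P => Iff.rfl⟩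
  · rintro P Q ⟨hP, hP'⟩ ⟨hQ, hQ'⟩
    exact ⟨by rw [smul_add, hP, hQ, add_zero], hadd P Q hP' hQ'⟩
  · rintro P ⟨hP, hP'⟩
    refine ⟨by rw [smul_neg, hP, neg_zero], (lpa_tropW_eq_zero_iff D ν hb (-P)).2 ?_⟩
    rcases (lpa_tropW_eq_zero_iff D ν hb P).1 hP' with hP0 | hP1
    · exact Or.inl (by rw [hP0, neg_zero])
    · exact Or.inr (by rw [D.X_neg]; exact hP1)

/-- WP `LocPMult`. -/
theorem lpa_mult (hE : E1AddStatement) (hT : Tors2Statement) (hS : InertSingStatement)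
    (hN : InertNsStatement) : LocPMultStatement := by
  intro G K _ _ _ D ν hSl h2 ha0 ha hb0 hb p hp
  have hage : ν.Ge D.a 0 := Or.inr ha.ge
  have hbge : ν.Ge D.b 0 := Or.inr hb.le
  have h4a : ν.v (4 * D.a) = 0 := by
    rw [ν.v_mul lpa_four_ne_zero ha0, lpa_v_four ν h2, ha, add_zero]
  obtain ⟨hT1, hT2⟩ := hT G K D ν h2.ge ha0 h4a hb0 hb
  obtain ⟨Z, hZ⟩ := lpa_exists_Z hE D ν h2 hage hbge p
  obtain ⟨Z', hZ'⟩ := lpa_exists_Z' D ν hb hT2 p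
  have hle : Z ≤ Z' := by
    intro P hP
    obtain ⟨hpP, h⟩ := (hZ P).1 hP
    refine (hZ' P).2 ⟨hpP, (lpa_tropW_eq_zero_iff D ν hb P).2 ?_⟩
    rcases h with h | h
    · exact Or.inl h
    · exact Or.inr ⟨h.1, h.2.le⟩
  refine ⟨Z, Z', hle, hZ, fun P hP => ((hZ' P).1 hP).1, ?_⟩
  intro σ τ hI
  have key : ∀ P : G, P ∈ Z' → τ P - P ∈ Z := by
    intro P hP
    obtain ⟨hpP, htw⟩ := (hZ' P).1 hP
    refine lpa_step hN D ν hSl h2 hage hbge hp Z hZ σ τ hI P hpP ?_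
    intro hP0 hxint hy0 hy
    obtain ⟨hx0, hxle⟩ := ((lpa_tropW_eq_zero_iff D ν hb P).1 htw).resolve_left hP0
    have hxv : ν.v (D.X P) = 0 := le_antisymm hxle (hxint.le hx0)
    have h := ν.v_sub_eq_of_lt (pow_ne_zero 2 hx0) hb0 (by rw [ν.v_sq hx0, hxv]; linarith)
    exact ⟨h.1, by rw [h.2, ν.v_sq hx0, hxv, mul_zero]⟩
  refine ⟨fun P hpP => ?_, key⟩
  by_cases hPZ' : P ∈ Z'
  · exact hle (key P hPZ')
  have hP0 : P ≠ 0 := by
    rintro rfl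
    exact hPZ' Z'.zero_mem
  obtain ⟨hx0, hxlt, -⟩ := hT1 p hp P hP0 hpP
  have hxpos : 0 < ν.v (D.X P) := by
    by_contra hcon
    exact hPZ' ((hZ' P).2 ⟨hpP, (lpa_tropW_eq_zero_iff D ν hb P).2
      (Or.inr ⟨hx0, not_lt.mp hcon⟩)⟩)
  rcases hS G K D ν hSl h2.ge ha0 h4a (lpa_ge_sub_quarter ν h2 hage) hb0 hb σ τ hI P hP0 hx0
    hxpos hxlt with h | h
  · rw [h, sub_self]
    exact Z'.zero_mem
  · exact (hZ' _).2 ⟨lpa_smul_tau_sub τ hpP, (lpa_tropW_eq_zero_iff D ν hb _).2 (Or.inr h)⟩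

end

end Fermat.Agent.S13
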