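/-
S13, work package `Local2` (second, independent version): the glue on the concrete Frey curve at
the prime `2`.

* `lcb_setup`: for a valuation subring `A` of `ℚ̄` over `2`, the Kummer data `D` of the Frey
  curve (with `e = 0`), the additive valuation `ν` of `A`, and the subgroup `Z` of the
  `p`-torsion points with `v X = 0`, on which the inertia subgroup of `A` acts trivially and
  which contains `σ Q - Q` for all `p`-torsion points `Q` and all `σ` in the inertia subgroup.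
* `lcb_local2 : Loc2AbsStatement → KumExtraStatement → FreyCardStatement → LA2Statement →
  Local2Statement`.
* `lcb_local2Rat : Loc2AbsStatement → KumExtraStatement → RatValStatement → Local2RatStatement`.
-/
import Fermat.Agent.S13.Defs
import Fermat.Agent.S05.Main

set_option autoImplicit false

namespace Fermat.Agent.S13

open Fermat.Agent.S05
open WeierstrassCurve WeierstrassCurve.Affine WeierstrassCurve.Affine.Point

/-! ### Integer facts about a Frey package -/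

/-- `a` is odd. -/
theorem lcb_a_odd (P : FreyPackage) : ¬ (2 : ℤ) ∣ P.a := by
  have h1 : (4 : ℤ) ∣ P.a + 1 := by
    have h := P.ha4
    have h2 : ((P.a + 1 : ℤ) : ZMod 4) = 0 := by
      push_cast
      rw [h]
      decide
    exact (ZMod.intCast_zmod_eq_zero_iff_dvd _ 4).1 h2
  omega

/-- `b` is even. -/
theorem lcb_b_even (P : FreyPackage) : (2 : ℤ) ∣ P.b :=
  (ZMod.intCast_zmod_eq_zero_iff_dvd P.b 2).1 P.hb2

/-- `4 ∣ b ^ p - 1 - a ^ p`. -/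
theorem lcb_four_dvd (P : FreyPackage) : (4 : ℤ) ∣ P.b ^ P.p - 1 - P.a ^ P.p := by
  have h1 : (4 : ℤ) ∣ P.a + 1 := by
    have h := P.ha4
    have h2 : ((P.a + 1 : ℤ) : ZMod 4) = 0 := by
      push_cast
      rw [h]
      decide
    exact (ZMod.intCast_zmod_eq_zero_iff_dvd _ 4).1 h2
  have h3 : P.a + 1 ∣ P.a ^ P.p + 1 := by
    have := Odd.add_dvd_pow_add_pow P.a 1 P.hp_odd
    simpa using this
  have h4 : (4 : ℤ) ∣ P.a ^ P.p + 1 := h1.trans h3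
  have h5 : (2 : ℤ) ^ 2 ∣ P.b ^ 2 := pow_dvd_pow_of_dvd (lcb_b_even P) 2
  have h6 : P.b ^ 2 ∣ P.b ^ P.p := pow_dvd_pow _ (by have := P.hp5; omega)
  have h7 : (4 : ℤ) ∣ P.b ^ P.p := (by norm_num : (4 : ℤ) = 2 ^ 2) ▸ h5.trans h6
  have : P.b ^ P.p - 1 - P.a ^ P.p = P.b ^ P.p - (P.a ^ P.p + 1) := by ring
  rw [this]
  exact dvd_sub h7 h4

/-- `b = 2 ^ k * b'` with `b'` odd and `1 ≤ k`. -/
theorem lcb_b_decomp (P : FreyPackage) :
    ∃ (k : ℕ) (b' : ℤ), 1 ≤ k ∧ ¬ (2 : ℤ) ∣ b' ∧ P.b = 2 ^ k * b' := by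
  obtain ⟨c, hc, hodd⟩ :=
    (Int.finiteMultiplicity_iff.mpr ⟨by decide, P.hb0⟩ :
      FiniteMultiplicity (2 : ℤ) P.b).exists_eq_pow_mul_and_not_dvd
  refine ⟨multiplicity (2 : ℤ) P.b, c, ?_, hodd, hc⟩
  by_contra hk
  have hk0 : multiplicity (2 : ℤ) P.b = 0 := by omega
  rw [hk0, pow_zero, one_mul] at hc
  exact hodd (hc ▸ lcb_b_even P)

/-! ### The local data at a valuation subring over `2` -/

/-- The local data of the Frey curve at a valuation subring over `2`. -/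
theorem lcb_setup (hL : Loc2AbsStatement) (hK : KumExtraStatement) (P : FreyPackage)
    (A : ValuationSubring Kbar) (hA : A.LiesOverPrime 2) :
    ∃ (D : KummerData (FW P).Point Kbar) (ν : AddVal Kbar) (Z : AddSubgroup (FW P).Point),
      D.X = kumX (FW P) 0 ∧
      0 < ν.v (2 : Kbar) ∧
      (∀ n : ℤ, n ≠ 0 → 0 ≤ ν.v (n : Kbar)) ∧
      (∀ n : ℤ, ¬ (2 : ℤ) ∣ n → ν.v (n : Kbar) = 0) ∧
      D.b ≠ 0 ∧ 0 < ν.v D.b ∧
      (∃ k : ℕ, ν.v D.b = ((P.p : ℝ) * k - 4) * ν.v (2 : Kbar)) ∧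
      (∀ Q : (FW P).Point, Q ≠ 0 → P.p • Q = 0 →
        D.X Q ≠ 0 ∧ 0 ≤ ν.v (D.X Q) ∧ ν.v (D.X Q) < ν.v D.b ∧
          (0 < ν.v (D.X Q) → ∃ j : ℤ, (P.p : ℝ) * ν.v (D.X Q) = 2 * ν.v D.b * j)) ∧
      (∀ Q : (FW P).Point, Q ∈ Z ↔ P.p • Q = 0 ∧ (Q = 0 ∨ ν.v (D.X Q) = 0)) ∧
      ∀ σ : GalQ, σ ∈ A.inertiaSubgroupIn ℚ →
        (∀ Q : (FW P).Point, P.p • Q = 0 →
          Affine.Point.map (W' := P.freyCurve) σ.toAlgHom Q - Q ∈ Z) ∧
        (∀ Q : (FW P).Point, Q ∈ Z → Affine.Point.map (W' := P.freyCurve) σ.toAlgHom Q = Q) := by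
  have hAlg : Algebra.IsAlgebraic ℚ (AlgebraicClosure ℚ) := AlgebraicClosure.isAlgebraic ℚ
  obtain ⟨ν, hν1, hν2, hν3, hν4⟩ := exists_addVal A Nat.prime_two hA
  -- numerics
  have h2K : (2 : Kbar) ≠ 0 := two_ne_zero
  have h4K : (4 : Kbar) ≠ 0 := by norm_num
  have h16K : (16 : Kbar) ≠ 0 := by norm_num
  have hθ : 0 < ν.v (2 : Kbar) := by
    have h := (hν2 ((2 : ℕ) : Kbar) (by exact_mod_cast h2K)).mpr hA
    exact_mod_cast h
  have hint : ∀ n : ℤ, n ≠ 0 → 0 ≤ ν.v (n : Kbar) := fun n hn =>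
    (hν1 _ (Int.cast_ne_zero.mpr hn)).mpr (intCast_mem A n)
  have hodd : ∀ n : ℤ, ¬ (2 : ℤ) ∣ n → ν.v (n : Kbar) = 0 := fun n hn =>
    hν3 n (by exact_mod_cast hn)
  have hv4 : ν.v (4 : Kbar) = 2 * ν.v (2 : Kbar) := by
    have : (4 : Kbar) = 2 * 2 := by norm_num
    rw [this, ν.v_mul h2K h2K]; ring
  have hv16 : ν.v (16 : Kbar) = 4 * ν.v (2 : Kbar) := by
    have : (16 : Kbar) = 4 * 4 := by norm_num
    rw [this, ν.v_mul h4K h4K, hv4]; ring
  have hp0 : (0 : ℝ) < P.p := by exact_mod_cast P.hppos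
  have hp5 : (5 : ℝ) ≤ P.p := by exact_mod_cast P.hp5
  -- the p-th powers
  have haK : (P.a : Kbar) ≠ 0 := Int.cast_ne_zero.mpr P.ha0
  have hbK : (P.b : Kbar) ≠ 0 := Int.cast_ne_zero.mpr P.hb0
  obtain ⟨Aa, hAa⟩ : ∃ Aa : Kbar, Aa = (P.a : Kbar) ^ P.p := ⟨_, rfl⟩
  obtain ⟨B, hB⟩ : ∃ B : Kbar, B = (P.b : Kbar) ^ P.p := ⟨_, rfl⟩
  have hA0 : Aa ≠ 0 := by rw [hAa]; exact pow_ne_zero _ haK
  have hB0 : B ≠ 0 := by rw [hB]; exact pow_ne_zero _ hbK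
  have hvA : ν.v Aa = 0 := by
    rw [hAa, ν.v_pow haK, hodd P.a (lcb_a_odd P), mul_zero]
  obtain ⟨k, b', hk1, hb'odd, hbdec⟩ := lcb_b_decomp P
  have hb'0 : b' ≠ 0 := by
    rintro rfl
    exact hb'odd (dvd_zero _)
  have hvb : ν.v (P.b : Kbar) = k * ν.v (2 : Kbar) := by
    have hb'K : (b' : Kbar) ≠ 0 := Int.cast_ne_zero.mpr hb'0
    have e : (P.b : Kbar) = (2 : Kbar) ^ k * (b' : Kbar) := by
      rw [hbdec]; push_cast; ring
    rw [e, ν.v_mul (pow_ne_zero _ h2K) hb'K, ν.v_pow h2K, hodd b' hb'odd, add_zero]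
  have hvB : ν.v B = (P.p : ℝ) * k * ν.v (2 : Kbar) := by
    rw [hB, ν.v_pow hbK, hvb]; ring
  have hk1' : (1 : ℝ) ≤ k := by exact_mod_cast hk1
  have hpk : (5 : ℝ) ≤ (P.p : ℝ) * k := by nlinarith
  have hvBpos : 0 < ν.v B := by
    rw [hvB]
    exact mul_pos (by linarith) hθ
  -- the curve
  have hW₁ : (FW P).a₁ = 1 := by
    show algebraMap ℚ Kbar P.freyCurve.a₁ = 1
    rw [show P.freyCurve.a₁ = 1 from rfl, _root_.map_one]
  have hW₃ : (FW P).a₃ = 0 := by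
    show algebraMap ℚ Kbar P.freyCurve.a₃ = 0
    rw [show P.freyCurve.a₃ = 0 from rfl, _root_.map_zero]
  have hW₆ : (FW P).a₆ = 0 := by
    show algebraMap ℚ Kbar P.freyCurve.a₆ = 0
    rw [show P.freyCurve.a₆ = 0 from rfl, _root_.map_zero]
  have hW₂ : (FW P).a₂ = (B - 1 - Aa) / 4 := by
    show algebraMap ℚ Kbar P.freyCurve.a₂ = (B - 1 - Aa) / 4
    rw [show P.freyCurve.a₂ = ((P.b : ℚ) ^ P.p - 1 - (P.a : ℚ) ^ P.p) / 4 from rfl, hAa, hB]
    simp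
  have hW₄ : (FW P).a₄ = -Aa * B / 16 := by
    show algebraMap ℚ Kbar P.freyCurve.a₄ = -Aa * B / 16
    rw [show P.freyCurve.a₄ = -((P.a : ℚ) ^ P.p) * ((P.b : ℚ) ^ P.p) / 16 from rfl, hAa, hB]
    simp
  obtain ⟨D, hDX, hDY, hDa, hDb, hSlope, -⟩ := hK Kbar (FW P) hW₁ hW₃ hW₆ 0 (by ring)
  have hDa' : D.a = (B - Aa) / 4 := by rw [hDa, hW₂]; ring
  have hDb' : D.b = -Aa * B / 16 := by rw [hDb, hW₂, hW₄]; ring
  have hAB0 : -Aa * B ≠ 0 := mul_ne_zero (neg_ne_zero.mpr hA0) hB0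
  obtain ⟨hBA0, hvBA⟩ := AddVal.v_sub_eq_of_gt' hA0
    (Or.inr (by rw [hvA]; exact hvBpos) : ν.Gt B (ν.v Aa))
  have h4Da : 4 * D.a = B - Aa := by rw [hDa']; field_simp
  have hDa0 : D.a ≠ 0 := by rw [hDa']; exact div_ne_zero hBA0 h4K
  have hv4Da : ν.v (4 * D.a) = 0 := by rw [h4Da, hvBA, hvA]
  have hDaGe : ν.Ge (D.a - 1 / 4) 0 := by
    obtain ⟨n, hn⟩ := lcb_four_dvd P
    have e : D.a - 1 / 4 = (n : Kbar) := by
      have hn' : B - 1 - Aa = 4 * (n : Kbar) := by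
        rw [hAa, hB]
        exact_mod_cast congrArg (Int.cast : ℤ → Kbar) hn
      rw [hDa']
      field_simp
      linear_combination hn'
    rw [e]
    rcases eq_or_ne n 0 with rfl | hn0
    · left; simp
    · right; exact hint n hn0
  have hDb0 : D.b ≠ 0 := by rw [hDb']; exact div_ne_zero hAB0 h16K
  have hvDb : ν.v D.b = ((P.p : ℝ) * k - 4) * ν.v (2 : Kbar) := by
    rw [hDb', ν.v_div hAB0 h16K, ν.v_mul (neg_ne_zero.mpr hA0) hB0, ν.v_neg, hvA, hvB, hv16]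
    ring
  have hvDbpos : 0 < ν.v D.b := by
    rw [hvDb]
    exact mul_pos (by linarith) hθ
  obtain ⟨hi, Z, hZ, hZin⟩ := hL (FW P).Point Kbar D ν hSlope hθ hDa0 hv4Da hDaGe hDb0 hvDbpos
    P.p P.hp_odd
  refine ⟨D, ν, Z, hDX, hθ, hint, hodd, hDb0, hvDbpos, ⟨k, hvDb⟩, hi, hZ, ?_⟩
  intro σ hσ
  obtain ⟨hσv, hσnear⟩ := hν4 σ hσ
  refine hZin (σ : Kbar →+* Kbar) (Affine.Point.map (W' := P.freyCurve) σ.toAlgHom)
    ⟨main_map_ne_zero P.freyCurve σ, ?_, ?_, hσv, hσnear⟩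
  · intro Q hQ; rw [hDX]; exact main_map_kumX P.freyCurve σ 0 (_root_.map_zero σ) Q hQ
  · intro Q hQ; rw [hDY]; exact main_map_kumY P.freyCurve σ Q hQ

/-! ### Inertia at `2` acts trivially on a stable line and on the quotient -/

theorem lcb_local2 (hL : Loc2AbsStatement) (hK : KumExtraStatement) (hC : FreyCardStatement)
    (hLA : LA2Statement) : Local2Statement := by
  intro P A hA N hN hNbot hNtop σ hσ
  obtain ⟨D, ν, Z, -, -, -, -, -, -, -, -, hZ, hin⟩ := lcb_setup hL hK P A hA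
  obtain ⟨h1, h2⟩ := hin σ hσ
  have hcard : Nat.card (FV P) = P.p ^ 2 := hC P
  have hfin : Finite (FV P) := Nat.finite_of_card_ne_zero (by rw [hcard]; exact pow_ne_zero 2 P.hp0)
  have hN' : Nat.card N.toAddSubgroup = P.p := by
    have hdvd : Nat.card N.toAddSubgroup ∣ P.p ^ 2 := by
      rw [← hcard]; exact AddSubgroup.card_addSubgroup_dvd_card _
    obtain ⟨i, hi, hcardN⟩ := (Nat.dvd_prime_pow P.pp).mp hdvd
    interval_cases i
    · exfalso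
      apply hNbot
      rw [pow_zero] at hcardN
      have hb : N.toAddSubgroup = ⊥ := AddSubgroup.eq_bot_of_card_eq _ hcardN
      rw [Submodule.eq_bot_iff]
      intro x hx
      have hx' : x ∈ N.toAddSubgroup := hx
      rw [hb] at hx'
      exact AddSubgroup.mem_bot.mp hx'
    · simpa using hcardN
    · exfalso
      apply hNtop
      have ht : N.toAddSubgroup = ⊤ :=
        AddSubgroup.eq_top_of_card_eq _ (hcardN.trans hcard.symm)
      rw [Submodule.eq_top_iff']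
      intro x
      have hx' : x ∈ N.toAddSubgroup := by rw [ht]; exact AddSubgroup.mem_top x
      exact hx'
  have hpt : ∀ x : FV P, P.p • x.1 = 0 := by
    intro x
    have h := x.2
    rw [Submodule.mem_torsionBy_iff] at h
    rwa [natCast_zsmul] at h
  have key := hLA (FV P) P.p P.pp hcard N.toAddSubgroup
    (Z.comap (Submodule.torsionBy ℤ (FW P).Point P.p).subtype.toAddMonoidHom) hN'
    {DistribSMul.toAddMonoidHom (FV P) σ} ?_ ?_ ?_
  · obtain ⟨k1, k2⟩ := key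
    exact ⟨fun x => k1 _ rfl x, fun x hx => k2 _ rfl x hx⟩
  · rintro φ rfl x
    show Affine.Point.map (W' := P.freyCurve) σ.toAlgHom x.1 - x.1 ∈ Z
    exact h1 x.1 (hpt x)
  · rintro φ rfl x hx
    apply Subtype.ext
    show Affine.Point.map (W' := P.freyCurve) σ.toAlgHom x.1 = x.1
    exact h2 x.1 hx
  · rintro φ rfl x hx
    exact hN σ x hx

/-! ### No rational point of order `p` -/

theorem lcb_isAlgClosure : IsAlgClosure ℚ Kbar := by
  have h : (AlgebraicClosure.instAlgebra ℚ : Algebra ℚ (AlgebraicClosure ℚ)) =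
      DivisionRing.toRatAlgebra := Subsingleton.elim _ _
  rw [← h]
  infer_instance

theorem lcb_isGalois : IsGalois ℚ Kbar := by
  have := lcb_isAlgClosure
  infer_instance

/-- A Galois-fixed element of `ℚ̄` is rational. -/
theorem lcb_rat_of_fixed (x : Kbar) (hx : ∀ σ : GalQ, σ x = x) :
    ∃ r : ℚ, algebraMap ℚ Kbar r = x := by
  have := lcb_isGalois
  exact (InfiniteGalois.mem_range_algebraMap_iff_fixed x).mpr hx

/-- There is a valuation subring of `ℚ̄` over `2`. -/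
theorem lcb_exists_liesOver2 : ∃ A : ValuationSubring Kbar, A.LiesOverPrime 2 := by
  have hI : Ideal.span {((2 : ℕ) : (⊥ : Subring Kbar))} ≠ ⊤ := by
    rw [Ne, Ideal.span_singleton_eq_top]
    intro hu
    obtain ⟨b, hb⟩ := isUnit_iff_exists_inv.mp hu
    obtain ⟨n, hn⟩ := Subring.mem_bot.mp b.2
    have h1 : ((2 : ℤ) * n : ℤ) = 1 := by
      have h2 : ((2 : ℕ) : Kbar) * (b : Kbar) = 1 := congrArg Subtype.val hb
      rw [← hn] at h2
      exact_mod_cast h2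
    omega
  obtain ⟨B, -, hB⟩ := Ideal.image_subset_nonunits_valuationSubring _ hI
  exact ⟨B, hB ⟨_, Ideal.subset_span rfl, rfl⟩⟩

/-- A Galois-fixed element of valuation `0` is a quotient of two odd integers. -/
theorem lcb_rat_unit (ν : AddVal Kbar) (hθ : 0 < ν.v (2 : Kbar))
    (hint : ∀ n : ℤ, n ≠ 0 → 0 ≤ ν.v (n : Kbar))
    (hodd : ∀ n : ℤ, ¬ (2 : ℤ) ∣ n → ν.v (n : Kbar) = 0)
    (x : Kbar) (hx : ∀ σ : GalQ, σ x = x) (hx0 : x ≠ 0) (hvx : ν.v x = 0) :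
    ∃ n d : ℤ, ¬ (2 : ℤ) ∣ n ∧ ¬ (2 : ℤ) ∣ d ∧ x * (d : Kbar) = (n : Kbar) := by
  obtain ⟨r, rfl⟩ := lcb_rat_of_fixed x hx
  have hr0 : r ≠ 0 := by
    rintro rfl
    exact hx0 (_root_.map_zero _)
  have hnum0 : r.num ≠ 0 := Rat.num_ne_zero.mpr hr0
  have hden0 : (r.den : ℤ) ≠ 0 := by exact_mod_cast r.den_ne_zero
  have hnumK : (r.num : Kbar) ≠ 0 := Int.cast_ne_zero.mpr hnum0
  have hdenK : ((r.den : ℤ) : Kbar) ≠ 0 := Int.cast_ne_zero.mpr hden0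
  have e : algebraMap ℚ Kbar r = (r.num : Kbar) / ((r.den : ℤ) : Kbar) := by
    conv_lhs => rw [← Rat.num_div_den r]
    rw [map_div₀, map_intCast, map_natCast, Int.cast_natCast]
  have hv : ν.v (r.num : Kbar) = ν.v ((r.den : ℤ) : Kbar) := by
    rw [e, ν.v_div hnumK hdenK] at hvx
    linarith
  have heven : ∀ n : ℤ, n ≠ 0 → (2 : ℤ) ∣ n → 0 < ν.v (n : Kbar) := by
    rintro n hn ⟨c, rfl⟩
    have hc : c ≠ 0 := right_ne_zero_of_mul hn
    have e2 : (((2 : ℤ) * c : ℤ) : Kbar) = (2 : Kbar) * (c : Kbar) := by push_cast; ring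
    rw [e2, ν.v_mul two_ne_zero (Int.cast_ne_zero.mpr hc)]
    have := hint c hc
    linarith
  have hcop : ¬ ((2 : ℤ) ∣ r.num ∧ (2 : ℤ) ∣ (r.den : ℤ)) := by
    rintro ⟨h1, h2⟩
    have h1' : 2 ∣ r.num.natAbs := by
      have := Int.natAbs_dvd_natAbs.mpr h1
      simpa using this
    have h2' : 2 ∣ r.den := by exact_mod_cast h2
    exact Nat.not_coprime_of_dvd_of_dvd (by norm_num) h1' h2' r.reduced
  refine ⟨r.num, r.den, ?_, ?_, ?_⟩
  · intro h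
    have h2 : ¬ (2 : ℤ) ∣ (r.den : ℤ) := fun h' => hcop ⟨h, h'⟩
    have h3 := heven _ hnum0 h
    rw [hv, hodd _ h2] at h3
    exact lt_irrefl _ h3
  · intro h
    have h2 : ¬ (2 : ℤ) ∣ r.num := fun h' => hcop ⟨h', h⟩
    have h3 := heven _ hden0 h
    rw [← hv, hodd _ h2] at h3
    exact lt_irrefl _ h3
  · rw [e]
    field_simp

/-- Two distinct Galois-fixed elements of valuation `0` differ by an element of positive
valuation (the residue field of `ℚ` at `2` has two elements). -/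
theorem lcb_rat_unit_sub (ν : AddVal Kbar) (hθ : 0 < ν.v (2 : Kbar))
    (hint : ∀ n : ℤ, n ≠ 0 → 0 ≤ ν.v (n : Kbar))
    (hodd : ∀ n : ℤ, ¬ (2 : ℤ) ∣ n → ν.v (n : Kbar) = 0)
    (x y : Kbar) (hx : ∀ σ : GalQ, σ x = x) (hy : ∀ σ : GalQ, σ y = y)
    (hx0 : x ≠ 0) (hy0 : y ≠ 0) (hvx : ν.v x = 0) (hvy : ν.v y = 0) (hxy : x ≠ y) :
    0 < ν.v (x - y) := by
  obtain ⟨n₁, d₁, hn₁, hd₁, e₁⟩ := lcb_rat_unit ν hθ hint hodd x hx hx0 hvx
  obtain ⟨n₂, d₂, hn₂, hd₂, e₂⟩ := lcb_rat_unit ν hθ hint hodd y hy hy0 hvy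
  have hd : ¬ (2 : ℤ) ∣ d₁ * d₂ := by
    intro h
    rcases Int.prime_two.dvd_or_dvd h with h | h
    · exact hd₁ h
    · exact hd₂ h
  have hd0 : d₁ * d₂ ≠ 0 := by
    intro h
    rw [h] at hd
    exact hd (dvd_zero _)
  have hdK : ((d₁ * d₂ : ℤ) : Kbar) ≠ 0 := Int.cast_ne_zero.mpr hd0
  have hM : (x - y) * ((d₁ * d₂ : ℤ) : Kbar) = ((n₁ * d₂ - n₂ * d₁ : ℤ) : Kbar) := by
    push_cast
    linear_combination (d₂ : Kbar) * e₁ - (d₁ : Kbar) * e₂
  have hxy0 : x - y ≠ 0 := sub_ne_zero.mpr hxy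
  have hM0 : n₁ * d₂ - n₂ * d₁ ≠ 0 := by
    intro h
    rw [h, Int.cast_zero] at hM
    exact mul_ne_zero hxy0 hdK hM
  have hMeven : (2 : ℤ) ∣ n₁ * d₂ - n₂ * d₁ := by
    have o : ∀ n : ℤ, ¬ (2 : ℤ) ∣ n → Odd n := fun n h =>
      Int.not_even_iff_odd.mp (fun he => h (even_iff_two_dvd.mp he))
    exact even_iff_two_dvd.mp (((o _ hn₁).mul (o _ hd₂)).sub_odd ((o _ hn₂).mul (o _ hd₁)))
  obtain ⟨c, hc⟩ := hMeven
  have hc0 : c ≠ 0 := by
    rintro rfl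
    exact hM0 (by rw [hc, mul_zero])
  have h1 : ν.v ((x - y) * ((d₁ * d₂ : ℤ) : Kbar)) = ν.v (x - y) := by
    rw [ν.v_mul hxy0 hdK, hodd _ hd, add_zero]
  have h2 : ν.v ((n₁ * d₂ - n₂ * d₁ : ℤ) : Kbar) = ν.v (2 : Kbar) + ν.v (c : Kbar) := by
    rw [hc]
    push_cast
    exact ν.v_mul two_ne_zero (Int.cast_ne_zero.mpr hc0)
  rw [← h1, hM, h2]
  have := hint c hc0
  linarith

theorem lcb_local2Rat (hL : Loc2AbsStatement) (hK : KumExtraStatement) (hR : RatValStatement) :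
    Local2RatStatement := by
  intro P x hx
  by_contra hcon
  push Not at hcon
  obtain ⟨A, hA⟩ := lcb_exists_liesOver2
  obtain ⟨D, ν, Z, hDX, hθ, hint, hodd, hDb0, hvDbpos, ⟨k, hvDb⟩, hi, hZ, -⟩ :=
    lcb_setup hL hK P A hA
  have hQ0 : x.1 ≠ 0 := fun h => hx (Subtype.ext h)
  have hpQ : P.p • x.1 = 0 := by
    have h := x.2
    rw [Submodule.mem_torsionBy_iff] at h
    rwa [natCast_zsmul] at h
  have hfix : ∀ σ : GalQ, Affine.Point.map (W' := P.freyCurve) σ.toAlgHom x.1 = x.1 :=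
    fun σ => congrArg Subtype.val (hcon σ)
  -- multiples of the point
  have hord : ∀ n : ℕ, n • x.1 = 0 → P.p ∣ n := by
    intro n hn
    have hfact : Fact P.p.Prime := ⟨P.pp⟩
    have h := addOrderOf_eq_prime hpQ hQ0
    rw [← h]
    exact addOrderOf_dvd_iff_nsmul_eq_zero.mpr hn
  have hmulne : ∀ n : ℕ, 0 < n → n < 5 → n • x.1 ≠ 0 := by
    intro n hn0 hn5 h
    have h1 := Nat.le_of_dvd hn0 (hord n h)
    have h2 := P.hp5
    omega
  have hmulp : ∀ n : ℕ, P.p • (n • x.1) = 0 := by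
    intro n
    rw [smul_comm, hpQ, nsmul_zero]
  have hmulfix : ∀ (n : ℕ) (σ : GalQ),
      Affine.Point.map (W' := P.freyCurve) σ.toAlgHom (n • x.1) = n • x.1 := by
    intro n σ
    rw [map_nsmul, hfix σ]
  -- coordinates of fixed points are fixed
  have hXfix : ∀ Q : (FW P).Point, Q ≠ 0 →
      (∀ σ : GalQ, Affine.Point.map (W' := P.freyCurve) σ.toAlgHom Q = Q) →
      ∀ σ : GalQ, σ (D.X Q) = D.X Q := by
    intro Q hQ hQfix σ
    have h := main_map_kumX P.freyCurve σ 0 (_root_.map_zero σ) Q hQ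
    rw [hQfix σ] at h
    rw [hDX]
    exact h.symm
  obtain ⟨hX1, hv1, hv1b, hv1j⟩ := hi x.1 hQ0 hpQ
  have hfix1 := hXfix x.1 hQ0 hfix
  have h2odd : ∀ n : ℤ, ¬ ((2 : ℕ) : ℤ) ∣ n → ν.v (n : Kbar) = 0 := fun n hn =>
    hodd n (by exact_mod_cast hn)
  rcases lt_or_eq_of_le hv1 with hpos | hzero
  · -- case `0 < v (X Q)`
    obtain ⟨j, hj⟩ := hv1j hpos
    obtain ⟨m, hm⟩ := hR ν 2 Nat.prime_two h2odd (D.X x.1) hX1 hfix1
    have hm' : ν.v (D.X x.1) = m * ν.v (2 : Kbar) := by exact_mod_cast hm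
    have e1 : (P.p : ℝ) * m = 2 * ((P.p : ℝ) * k - 4) * j := by
      have h0 : ((P.p : ℝ) * m - 2 * ((P.p : ℝ) * k - 4) * j) * ν.v (2 : Kbar) = 0 := by
        rw [hm', hvDb] at hj
        linarith
      rcases mul_eq_zero.mp h0 with h | h
      · linarith
      · exact absurd h hθ.ne'
    have e2 : (P.p : ℤ) * m = 2 * ((P.p : ℤ) * k - 4) * j := by exact_mod_cast e1
    have hpj : (P.p : ℤ) ∣ j := by
      have h8 : (P.p : ℤ) ∣ 8 * j := ⟨2 * k * j - m, by linarith⟩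
      have hp' : Prime (P.p : ℤ) := Nat.prime_iff_prime_int.mp P.pp
      rcases hp'.dvd_or_dvd h8 with h | h
      · exfalso
        have h8' : P.p ∣ 2 ^ 3 := by exact_mod_cast h
        have h2 := Nat.le_of_dvd (by norm_num) (P.pp.dvd_of_dvd_pow h8')
        have h5 := P.hp5
        omega
      · exact h
    obtain ⟨j', rfl⟩ := hpj
    have e3 : m = 2 * ((P.p : ℤ) * k - 4) * j' := by
      have hp0 : (P.p : ℤ) ≠ 0 := by exact_mod_cast P.hp0
      apply mul_left_cancel₀ hp0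
      rw [e2]
      ring
    have e4 : ν.v (D.X x.1) = 2 * ν.v D.b * j' := by
      rw [hm', hvDb, e3]
      push_cast
      ring
    rcases le_or_gt j' 0 with h | h
    · have h' : (j' : ℝ) ≤ 0 := by exact_mod_cast h
      nlinarith
    · have h' : (1 : ℝ) ≤ j' := by exact_mod_cast h
      nlinarith
  · -- case `v (X Q) = 0`
    have hzero' : ν.v (D.X x.1) = 0 := hzero.symm
    have hQ1Z : x.1 ∈ Z := (hZ x.1).mpr ⟨hpQ, Or.inr hzero'⟩
    have h2ne := hmulne 2 (by norm_num) (by norm_num)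
    have h3ne := hmulne 3 (by norm_num) (by norm_num)
    have hQ2Z : (2 : ℕ) • x.1 ∈ Z := Z.nsmul_mem hQ1Z 2
    have hQ3Z : (3 : ℕ) • x.1 ∈ Z := Z.nsmul_mem hQ1Z 3
    have hv2 : ν.v (D.X ((2 : ℕ) • x.1)) = 0 := ((hZ _).mp hQ2Z).2.resolve_left h2ne
    have hv3 : ν.v (D.X ((3 : ℕ) • x.1)) = 0 := ((hZ _).mp hQ3Z).2.resolve_left h3ne
    obtain ⟨hX2, -, -, -⟩ := hi _ h2ne (hmulp 2)
    obtain ⟨hX3, -, -, -⟩ := hi _ h3ne (hmulp 3)
    have hfix2 := hXfix _ h2ne (hmulfix 2)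
    have e23 : (2 : ℕ) • x.1 + x.1 = (3 : ℕ) • x.1 := (succ_nsmul _ 2).symm
    have e21 : (2 : ℕ) • x.1 - x.1 = x.1 := by rw [two_nsmul, add_sub_cancel_right]
    have hne : D.X ((2 : ℕ) • x.1) ≠ D.X x.1 := by
      intro h
      rcases D.eq_or_eq_neg _ _ h2ne hQ0 h with h' | h'
      · apply hQ0
        rw [← e21, h', sub_self]
      · apply h3ne
        rw [← e23, h', neg_add_cancel]
    have hmul := D.addsub_mul _ _ h2ne hQ0 hne
    rw [e23, e21] at hmul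
    have hsub := lcb_rat_unit_sub ν hθ hint hodd _ _ hfix2 hfix1 hX2 hX1 hv2 hzero' hne
    have hd0 : D.X ((2 : ℕ) • x.1) - D.X x.1 ≠ 0 := sub_ne_zero.mpr hne
    have hprod0 : D.X ((2 : ℕ) • x.1) * D.X x.1 ≠ 0 := mul_ne_zero hX2 hX1
    have hvprod : ν.v (D.X ((2 : ℕ) • x.1) * D.X x.1) = 0 := by
      rw [ν.v_mul hX2 hX1, hv2, hzero', add_zero]
    obtain ⟨hr0, hvr⟩ := AddVal.v_sub_eq_of_gt hprod0
      (Or.inr (by rw [hvprod]; exact hvDbpos) :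
        ν.Gt D.b (ν.v (D.X ((2 : ℕ) • x.1) * D.X x.1)))
    have hval := congrArg ν.v hmul
    rw [ν.v_mul (mul_ne_zero hX3 hX1) (pow_ne_zero 2 hd0), ν.v_mul hX3 hX1, ν.v_sq hd0,
      ν.v_sq hr0, hvr, hvprod, hv3, hzero'] at hval
    linarith

end Fermat.Agent.S13
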