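/-
S13, work package `LocalP` (file B): at a valuation subring of `ℚ̄` over `p`, the inertia subgroup
acts trivially on the quotient of the `p`-torsion of the Frey curve by a Galois-stable line, or
trivially on the line.  Glue on the concrete Frey curve; all the abstract inputs are hypotheses.
-/
import Mathlib
import Fermat.Agent.S13.Defs
import Fermat.Agent.S05.Main

set_option autoImplicit false

namespace Fermat.Agent.S13

open Fermat.Agent.S05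
open WeierstrassCurve WeierstrassCurve.Affine WeierstrassCurve.Affine.Point

/-! ### Small general lemmas -/

/-- The valuation of a finite product of nonzero elements. -/
theorem lpy_v_prod {K : Type*} [Field K] (ν : AddVal K) (S : Finset K) (h : ∀ x ∈ S, x ≠ 0) :
    ν.v (∏ x ∈ S, x) = ∑ x ∈ S, ν.v x := by
  induction S using Finset.cons_induction with
  | empty => simp [ν.v_one]
  | cons a S ha ih =>
    have h1 : a ≠ 0 := h a (Finset.mem_cons_self a S)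
    have h2 : ∀ x ∈ S, x ≠ 0 := fun x hx => h x (Finset.mem_cons_of_mem hx)
    rw [Finset.prod_cons, Finset.sum_cons, ν.v_mul h1 (Finset.prod_ne_zero_iff.mpr h2), ih h2]

/-- A ring endomorphism of a field which maps a finite set into itself fixes the product of its
elements. -/
theorem lpy_prod_fixed {K : Type*} [Field K] [DecidableEq K] (S : Finset K) (σ : K →+* K)
    (h : ∀ x ∈ S, σ x ∈ S) : σ (∏ x ∈ S, x) = ∏ x ∈ S, x := by
  have hinj : Function.Injective σ := σ.injective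
  have himg : S.image σ = S := by
    apply Finset.eq_of_subset_of_card_le
    · intro y hy
      obtain ⟨x, hx, rfl⟩ := Finset.mem_image.mp hy
      exact h x hx
    · rw [Finset.card_image_of_injective S hinj]
  rw [map_prod]
  conv_rhs => rw [← himg]
  rw [Finset.prod_image (fun x _ y _ hxy => hinj hxy)]

/-- A subgroup `≠ ⊥, ⊤` of a group of order `p²` has order `p`. -/
theorem lpy_card_of_ne {V : Type*} [AddCommGroup V] {p : ℕ} (hp : p.Prime)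
    (hV : Nat.card V = p ^ 2) (N : AddSubgroup V) (hbot : N ≠ ⊥) (htop : N ≠ ⊤) :
    Nat.card N = p := by
  have hfin : Finite V := Nat.finite_of_card_ne_zero (by rw [hV]; exact pow_ne_zero 2 hp.ne_zero)
  have hdvd : Nat.card N ∣ p ^ 2 := hV ▸ AddSubgroup.card_addSubgroup_dvd_card N
  obtain ⟨i, hi, hcard⟩ := (Nat.dvd_prime_pow hp).mp hdvd
  interval_cases i
  · exact absurd (AddSubgroup.eq_bot_of_card_eq N (by simpa using hcard)) hbot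
  · simpa using hcard
  · exact absurd (AddSubgroup.eq_top_of_card_eq N (by rw [hcard, hV])) htop

/-- A point killed by an odd number and by `2` is zero. -/
theorem lpy_eq_zero_of_odd {G : Type*} [AddCommGroup G] {p : ℕ} (hp : Odd p) {Q : G}
    (hpQ : p • Q = 0) (h2 : Q + Q = 0) : Q = 0 := by
  obtain ⟨m, hm⟩ := hp
  rw [hm, add_smul, one_smul, mul_comm, mul_smul, two_smul, h2, smul_zero, zero_add] at hpQ
  exact hpQ

/-! ### The Kummer data of the Frey curve at `p` -/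

section frey
variable {K : Type} [Field K] [DecidableEq K] [Algebra ℚ K] [CharZero K]

/-- The local analysis at `p` of the Frey curve: in each of the four cases (`p ∣ a`, `p ∣ b`,
`p ∣ c`, `p ∤ a b c`) there is a rational centre `e` whose Kummer data satisfies `LocPConcl`. -/
theorem lpy_frey_data (hG : LocPGoodStatement) (hM : LocPMultStatement) (hK : KumExtraStatement)
    (W' : Affine ℚ) (a b c : ℤ) (p : ℕ)
    (ha0 : a ≠ 0) (hb0 : b ≠ 0) (hc0 : c ≠ 0)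
    (hp : p.Prime) (hp2 : p ≠ 2)
    (habc : a ^ p + b ^ p = c ^ p)
    (hab : ¬ ((p : ℤ) ∣ a ∧ (p : ℤ) ∣ b))
    (h₁ : W'.a₁ = 1) (h₂ : W'.a₂ = ((b : ℚ) ^ p - 1 - (a : ℚ) ^ p) / 4) (h₃ : W'.a₃ = 0)
    (h₄ : W'.a₄ = -((a : ℚ) ^ p) * ((b : ℚ) ^ p) / 16) (h₆ : W'.a₆ = 0)
    (ν : AddVal K)
    (hint : ∀ n : ℤ, n ≠ 0 → 0 ≤ ν.v (n : K))
    (hunit : ∀ n : ℤ, ¬ (p : ℤ) ∣ n → ν.v (n : K) = 0)
    (hpv : 0 < ν.v (p : K)) :
    ∃ (e : K) (D : KummerData (W'⁄K).Point K), (∀ σ : K ≃ₐ[ℚ] K, σ e = e) ∧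
      D.X = kumX (W'⁄K) e ∧ D.Y = kumY (W'⁄K) ∧ D.b ≠ 0 ∧ D.a ^ 2 - 4 * D.b ≠ 0 ∧
      0 ≤ ν.v D.b ∧ KumSurj D ∧ LocPConcl D ν p := by
  -- basic numerics
  have hp2' : ¬ (p : ℤ) ∣ 2 := by
    intro h
    have h' : p ∣ 2 := Int.natCast_dvd_natCast.mp (by exact_mod_cast h)
    exact hp2 ((Nat.prime_dvd_prime_iff_eq hp Nat.prime_two).mp h')
  have hν2 : ν.v 2 = 0 := by simpa using hunit 2 hp2'
  have h2K : (2 : K) ≠ 0 := two_ne_zero
  have h4K : (4 : K) ≠ 0 := by norm_num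
  have h16K : (16 : K) ≠ 0 := by norm_num
  have hν4 : ν.v 4 = 0 := by
    have : (4 : K) = 2 * 2 := by norm_num
    rw [this, ν.v_mul h2K h2K, hν2]; ring
  have hν16 : ν.v 16 = 0 := by
    have : (16 : K) = 4 * 4 := by norm_num
    rw [this, ν.v_mul h4K h4K, hν4]; ring
  have hpos : ∀ n : ℤ, n ≠ 0 → (p : ℤ) ∣ n → 0 < ν.v (n : K) := by
    intro n hn hqn
    obtain ⟨m, rfl⟩ := hqn
    have hm : m ≠ 0 := right_ne_zero_of_mul hn
    have hqK : (p : K) ≠ 0 := Nat.cast_ne_zero.mpr hp.ne_zero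
    have hmK : (m : K) ≠ 0 := Int.cast_ne_zero.mpr hm
    have : (((p : ℤ) * m : ℤ) : K) = (p : K) * (m : K) := by push_cast; ring
    rw [this, ν.v_mul hqK hmK]
    have := hint m hm
    linarith
  have hodd : Odd p := hp.odd_of_ne_two hp2
  -- the three p-th powers
  have haK : (a : K) ≠ 0 := Int.cast_ne_zero.mpr ha0
  have hbK : (b : K) ≠ 0 := Int.cast_ne_zero.mpr hb0
  have hcK : (c : K) ≠ 0 := Int.cast_ne_zero.mpr hc0
  obtain ⟨A, hA⟩ : ∃ A : K, A = (a : K) ^ p := ⟨_, rfl⟩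
  obtain ⟨B, hB⟩ : ∃ B : K, B = (b : K) ^ p := ⟨_, rfl⟩
  obtain ⟨C, hC⟩ : ∃ C : K, C = (c : K) ^ p := ⟨_, rfl⟩
  have hA0 : A ≠ 0 := by rw [hA]; exact pow_ne_zero _ haK
  have hB0 : B ≠ 0 := by rw [hB]; exact pow_ne_zero _ hbK
  have hC0 : C ≠ 0 := by rw [hC]; exact pow_ne_zero _ hcK
  have hABC : C = A + B := by
    rw [hA, hB, hC]
    exact_mod_cast (congrArg (Int.cast : ℤ → K) habc).symm
  have hvA : ν.v A = p * ν.v (a : K) := by rw [hA]; exact ν.v_pow haK p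
  have hvB : ν.v B = p * ν.v (b : K) := by rw [hB]; exact ν.v_pow hbK p
  have hvC : ν.v C = p * ν.v (c : K) := by rw [hC]; exact ν.v_pow hcK p
  have hσA : ∀ σ : K ≃ₐ[ℚ] K, σ A = A := by
    intro σ
    rw [hA, map_pow, map_intCast]
  have hσ4 : ∀ σ : K ≃ₐ[ℚ] K, σ (4 : K) = 4 := fun σ => map_ofNat σ 4
  have hp0 : (0 : ℝ) < p := by exact_mod_cast hp.pos
  -- the curve
  have hW₁ : (W'⁄K).a₁ = 1 := by
    show algebraMap ℚ K W'.a₁ = 1
    rw [h₁, map_one]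
  have hW₃ : (W'⁄K).a₃ = 0 := by
    show algebraMap ℚ K W'.a₃ = 0
    rw [h₃, _root_.map_zero]
  have hW₆ : (W'⁄K).a₆ = 0 := by
    show algebraMap ℚ K W'.a₆ = 0
    rw [h₆, _root_.map_zero]
  have hW₂ : (W'⁄K).a₂ = (B - 1 - A) / 4 := by
    show algebraMap ℚ K W'.a₂ = (B - 1 - A) / 4
    rw [h₂, hA, hB]
    simp
  have hW₄ : (W'⁄K).a₄ = -A * B / 16 := by
    show algebraMap ℚ K W'.a₄ = -A * B / 16
    rw [h₄, hA, hB]
    simp
  have hAB0 : -A * B ≠ 0 := mul_ne_zero (neg_ne_zero.mpr hA0) hB0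
  have hAC0 : A * C ≠ 0 := mul_ne_zero hA0 hC0
  have heA : (A / 4) ^ 3 + ((W'⁄K).a₂ + 1 / 4) * (A / 4) ^ 2 + (W'⁄K).a₄ * (A / 4) = 0 := by
    rw [hW₂, hW₄]; ring
  have hσe : ∀ σ : K ≃ₐ[ℚ] K, σ (A / 4) = A / 4 := by
    intro σ
    rw [map_div₀, hσA, hσ4]
  -- the Kummer data centred at `0`
  obtain ⟨D₀, hDX₀, hDY₀, hDa₀, hDb₀, hSl₀, hSu₀⟩ := hK K (W'⁄K) hW₁ hW₃ hW₆ 0 (by ring)
  have hDa₀' : D₀.a = (B - A) / 4 := by rw [hDa₀, hW₂]; ring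
  have hDb₀' : D₀.b = -A * B / 16 := by rw [hDb₀, hW₂, hW₄]; ring
  have hdisc₀ : D₀.a ^ 2 - 4 * D₀.b = C ^ 2 / 16 := by rw [hDa₀', hDb₀', hABC]; ring
  have hD₀b0 : D₀.b ≠ 0 := by rw [hDb₀']; exact div_ne_zero hAB0 h16K
  have hD₀disc0 : D₀.a ^ 2 - 4 * D₀.b ≠ 0 := by
    rw [hdisc₀]; exact div_ne_zero (pow_ne_zero 2 hC0) h16K
  have hD₀bv : ν.v D₀.b = ν.v A + ν.v B := by
    rw [hDb₀', ν.v_div hAB0 h16K, ν.v_mul (neg_ne_zero.mpr hA0) hB0, ν.v_neg, hν16]; ring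
  by_cases hqa : (p : ℤ) ∣ a
  · -- multiplicative reduction, `p ∣ a`
    have hqb : ¬ (p : ℤ) ∣ b := fun h => hab ⟨hqa, h⟩
    have hva : 0 < ν.v (a : K) := hpos a ha0 hqa
    have hvb : ν.v (b : K) = 0 := hunit b hqb
    have hvB0 : ν.v B = 0 := by rw [hvB, hvb, mul_zero]
    have hvApos : 0 < ν.v A := by rw [hvA]; exact mul_pos hp0 hva
    obtain ⟨hBA0, hvBA⟩ := AddVal.v_sub_eq_of_gt hB0
      (Or.inr (by rw [hvB0]; exact hvApos) : ν.Gt A (ν.v B))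
    have hDbpos : 0 < ν.v D₀.b := by rw [hD₀bv, hvB0]; linarith
    refine ⟨0, D₀, fun σ => map_zero σ, hDX₀, hDY₀, hD₀b0, hD₀disc0, hDbpos.le,
      hSu₀ hD₀b0 hD₀disc0, ?_⟩
    refine hM _ _ D₀ ν hSl₀ hν2 ?_ ?_ hD₀b0 hDbpos p hodd
    · rw [hDa₀']; exact div_ne_zero hBA0 h4K
    · rw [hDa₀', ν.v_div hBA0 h4K, hvBA, hvB0, hν4]; ring
  by_cases hqb : (p : ℤ) ∣ b
  · -- multiplicative reduction, `p ∣ b`
    have hvb : 0 < ν.v (b : K) := hpos b hb0 hqb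
    have hva : ν.v (a : K) = 0 := hunit a hqa
    have hvA0 : ν.v A = 0 := by rw [hvA, hva, mul_zero]
    have hvBpos : 0 < ν.v B := by rw [hvB]; exact mul_pos hp0 hvb
    obtain ⟨hBA0, hvBA⟩ := AddVal.v_sub_eq_of_gt' hA0
      (Or.inr (by rw [hvA0]; exact hvBpos) : ν.Gt B (ν.v A))
    have hDbpos : 0 < ν.v D₀.b := by rw [hD₀bv, hvA0]; linarith
    refine ⟨0, D₀, fun σ => map_zero σ, hDX₀, hDY₀, hD₀b0, hD₀disc0, hDbpos.le,
      hSu₀ hD₀b0 hD₀disc0, ?_⟩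
    refine hM _ _ D₀ ν hSl₀ hν2 ?_ ?_ hD₀b0 hDbpos p hodd
    · rw [hDa₀']; exact div_ne_zero hBA0 h4K
    · rw [hDa₀', ν.v_div hBA0 h4K, hvBA, hvA0, hν4]; ring
  by_cases hqc : (p : ℤ) ∣ c
  · -- multiplicative reduction, `p ∣ c`
    have hvc : 0 < ν.v (c : K) := hpos c hc0 hqc
    have hva : ν.v (a : K) = 0 := hunit a hqa
    have hvA0 : ν.v A = 0 := by rw [hvA, hva, mul_zero]
    have hvCpos : 0 < ν.v C := by rw [hvC]; exact mul_pos hp0 hvc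
    obtain ⟨D, hDX, hDY, hDa, hDb, hSl, hSu⟩ := hK K (W'⁄K) hW₁ hW₃ hW₆ (A / 4) heA
    have hDa' : D.a = (A + C) / 4 := by rw [hDa, hW₂, hABC]; ring
    have hDb' : D.b = A * C / 16 := by rw [hDb, hW₂, hW₄, hABC]; ring
    have hdisc : D.a ^ 2 - 4 * D.b = B ^ 2 / 16 := by rw [hDa', hDb', hABC]; ring
    have hDb0 : D.b ≠ 0 := by rw [hDb']; exact div_ne_zero hAC0 h16K
    have hDdisc0 : D.a ^ 2 - 4 * D.b ≠ 0 := by
      rw [hdisc]; exact div_ne_zero (pow_ne_zero 2 hB0) h16K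
    obtain ⟨hAC0', hvAC⟩ := AddVal.v_add_eq_of_gt hA0
      (Or.inr (by rw [hvA0]; exact hvCpos) : ν.Gt C (ν.v A))
    have hDbpos : 0 < ν.v D.b := by
      rw [hDb', ν.v_div hAC0 h16K, ν.v_mul hA0 hC0, hvA0, hν16]
      linarith
    refine ⟨A / 4, D, hσe, hDX, hDY, hDb0, hDdisc0, hDbpos.le, hSu hDb0 hDdisc0, ?_⟩
    refine hM _ _ D ν hSl hν2 ?_ ?_ hDb0 hDbpos p hodd
    · rw [hDa']; exact div_ne_zero hAC0' h4K
    · rw [hDa', ν.v_div hAC0' h4K, hvAC, hvA0, hν4]; ring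
  -- good reduction
  have hvA0 : ν.v A = 0 := by rw [hvA, hunit a hqa, mul_zero]
  have hvB0 : ν.v B = 0 := by rw [hvB, hunit b hqb, mul_zero]
  have hvC0 : ν.v C = 0 := by rw [hvC, hunit c hqc, mul_zero]
  have hDbv0 : ν.v D₀.b = 0 := by rw [hD₀bv, hvA0, hvB0]; ring
  refine ⟨0, D₀, fun σ => map_zero σ, hDX₀, hDY₀, hD₀b0, hD₀disc0, hDbv0.ge,
    hSu₀ hD₀b0 hD₀disc0, ?_⟩
  refine hG _ _ D₀ ν hSl₀ hν2 ?_ hD₀b0 hDbv0 hD₀disc0 ?_ p hodd
  · rw [hDa₀']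
    have hBA : ν.Ge (B - A) 0 := AddVal.Ge.sub (Or.inr hvB0.ge) (Or.inr hvA0.ge)
    rcases eq_or_ne (B - A) 0 with h0 | hne
    · left; rw [h0, zero_div]
    · right
      rw [ν.v_div hne h4K, hν4, sub_zero]
      exact hBA.le hne
  · rw [hdisc₀, ν.v_div (pow_ne_zero 2 hC0) h16K, ν.v_sq hC0, hvC0, hν16]; ring

end frey

/-! ### Not every `p`-torsion point has an `X`-coordinate of negative valuation -/

/-- The claim `Z ≠ V`: given a Galois-stable line, some nonzero `p`-torsion point does not have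
an `X`-coordinate of negative valuation. -/
theorem lpy_claim (hAl : AlphaStatement) (hPS : PairSumStatement) (hPr : ProdStatement)
    (hR : RatValStatement) (hC : FreyCardStatement)
    (P : FreyPackage) (ν : AddVal Kbar)
    (hunit : ∀ n : ℤ, ¬ (P.p : ℤ) ∣ n → ν.v (n : Kbar) = 0)
    (hpv : 0 < ν.v (P.p : Kbar))
    (e : Kbar) (hσe : ∀ σ : GalQ, σ e = e)
    (D : KummerData (FW P).Point Kbar) (hDX : D.X = kumX (FW P) e)
    (hDb0 : D.b ≠ 0) (hdisc0 : D.a ^ 2 - 4 * D.b ≠ 0) (hDbv : 0 ≤ ν.v D.b) (hsurj : KumSurj D)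
    (N : Submodule (ZMod P.p) (FV P)) (hN : IsGaloisStable ℚ N) (hNbot : N ≠ ⊥) (hNtop : N ≠ ⊤) :
    ∃ Q : (FW P).Point, Q ≠ 0 ∧ P.p • Q = 0 ∧ ¬ (D.X Q ≠ 0 ∧ ν.v (D.X Q) < 0) := by
  have hcard : Nat.card (FV P) = P.p ^ 2 := hC P
  have hfin : Finite (FV P) :=
    Nat.finite_of_card_ne_zero (by rw [hcard]; exact pow_ne_zero 2 P.pp.ne_zero)
  have hmem : ∀ Q : (FW P).Point,
      Q ∈ Submodule.torsionBy ℤ (FW P).Point P.p ↔ P.p • Q = 0 := by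
    intro Q
    rw [Submodule.mem_torsionBy_iff, natCast_zsmul]
  have hfin_s : {Q : (FW P).Point | Q ≠ 0 ∧ P.p • Q = 0}.Finite := by
    apply Set.Finite.subset (Set.finite_range (Subtype.val : FV P → (FW P).Point))
    rintro Q ⟨-, hQ⟩
    exact ⟨⟨Q, (hmem Q).mpr hQ⟩, rfl⟩
  have hfin_t : {Q : (FW P).Point | Q ≠ 0 ∧
      ∃ h : Q ∈ Submodule.torsionBy ℤ (FW P).Point P.p, (⟨Q, h⟩ : FV P) ∈ N}.Finite := by
    apply hfin_s.subset
    rintro Q ⟨hQ0, h, -⟩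
    exact ⟨hQ0, (hmem Q).mp h⟩
  obtain ⟨s, hs⟩ : ∃ s : Finset (FW P).Point, s = hfin_s.toFinset := ⟨_, rfl⟩
  obtain ⟨t, ht⟩ : ∃ t : Finset (FW P).Point, t = hfin_t.toFinset := ⟨_, rfl⟩
  have hs_mem : ∀ Q : (FW P).Point, Q ∈ s ↔ Q ≠ 0 ∧ P.p • Q = 0 := by
    intro Q
    rw [hs]
    exact Set.Finite.mem_toFinset hfin_s
  have ht_mem : ∀ Q : (FW P).Point, Q ∈ t ↔ Q ≠ 0 ∧
      ∃ h : Q ∈ Submodule.torsionBy ℤ (FW P).Point P.p, (⟨Q, h⟩ : FV P) ∈ N := by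
    intro Q
    rw [ht]
    exact Set.Finite.mem_toFinset hfin_t
  have hprod := hPr (FW P).Point Kbar D hDb0 hdisc0 hsurj P.p P.hp_odd s hs_mem
  have hts : t ⊆ s := by
    intro Q hQ
    obtain ⟨hQ0, h, -⟩ := (ht_mem Q).mp hQ
    exact (hs_mem Q).mpr ⟨hQ0, (hmem Q).mp h⟩
  have htne : t ≠ s := by
    intro hts'
    apply hNtop
    rw [eq_top_iff]
    intro x _
    by_cases hx0 : x = 0
    · rw [hx0]; exact N.zero_mem
    · have hx1 : x.1 ≠ 0 := fun h => hx0 (Subtype.ext h)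
      have hxs : x.1 ∈ s := (hs_mem x.1).mpr ⟨hx1, (hmem x.1).mp x.2⟩
      rw [← hts'] at hxs
      obtain ⟨-, h, hxN⟩ := (ht_mem x.1).mp hxs
      exact hxN
  have htnonempty : t.Nonempty := by
    obtain ⟨x, hxN, hx0⟩ := (Submodule.ne_bot_iff N).mp hNbot
    have hx1 : x.1 ≠ 0 := fun h => hx0 (Subtype.ext h)
    exact ⟨x.1, (ht_mem x.1).mpr ⟨hx1, x.2, hxN⟩⟩
  by_contra hcon
  have hall : ∀ Q : (FW P).Point, Q ∈ s → D.X Q ≠ 0 ∧ ν.v (D.X Q) < 0 := by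
    intro Q hQ
    by_contra hQ'
    exact hcon ⟨Q, ((hs_mem Q).mp hQ).1, ((hs_mem Q).mp hQ).2, hQ'⟩
  refine hAl (FW P).Point Kbar D ν P.p P.hp_odd hpv hDb0 hDbv s hs_mem hprod t hts htne
    htnonempty ?_ hall
  -- the sum of the valuations over `t`
  have hsym : ∀ Q : (FW P).Point, Q ∈ t → Q ≠ 0 ∧ -Q ∈ t ∧ Q + Q ≠ 0 := by
    intro Q hQ
    obtain ⟨hQ0, h, hQN⟩ := (ht_mem Q).mp hQ
    refine ⟨hQ0, (ht_mem _).mpr ⟨neg_ne_zero.mpr hQ0, Submodule.neg_mem _ h, ?_⟩, ?_⟩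
    · exact N.neg_mem hQN
    · intro h2
      exact hQ0 (lpy_eq_zero_of_odd P.hp_odd ((hmem Q).mp h) h2)
  have hXne : ∀ x ∈ t.image D.X, x ≠ 0 := by
    intro x hx
    obtain ⟨Q, hQ, rfl⟩ := Finset.mem_image.mp hx
    exact (hall Q (hts hQ)).1
  have hsum := hPS (FW P).Point Kbar D t hsym ν.v
  have hr0 : ∏ x ∈ t.image D.X, x ≠ 0 := Finset.prod_ne_zero_iff.mpr hXne
  have hfix : ∀ σ : GalQ, σ (∏ x ∈ t.image D.X, x) = ∏ x ∈ t.image D.X, x := by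
    intro σ
    apply lpy_prod_fixed (t.image D.X) (σ : Kbar →+* Kbar)
    intro x hx
    obtain ⟨Q, hQ, rfl⟩ := Finset.mem_image.mp hx
    obtain ⟨hQ0, h, hQN⟩ := (ht_mem Q).mp hQ
    refine Finset.mem_image.mpr ⟨Affine.Point.map (W' := P.freyCurve) σ.toAlgHom Q, ?_, ?_⟩
    · refine (ht_mem _).mpr ⟨fun h0 => hQ0 (main_map_ne_zero P.freyCurve σ Q h0), ?_, ?_⟩
      · exact (σ • (⟨Q, h⟩ : FV P)).2
      · exact hN σ ⟨Q, h⟩ hQN
    · rw [hDX]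
      exact main_map_kumX P.freyCurve σ e (hσe σ) Q hQ0
  obtain ⟨k, hk⟩ := hR ν P.p P.pp hunit _ hr0 hfix
  refine ⟨k, ?_⟩
  rw [hsum, ← lpy_v_prod ν _ hXne, hk]

/-! ### The statement -/

theorem lpy_localP (hG : LocPGoodStatement) (hM : LocPMultStatement) (hAl : AlphaStatement)
    (hPS : PairSumStatement) (hPr : ProdStatement) (hK : KumExtraStatement)
    (hC : FreyCardStatement) (hR : RatValStatement) (hLA : LA1Statement) : LocalPStatement := by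
  intro P A hA N hN hNbot hNtop
  have : Algebra.IsAlgebraic ℚ (AlgebraicClosure ℚ) := AlgebraicClosure.isAlgebraic ℚ
  obtain ⟨ν, hν1, hν2, hν3, hν4⟩ := exists_addVal A P.pp hA
  have hp2 : P.p ≠ 2 := by
    have := P.hp5
    omega
  have hpv : 0 < ν.v (P.p : Kbar) := (hν2 _ (Nat.cast_ne_zero.mpr P.pp.ne_zero)).mpr hA
  have hab : ¬ ((P.p : ℤ) ∣ P.a ∧ (P.p : ℤ) ∣ P.b) := by
    rintro ⟨h1, h2⟩
    have h3 : (P.p : ℤ) ∣ gcd P.a P.b := dvd_gcd h1 h2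
    rw [P.hgcdab] at h3
    have h4 : P.p ∣ 1 := Int.natCast_dvd_natCast.mp (by exact_mod_cast h3)
    exact P.pp.one_lt.ne' (Nat.dvd_one.mp h4)
  have hint : ∀ n : ℤ, n ≠ 0 → 0 ≤ ν.v (n : Kbar) := by
    intro n hn
    exact (hν1 _ (Int.cast_ne_zero.mpr hn)).mpr (intCast_mem A n)
  obtain ⟨e, D, hσe, hDX, hDY, hDb0, hdisc0, hDbv, hsurj, Z, Z', hZZ', hZ, hZ', hinert⟩ :=
    lpy_frey_data (K := Kbar) hG hM hK P.freyCurve P.a P.b P.c P.p P.ha0 P.hb0 P.hc0 P.pp hp2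
      P.hFLT hab rfl (by rfl) rfl (by rfl) rfl ν hint hν3 hpv
  obtain ⟨Q₀, hQ₀0, hQ₀p, hQ₀⟩ := lpy_claim hAl hPS hPr hR hC P ν hν3 hpv e hσe D hDX hDb0
    hdisc0 hDbv hsurj N hN hNbot hNtop
  have hmem : ∀ Q : (FW P).Point,
      Q ∈ Submodule.torsionBy ℤ (FW P).Point P.p ↔ P.p • Q = 0 := by
    intro Q
    rw [Submodule.mem_torsionBy_iff, natCast_zsmul]
  -- the inclusion of the `p`-torsion
  obtain ⟨ι, hι⟩ : ∃ ι : FV P →+ (FW P).Point, ∀ x : FV P, ι x = x.1 :=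
    ⟨(Submodule.torsionBy ℤ (FW P).Point (P.p : ℤ)).subtype.toAddMonoidHom, fun _ => rfl⟩
  have hZne : Z.comap ι ≠ ⊤ := by
    intro htop
    have h1 : (⟨Q₀, (hmem Q₀).mpr hQ₀p⟩ : FV P) ∈ Z.comap ι := by
      rw [htop]; exact AddSubgroup.mem_top _
    rw [AddSubgroup.mem_comap, hι] at h1
    rcases ((hZ Q₀).mp h1).2 with h0 | h
    · exact hQ₀0 h0
    · exact hQ₀ h
  have hcardN : Nat.card N.toAddSubgroup = P.p := by
    refine lpy_card_of_ne P.pp (hC P) N.toAddSubgroup ?_ ?_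
    · intro h
      apply hNbot
      rw [eq_bot_iff]
      intro x hx
      have hx' : x ∈ N.toAddSubgroup := hx
      rw [h] at hx'
      exact hx'
    · intro h
      apply hNtop
      rw [eq_top_iff]
      intro x _
      have hx' : x ∈ N.toAddSubgroup := by rw [h]; exact AddSubgroup.mem_top _
      exact hx'
  have hpair : ∀ σ : GalQ, σ ∈ A.inertiaSubgroupIn ℚ →
      InertPair D ν (σ : Kbar →+* Kbar) (Affine.Point.map (W' := P.freyCurve) σ.toAlgHom) := by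
    intro σ hσ
    obtain ⟨hσv, hσnear⟩ := hν4 σ hσ
    refine ⟨main_map_ne_zero P.freyCurve σ, ?_, ?_, hσv, hσnear⟩
    · intro Q hQ
      rw [hDX]
      exact main_map_kumX P.freyCurve σ e (hσe σ) Q hQ
    · intro Q hQ
      rw [hDY]
      exact main_map_kumY P.freyCurve σ Q hQ
  have hT1 : ∀ φ ∈ {φ : FV P → FV P | ∃ σ : GalQ, σ ∈ A.inertiaSubgroupIn ℚ ∧ φ = fun v => σ • v},
      ∀ x : FV P, φ x - x ∈ Z'.comap ι := by
    rintro φ ⟨σ, hσ, rfl⟩ x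
    rw [AddSubgroup.mem_comap, map_sub, hι, hι]
    exact (hinert _ _ (hpair σ hσ)).1 x.1 ((hmem x.1).mp x.2)
  have hT2 : ∀ φ ∈ {φ : FV P → FV P | ∃ σ : GalQ, σ ∈ A.inertiaSubgroupIn ℚ ∧ φ = fun v => σ • v},
      ∀ x ∈ Z'.comap ι, φ x - x ∈ Z.comap ι := by
    rintro φ ⟨σ, hσ, rfl⟩ x hx
    rw [AddSubgroup.mem_comap, hι] at hx
    rw [AddSubgroup.mem_comap, map_sub, hι, hι]
    exact (hinert _ _ (hpair σ hσ)).2 x.1 hx
  have hT3 : ∀ φ ∈ {φ : FV P → FV P | ∃ σ : GalQ, σ ∈ A.inertiaSubgroupIn ℚ ∧ φ = fun v => σ • v},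
      ∀ x ∈ N.toAddSubgroup, φ x ∈ N.toAddSubgroup := by
    rintro φ ⟨σ, hσ, rfl⟩ x hx
    exact hN σ x hx
  rcases hLA (FV P) P.p P.pp (hC P) N.toAddSubgroup (Z.comap ι) (Z'.comap ι) hcardN
      (AddSubgroup.comap_mono hZZ') hZne _ hT1 hT2 hT3 with h | h
  · left
    intro σ hσ x
    exact h _ ⟨σ, hσ, rfl⟩ x
  · right
    intro σ hσ x hx
    exact h _ ⟨σ, hσ, rfl⟩ x hx

end Fermat.Agent.S13
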