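/-
S13, work package `Mink`: a normal subgroup of `Gal(ℚ̄/ℚ)` which contains the pointwise
stabiliser of a finite set and, for every prime `ℓ`, the inertia subgroup of one valuation
subring over `ℓ`, is the whole group (deduced from `InertiaLiftStatement` and
`MinkFinStatement`).
-/
import Fermat.Agent.S13.Defs

set_option autoImplicit false

namespace Fermat.Agent.S13

/-- `ℚ̄` is an algebraic closure of `ℚ` for the canonical `ℚ`-algebra structure of a division
ring (the one used in `GalQ`). -/
theorem mnk_isAlgClosure : IsAlgClosure ℚ Kbar := by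
  have h : (AlgebraicClosure.instAlgebra ℚ : Algebra ℚ (AlgebraicClosure ℚ)) =
      DivisionRing.toRatAlgebra := Subsingleton.elim _ _
  rw [← h]
  infer_instance

/-- `ℚ̄ / ℚ` is Galois (for the `ℚ`-algebra structure used in `GalQ`). -/
theorem mnk_isGalois : IsGalois ℚ Kbar := by
  have : IsAlgClosure ℚ Kbar := mnk_isAlgClosure
  have : Algebra.IsAlgebraic ℚ Kbar := IsAlgClosure.isAlgebraic
  have : Normal ℚ Kbar := IsAlgClosure.normal ℚ Kbar
  exact ⟨⟩

/-- The subgroup `H` contains the fixing subgroup of the field generated by `S`. -/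
theorem mnk_fixing_le (H : Subgroup GalQ) (S : Finset Kbar)
    (hS : ∀ σ : GalQ, (∀ x ∈ S, σ x = x) → σ ∈ H) :
    (IntermediateField.adjoin ℚ (S : Set Kbar)).fixingSubgroup ≤ H := by
  intro σ hσ
  refine hS σ fun x hx => ?_
  exact (IntermediateField.mem_fixingSubgroup_iff _ σ).mp hσ x
    (IntermediateField.subset_adjoin ℚ (S : Set Kbar) (Finset.mem_coe.mpr hx))

/-- The field generated by a finite subset of `ℚ̄` is finite over `ℚ`. -/
theorem mnk_finite_adjoin (S : Finset Kbar) :
    FiniteDimensional ℚ (IntermediateField.adjoin ℚ (S : Set Kbar)) := by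
  have : IsAlgClosure ℚ Kbar := mnk_isAlgClosure
  have : Algebra.IsAlgebraic ℚ Kbar := IsAlgClosure.isAlgebraic
  exact IntermediateField.finiteDimensional_adjoin
    (fun x _ => Algebra.IsIntegral.isIntegral (R := ℚ) x)

/-- Transport of `IsGalois` to the canonical `ℚ`-algebra structure of a division ring on an
intermediate field. -/
theorem mnk_isGalois_transport (F : IntermediateField ℚ Kbar)
    (h : @IsGalois ℚ _ F _ (IntermediateField.algebra' F)) : IsGalois ℚ F := by
  have e : (IntermediateField.algebra' F : Algebra ℚ F) = DivisionRing.toRatAlgebra :=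
    Subsingleton.elim _ _
  rw [← e]
  exact h

/-- WP `Mink`. -/
theorem mnk_mink (hL : InertiaLiftStatement) (hF : MinkFinStatement) : MinkStatement := by
  intro H hHn hfin hin
  obtain ⟨S, hS⟩ := hfin
  have : IsGalois ℚ Kbar := mnk_isGalois
  -- the finite extension generated by `S`
  have hEfin : FiniteDimensional ℚ (IntermediateField.adjoin ℚ (S : Set Kbar)) :=
    mnk_finite_adjoin S
  have hEH : (IntermediateField.adjoin ℚ (S : Set Kbar)).fixingSubgroup ≤ H :=
    mnk_fixing_le H S hS
  -- `H` is open, hence closed
  have hopen : IsOpen (H : Set GalQ) :=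
    Subgroup.isOpen_mono hEH
      (IntermediateField.fixingSubgroup_isOpen (IntermediateField.adjoin ℚ (S : Set Kbar)))
  have hclosed : IsClosed (H : Set GalQ) := Subgroup.isClosed_of_isOpen H hopen
  -- the fixed field of `H`
  have hfix : (IntermediateField.fixedField H).fixingSubgroup = H :=
    InfiniteGalois.fixingSubgroup_fixedField (⟨H, hclosed⟩ : ClosedSubgroup GalQ)
  have hFE : IntermediateField.fixedField H ≤ IntermediateField.adjoin ℚ (S : Set Kbar) := by
    have h1 := IntermediateField.fixedField_le hEH
    rwa [InfiniteGalois.fixedField_fixingSubgroup] at h1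
  have hFfin : FiniteDimensional ℚ (IntermediateField.fixedField H) := by
    let _ : Algebra (IntermediateField.fixedField H)
        (IntermediateField.adjoin ℚ (S : Set Kbar)) :=
      RingHom.toAlgebra (IntermediateField.inclusion hFE)
    exact FiniteDimensional.left ℚ (IntermediateField.fixedField H)
      (IntermediateField.adjoin ℚ (S : Set Kbar))
  have hFgal : IsGalois ℚ (IntermediateField.fixedField H) := by
    apply mnk_isGalois_transport
    rw [← InfiniteGalois.normal_iff_isGalois, hfix]
    exact hHn
  -- apply the finite Minkowski statement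
  have hbot : IntermediateField.fixedField H = ⊥ := by
    refine hF (IntermediateField.fixedField H) fun ℓ hℓ => ?_
    obtain ⟨A, hA, hAH⟩ := hin ℓ hℓ
    refine ⟨A, hA, fun σ₀ hσ₀ => ?_⟩
    obtain ⟨σ, hσ, hσx⟩ := hL A ℓ hℓ hA (IntermediateField.fixedField H) σ₀ hσ₀
    have hσH : σ ∈ H := hAH hσ
    ext x
    rw [← hσx x]
    exact (IntermediateField.mem_fixedField_iff H (x : Kbar)).mp x.2 σ hσH
  rw [← hfix, hbot, IntermediateField.fixingSubgroup_bot]

end Fermat.Agent.S13
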