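/-
S13, work package `MinkFin` (variant B): Hermite–Minkowski for a finite Galois extension of `ℚ`
inside `ℚ̄` with trivial inertia at one prime above every rational prime.
-/
import Fermat.Agent.S13.Defs

set_option autoImplicit false

namespace Fermat.Agent.S13

open scoped NumberField

/-- Integral elements lie in every valuation subring. -/
theorem mfb_mem_of_isIntegral_int {L : Type*} [Field L] (A : ValuationSubring L) {x : L}
    (hx : IsIntegral ℤ x) : x ∈ A := by
  have h1 : IsIntegral A x := hx.tower_top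
  obtain ⟨y, rfl⟩ := IsIntegrallyClosed.isIntegral_iff.mp h1
  exact y.2

/-- WP `MinkFin`. -/
theorem mfb_minkFin : MinkFinStatement := by
  intro F hfd hgal hF
  by_contra hne
  -- `F` is a number field (for the canonical `ℚ`-algebra structure of a field)
  have e : (IntermediateField.module' F : Module ℚ F) = DivisionRing.toRatAlgebra.toModule :=
    Subsingleton.elim _ _
  have hfd' : @FiniteDimensional ℚ F _ _ (DivisionRing.toRatAlgebra.toModule) := e ▸ hfd
  have : NumberField F := { to_finiteDimensional := hfd' }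
  have h1 : 1 < Module.finrank ℚ F := by
    have h0 : 0 < Module.finrank ℚ F := Module.finrank_pos
    have h2 : Module.finrank ℚ F ≠ 1 := by
      intro h2
      apply hne
      rw [← IntermediateField.finrank_eq_one_iff, ← h2]
    omega
  obtain ⟨p, hp, hram⟩ :=
    NumberField.exists_not_isUnramifiedAt_int_of_isGalois (K := F) (𝒪 := 𝓞 F) h1
  obtain ⟨A, hA, hσ⟩ := hF p hp
  -- the prime of `𝓞 F` cut out by `A`
  have hint : ∀ x : 𝓞 F, ((x : F) : Kbar) ∈ A := fun x =>
    mfb_mem_of_isIntegral_int A
      ((NumberField.RingOfIntegers.isIntegral_coe x).map (algebraMap F Kbar).toIntAlgHom)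
  let ι : 𝓞 F →+* A :=
    ((algebraMap F Kbar).comp (algebraMap (𝓞 F) F)).codRestrict A.toSubring hint
  let P : Ideal (𝓞 F) := (IsLocalRing.maximalIdeal A).comap ι
  have hPmem : ∀ s : 𝓞 F, s ∈ P ↔ ((s : F) : Kbar) ∈ A.nonunits := by
    intro s
    show ι s ∈ IsLocalRing.maximalIdeal A ↔ _
    rw [← ValuationSubring.coe_mem_nonunits_iff]
    rfl
  have hPprime : P.IsPrime := Ideal.comap_isPrime ι _
  have hpP : (p : 𝓞 F) ∈ P := by
    rw [hPmem]
    have hA' : (p : Kbar) ∈ A.nonunits := hA
    simpa using hA'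
  refine hram P hPprime hpP ?_
  -- unramified as soon as the inertia group is trivial
  rw [← Ideal.ramificationIdx_eq_one_iff,
    ← Ideal.ramificationIdxIn_eq_ramificationIdx (P.under ℤ) P Gal(F/ℚ),
    ← Ideal.card_inertia_eq_ramificationIdxIn (G := Gal(F/ℚ)) (P.under ℤ) P]
  -- the inertia group is trivial
  rw [Subgroup.card_eq_one, Subgroup.eq_bot_iff_forall]
  intro σ₀ hσ₀
  apply hσ σ₀
  intro x hx
  let y : 𝓞 F := ⟨x, hx⟩
  have hy : (y : F) = x := rfl
  have h3 : σ₀ • y - y ∈ P := hσ₀ y
  rw [hPmem] at h3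
  have h5 : (((σ₀ • y - y : 𝓞 F) : F) : Kbar) = ((σ₀ x : F) : Kbar) - (x : Kbar) := by
    rw [← hy]
    rfl
  rw [h5] at h3
  exact h3

end Fermat.Agent.S13
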