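/-
S13, work package `Prod`: for odd `p`, the product of the `X`-coordinates of the nonzero
`p`-torsion points of `Y² = X (X² + a X + b)` satisfies `p² · ∏ X(Q) = b ^ ((p² - 1) / 2)`.

Proof: take division polynomial data `(f, g)`.  For odd `n` the polynomial `g n` is a square `h²`
(induction with the identity `g (n+1) g (n-1) = (f n - X g n)²`), and its constant term is
`b ^ ((n² - 1) / 2)` (induction with the two identities evaluated at `0`).  The `X`-coordinates of
the `p² - 1` nonzero `p`-torsion points form a set `T` of `(p² - 1) / 2 = deg h` roots of `h`, so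
`h = lc(h) ∏_{x ∈ T} (X - x)`; evaluating `g p = h²` at `0` gives the claim.
-/
import Fermat.Agent.S13.Defs

set_option autoImplicit false

namespace Fermat.Agent.S13

open Fermat.Agent.S05 Polynomial

/-- `g n ≠ 0` for `n ≥ 1` (characteristic zero). -/
theorem prd_g_ne_zero {K : Type} [Field K] [CharZero K] {a b : K} {f g : ℕ → K[X]}
    (hD : DivData a b f g) (n : ℕ) (hn : n ≠ 0) : g n ≠ 0 := by
  intro h0
  have h1 := hD.g_leadingCoeff n
  rw [h0, leadingCoeff_zero] at h1
  have h2 : (n : K) ≠ 0 := Nat.cast_ne_zero.mpr hn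
  exact pow_ne_zero 2 h2 h1.symm

/-- For odd `n`, the polynomial `g n` is a square. -/
theorem prd_g_sq {K : Type} [Field K] [CharZero K] {a b : K} {f g : ℕ → K[X]}
    (hD : DivData a b f g) : ∀ m : ℕ, ∃ h : K[X], g (2 * m + 1) = h ^ 2 := by
  intro m
  induction m with
  | zero => exact ⟨1, by simp [hD.g_one]⟩
  | succ m ih =>
    obtain ⟨h, hh⟩ := ih
    have hg0 : g (2 * m + 1) ≠ 0 := prd_g_ne_zero hD (2 * m + 1) (by omega)
    have hh0 : h ≠ 0 := by
      rintro rfl
      apply hg0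
      rw [hh]
      simp
    have hC := hD.idC (2 * m + 2) (by omega)
    have e1 : 2 * m + 2 - 1 = 2 * m + 1 := by omega
    have e2 : 2 * (m + 1) + 1 = 2 * m + 2 + 1 := by ring
    rw [e1, hh] at hC
    have hdvd : h ^ 2 ∣ (f (2 * m + 2) - X * g (2 * m + 2)) ^ 2 := Dvd.intro_left _ hC
    rw [IsIntegrallyClosed.pow_dvd_pow_iff two_ne_zero] at hdvd
    obtain ⟨w, hw⟩ := hdvd
    refine ⟨w, ?_⟩
    rw [e2]
    have h3 : g (2 * m + 2 + 1) * h ^ 2 = w ^ 2 * h ^ 2 := by
      rw [hC, hw]
      ring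
    exact mul_right_cancel₀ (pow_ne_zero 2 hh0) h3

/-- Constant terms of `f (2 m)` and `g (2 m + 1)`. -/
theorem prd_const {K : Type} [Field K] {a b : K} {f g : ℕ → K[X]}
    (hD : DivData a b f g) (hb : b ≠ 0) : ∀ m : ℕ,
    (f (2 * m)).eval 0 = b ^ (2 * m ^ 2) ∧
      (g (2 * m + 1)).eval 0 = b ^ (2 * m ^ 2 + 2 * m) := by
  intro m
  induction m with
  | zero => simp [hD.f_zero, hD.g_one]
  | succ m ih =>
    obtain ⟨ih1, ih2⟩ := ih
    have hA := congrArg (eval 0) (hD.idA (2 * m + 1) (by omega))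
    have hC := congrArg (eval 0) (hD.idC (2 * m + 2) (by omega))
    have e1 : 2 * m + 1 + 1 = 2 * (m + 1) := by ring
    have e2 : 2 * m + 1 - 1 = 2 * m := by omega
    have e3 : 2 * m + 2 + 1 = 2 * (m + 1) + 1 := by ring
    have e4 : 2 * m + 2 - 1 = 2 * m + 1 := by omega
    have e5 : 2 * m + 2 = 2 * (m + 1) := by ring
    simp only [eval_mul, eval_pow, eval_sub, eval_X, eval_C, zero_mul, zero_sub, sub_zero]
      at hA hC
    rw [e1, e2, ih1, ih2] at hA
    have h1 : eval 0 (f (2 * (m + 1))) = b ^ (2 * (m + 1) ^ 2) := by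
      apply mul_right_cancel₀ (pow_ne_zero (2 * m ^ 2) hb)
      rw [hA]
      ring
    rw [e3, e4, e5, ih2, h1] at hC
    refine ⟨h1, ?_⟩
    apply mul_right_cancel₀ (pow_ne_zero (2 * m ^ 2 + 2 * m) hb)
    rw [hC]
    ring

/-- WP `Prod`. -/
theorem prd_prod (hE : DivExistsStatement) (hS : SpecStatement) (hC : CountStatement) :
    ProdStatement := by
  intro G K _ _ _ _ D hb hdisc hsurj p hp s hs
  classical
  obtain ⟨f, g, hD⟩ := hE K D.a D.b hb hdisc
  obtain ⟨m, rfl⟩ := hp
  obtain ⟨h, hh⟩ := prd_g_sq hD m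
  have hconst := (prd_const hD hb m).2
  have hh0 : h ≠ 0 := by
    rintro rfl
    apply prd_g_ne_zero hD (2 * m + 1) (by omega)
    rw [hh]
    simp
  -- the number of nonzero torsion points
  have hcard : s.card + 1 = (2 * m + 1) ^ 2 := by
    have h1 := hC G K D hb hdisc hsurj (2 * m + 1) (by omega)
    have h2 : Nat.card {P : G // (2 * m + 1) • P = 0} = (insert 0 s).card := by
      apply Nat.subtype_card
      intro x
      rw [Finset.mem_insert, hs]
      constructor
      · rintro (rfl | ⟨_, hx⟩)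
        · simp
        · exact hx
      · intro hx
        by_cases hx0 : x = 0
        · exact Or.inl hx0
        · exact Or.inr ⟨hx0, hx⟩
    rw [h2, Finset.card_insert_of_notMem (by rw [hs]; simp)] at h1
    exact h1
  -- the fibres of `X` on `s`
  have hneg : ∀ Q ∈ s, -Q ∈ s := by
    intro Q hQ
    rw [hs] at hQ ⊢
    exact ⟨neg_ne_zero.mpr hQ.1, by rw [smul_neg, hQ.2, neg_zero]⟩
  have hne : ∀ Q ∈ s, Q ≠ -Q := by
    intro Q hQ hQQ
    rw [hs] at hQ
    apply hQ.1
    have h2 : Q + Q = 0 := by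
      nth_rewrite 2 [hQQ]
      exact add_neg_cancel Q
    have h3 : (2 * m + 1) • Q = m • (Q + Q) + Q := by
      rw [add_smul, mul_comm, mul_smul, one_smul, two_smul]
    rw [← hQ.2, h3, h2, smul_zero, zero_add]
  have hfib : ∀ Q ∈ s, s.filter (fun j => D.X j = D.X Q) = {Q, -Q} := by
    intro Q hQ
    ext j
    simp only [Finset.mem_filter, Finset.mem_insert, Finset.mem_singleton]
    constructor
    · rintro ⟨hj, hX⟩
      exact D.eq_or_eq_neg j Q ((hs j).1 hj).1 ((hs Q).1 hQ).1 hX
    · rintro (rfl | rfl)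
      · exact ⟨hQ, rfl⟩
      · exact ⟨hneg Q hQ, D.X_neg Q⟩
  have hcardT : s.card = 2 * (s.image D.X).card := by
    have h1 := Finset.card_eq_sum_card_image D.X s
    have h2 : ∀ x ∈ s.image D.X, (s.filter (fun j => D.X j = x)).card = 2 := by
      intro x hx
      obtain ⟨Q, hQ, rfl⟩ := Finset.mem_image.1 hx
      rw [hfib Q hQ, Finset.card_pair (hne Q hQ)]
    rw [Finset.sum_congr rfl h2, Finset.sum_const, smul_eq_mul, mul_comm] at h1
    exact h1
  have hprod : ∏ x ∈ s.image D.X, x ^ 2 = ∏ Q ∈ s, D.X Q := by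
    apply Finset.prod_image'
    intro Q hQ
    rw [hfib Q hQ, Finset.prod_pair (hne Q hQ), D.X_neg, sq]
  -- the polynomial `h`
  have hdeg : 2 * h.natDegree = (2 * m + 1) ^ 2 - 1 := by
    have h1 := hD.g_natDegree (2 * m + 1)
    rw [hh, natDegree_pow] at h1
    exact h1
  have hdegT : h.natDegree = (s.image D.X).card := by
    generalize (2 * m + 1) ^ 2 = N at hcard hdeg
    omega
  have hroots : h.roots = (s.image D.X).val := by
    symm
    apply Multiset.eq_of_le_of_card_le
    · rw [Finset.val_le_iff_val_subset]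
      intro x hx
      rw [Finset.mem_val] at hx
      obtain ⟨Q, hQ, rfl⟩ := Finset.mem_image.1 hx
      rw [mem_roots hh0, IsRoot.def]
      have hQ' := (hs Q).1 hQ
      have h1 := ((hS G K D f g hD Q hQ'.1 (2 * m + 1)).1).1 hQ'.2
      rw [hh, eval_pow] at h1
      exact pow_eq_zero_iff two_ne_zero |>.1 h1
    · calc Multiset.card h.roots ≤ h.natDegree := card_roots' h
        _ = (s.image D.X).card := hdegT
        _ = Multiset.card (s.image D.X).val := rfl
  have hfac := C_leadingCoeff_mul_prod_multiset_X_sub_C (p := h)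
    (by rw [hroots]; exact hdegT.symm)
  rw [hroots] at hfac
  have heval : h.eval 0 = h.leadingCoeff * ∏ x ∈ s.image D.X, (-x) := by
    conv_lhs => rw [← hfac]
    rw [eval_mul, eval_C]
    congr 1
    change eval 0 (∏ x ∈ s.image D.X, (X - C x)) = _
    rw [eval_prod]
    apply Finset.prod_congr rfl
    intro x _
    simp
  have hlc : h.leadingCoeff ^ 2 = ((2 * m + 1 : ℕ) : K) ^ 2 := by
    rw [← leadingCoeff_pow, ← hh, hD.g_leadingCoeff]
  have e : ((2 * m + 1) ^ 2 - 1) / 2 = 2 * m ^ 2 + 2 * m := by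
    have e1 : (2 * m + 1) ^ 2 - 1 = 2 * (2 * m ^ 2 + 2 * m) := by
      have e2 : (2 * m + 1) ^ 2 = 2 * (2 * m ^ 2 + 2 * m) + 1 := by ring
      omega
    rw [e1, Nat.mul_div_cancel_left _ (by norm_num)]
  rw [e, ← hconst, hh, eval_pow, heval, ← hprod, ← hlc, mul_pow]
  congr 1
  rw [← Finset.prod_pow]
  apply Finset.prod_congr rfl
  intro x _
  ring

end Fermat.Agent.S13
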