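/-
S13, work package `Spec`: specialisation of the division polynomial data at a point.

Given Kummer data `D` (curve `Y² = X (X² + a X + b)`) and division polynomial data `f`, `g` for
`(D.a, D.b)`, for every point `P ≠ 0` and every `n`:
`n • P = 0 ↔ (g n)(X P) = 0`, and if `n • P ≠ 0` then `X (n • P) * (g n)(X P) = (f n)(X P)`.

The proof is an induction `S (n - 1) ∧ S n ⇒ S (n + 1)`; the inductive step is isolated in
`spc_step`, which only involves the three evaluated identities.
-/
import Fermat.Agent.S13.Defs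

set_option autoImplicit false

namespace Fermat.Agent.S13

open Fermat.Agent.S05 Polynomial

/-- The inductive step, in abstract form: `Q` plays the role of `n • P`, and
`(Fm, Gm)`, `(F0, G0)`, `(Fp, Gp)` those of the values at `X P` of `(f, g)` at `n - 1`, `n`,
`n + 1`. -/
theorem spc_step {G K : Type} [AddCommGroup G] [Field K] [CharZero K] (D : KummerData G K)
    (P Q : G) (hP : P ≠ 0) (Fm Gm F0 G0 Fp Gp : K)
    (hA : Fp * Fm = (D.X P * F0 - D.b * G0) ^ 2)
    (hC : Gp * Gm = (F0 - D.X P * G0) ^ 2)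
    (hB : Fp * Gm + Fm * Gp =
      2 * (F0 + D.X P * G0) * (D.X P * F0 + D.b * G0) + 4 * D.a * D.X P * F0 * G0)
    (hm0 : Gm = 0 → Fm ≠ 0) (h00 : G0 = 0 → F0 ≠ 0)
    (hSm : (Q - P = 0 ↔ Gm = 0) ∧ (Q - P ≠ 0 → D.X (Q - P) * Gm = Fm))
    (hS0 : (Q = 0 ↔ G0 = 0) ∧ (Q ≠ 0 → D.X Q * G0 = F0)) :
    (Q + P = 0 ↔ Gp = 0) ∧ (Q + P ≠ 0 → D.X (Q + P) * Gp = Fp) := by
  by_cases hQ : Q = 0
  · -- Case 1: `Q = 0`.
    subst hQ
    have hG0 : G0 = 0 := hS0.1.mp rfl
    have hF0 : F0 ≠ 0 := h00 hG0
    subst hG0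
    have hmP : (0 : G) - P ≠ 0 := by
      rw [zero_sub]
      exact neg_ne_zero.mpr hP
    have hGm : Gm ≠ 0 := fun h => hmP (hSm.1.mpr h)
    have hFm : D.X P * Gm = Fm := by
      have h := hSm.2 hmP
      rwa [zero_sub, D.X_neg] at h
    have hGp : Gp ≠ 0 := by
      intro h
      rw [h, zero_mul, mul_zero, sub_zero] at hC
      exact hF0 ((pow_eq_zero_iff two_ne_zero).mp hC.symm)
    rw [zero_add]
    refine ⟨⟨fun h => absurd h hP, fun h => absurd h hGp⟩, fun _ => ?_⟩
    have h1 : (D.X P * Gp - Fp) * Gm ^ 2 = 0 := by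
      subst hFm
      linear_combination 2 * D.X P * Gm * hC - Gm * hB
    have h2 : D.X P * Gp - Fp = 0 :=
      (mul_eq_zero.mp h1).resolve_right (pow_ne_zero 2 hGm)
    exact sub_eq_zero.mp h2
  · have hG0 : G0 ≠ 0 := fun h => hQ (hS0.1.mpr h)
    have hF0 : D.X Q * G0 = F0 := hS0.2 hQ
    by_cases hX : D.X Q = D.X P
    · -- Case 2: `Q = P` or `Q = -P`.
      rw [hX] at hF0
      subst hF0
      by_cases hQP : Q = P
      · -- Case 2a: `Q = P`.
        subst hQP
        have hGm : Gm = 0 := hSm.1.mp (sub_self Q)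
        have hFm : Fm ≠ 0 := hm0 hGm
        subst hGm
        have hy := D.eqn Q hP
        have hB' : Fm * Gp = 4 * G0 ^ 2 * D.Y Q ^ 2 := by
          linear_combination hB - 4 * G0 ^ 2 * hy
        have h4 : (4 : K) ≠ 0 := by norm_num
        refine ⟨⟨fun h => ?_, fun h => ?_⟩, fun h => ?_⟩
        · have hy0 : D.Y Q = 0 := (D.two_torsion Q hP).mp h
          rw [hy0] at hB'
          have h1 : Fm * Gp = 0 := by
            rw [hB']
            ring
          exact (mul_eq_zero.mp h1).resolve_left hFm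
        · rw [h, mul_zero] at hB'
          have h1 : D.Y Q ^ 2 = 0 := by
            have h2 := mul_eq_zero.mp hB'.symm
            exact h2.resolve_left (mul_ne_zero h4 (pow_ne_zero 2 hG0))
          exact (D.two_torsion Q hP).mpr ((pow_eq_zero_iff (two_ne_zero)).mp h1)
        · have hdbl := D.dbl Q hP h
          have h1 : Fm * (D.X (Q + Q) * Gp - Fp) = 0 := by
            linear_combination D.X (Q + Q) * hB' - hA + G0 ^ 2 * hdbl
          exact sub_eq_zero.mp ((mul_eq_zero.mp h1).resolve_left hFm)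
      · -- Case 2b: `Q = -P`, `Q ≠ P`.
        have hQP' : Q = -P := (D.eq_or_eq_neg Q P hQ hP hX).resolve_left hQP
        have hsum : Q + P = 0 := by
          rw [hQP', neg_add_cancel]
        have hGm : Gm ≠ 0 := fun h => hQP (sub_eq_zero.mp (hSm.1.mpr h))
        have hGp : Gp = 0 := by
          rw [sub_self] at hC
          have h1 : Gp * Gm = 0 := by
            rw [hC]
            ring
          exact (mul_eq_zero.mp h1).resolve_right hGm
        exact ⟨⟨fun _ => hGp, fun _ => hsum⟩, fun h => absurd hsum h⟩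
    · -- Case 3: `X Q ≠ X P`.
      subst hF0
      have hQP : Q - P ≠ 0 := by
        intro h
        apply hX
        rw [sub_eq_zero.mp h]
      have hQP' : Q + P ≠ 0 := by
        intro h
        apply hX
        rw [eq_neg_of_add_eq_zero_left h, D.X_neg]
      have hc : (D.X Q * G0 - D.X P * G0) ^ 2 ≠ 0 := by
        have h1 : D.X Q * G0 - D.X P * G0 = (D.X Q - D.X P) * G0 := by ring
        rw [h1]
        exact pow_ne_zero 2 (mul_ne_zero (sub_ne_zero.mpr hX) hG0)
      rw [← hC] at hc
      have hGp : Gp ≠ 0 := left_ne_zero_of_mul hc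
      have hGm : Gm ≠ 0 := right_ne_zero_of_mul hc
      have hFm : D.X (Q - P) * Gm = Fm := hSm.2 hQP
      have hadd := D.addsub_add Q P hQ hP hX
      refine ⟨⟨fun h => absurd h hQP', fun h => absurd h hGp⟩, fun _ => ?_⟩
      have h1 : Gm * (D.X (Q + P) * Gp - Fp) = 0 := by
        subst hFm
        linear_combination (D.X (Q + P) + D.X (Q - P)) * hC - hB + G0 ^ 2 * hadd
      exact sub_eq_zero.mp ((mul_eq_zero.mp h1).resolve_left hGm)

/-- WP `Spec`. -/
theorem spc_spec : SpecStatement := by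
  intro G K _ _ _ D f g hD P hP
  -- `f m` and `g m` have no common zero
  have hcop : ∀ m : ℕ, (g m).eval (D.X P) = 0 → (f m).eval (D.X P) ≠ 0 := by
    intro m hg hf
    obtain ⟨u, v, huv⟩ := hD.coprime m
    have h := congrArg (Polynomial.eval (D.X P)) huv
    rw [eval_add, eval_mul, eval_mul, hg, hf, mul_zero, mul_zero, add_zero, eval_one] at h
    exact zero_ne_one h
  have key : ∀ n : ℕ,
      ((n • P = 0 ↔ (g n).eval (D.X P) = 0) ∧
        (n • P ≠ 0 → D.X (n • P) * (g n).eval (D.X P) = (f n).eval (D.X P))) ∧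
      (((n + 1) • P = 0 ↔ (g (n + 1)).eval (D.X P) = 0) ∧
        ((n + 1) • P ≠ 0 →
          D.X ((n + 1) • P) * (g (n + 1)).eval (D.X P) = (f (n + 1)).eval (D.X P))) := by
    intro n
    induction n with
    | zero =>
      refine ⟨⟨?_, ?_⟩, ⟨?_, ?_⟩⟩
      · rw [hD.g_zero, eval_zero, zero_nsmul]
        exact ⟨fun _ => rfl, fun _ => rfl⟩
      · intro h
        exact absurd (zero_nsmul P) h
      · rw [zero_add, hD.g_one, eval_one, one_nsmul]
        exact ⟨fun h => absurd h hP, fun h => absurd h one_ne_zero⟩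
      · intro _
        rw [zero_add, hD.g_one, hD.f_one, eval_one, eval_X, one_nsmul, mul_one]
    | succ n ih =>
      refine ⟨ih.2, ?_⟩
      have hn : 1 ≤ n + 1 := Nat.succ_le_succ (Nat.zero_le n)
      have hA := congrArg (Polynomial.eval (D.X P)) (hD.idA (n + 1) hn)
      have hC := congrArg (Polynomial.eval (D.X P)) (hD.idC (n + 1) hn)
      have hB := congrArg (Polynomial.eval (D.X P)) (hD.idB (n + 1) hn)
      simp only [Nat.add_sub_cancel, eval_mul, eval_pow, eval_sub, eval_add, eval_X, eval_C,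
        eval_ofNat] at hA hB hC
      have hsub : (n + 1) • P - P = n • P := by
        rw [succ_nsmul, add_sub_cancel_right]
      have hSm : ((n + 1) • P - P = 0 ↔ (g n).eval (D.X P) = 0) ∧
          ((n + 1) • P - P ≠ 0 →
            D.X ((n + 1) • P - P) * (g n).eval (D.X P) = (f n).eval (D.X P)) := by
        rw [hsub]
        exact ih.1
      have hstep := spc_step D P ((n + 1) • P) hP _ _ _ _ _ _ hA hC hB (hcop n) (hcop (n + 1))
        hSm ih.2
      rwa [← succ_nsmul] at hstep
  exact fun n => (key n).1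

end Fermat.Agent.S13
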