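/-
S13, work package `Tors2`: the valuation of the `X`-coordinate of a torsion point of odd order at
a prime of multiplicative reduction, in every residue characteristic, and the closure under
addition of the set of points with `tropW = 0`.

This is a port of `Fermat/Agent/S05/Tropical.lean` (`torsion_val_mult`): the tropical addition and
duplication laws are taken from the hypothesis `Trop2Statement` (instead of the theorems
`trop_step` and `trop_dbl` of `S05/TropStep.lean`, which need `v 2 = 0`), and the induction on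
the multiples `k • P` is the same.
-/
import Mathlib
import Fermat.Agent.S13.Defs
import Fermat.Agent.S05.Tropical

set_option autoImplicit false

namespace Fermat.Agent.S13

open Fermat.Agent.S05

/-! ### The induction on multiples -/

/-- One step of the induction: from the values of `tropW` at `k • P` and `(k + 1) • P` to the
value at `(k + 2) • P`, given the tropical addition law (`hstepAll`) and the tropical duplication
law (`hdblAll`). -/
theorem tr2_nsmul_step {G K : Type} [AddCommGroup G] [Field K] (D : KummerData G K)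
    (ν : AddVal K) (hb : 0 < ν.v D.b)
    (hstepAll : ∀ P Q : G, P ≠ 0 → Q ≠ 0 → D.X Q ≠ D.X P → 0 < tropW D ν P →
      (tropW D ν (Q + P) = |tropW D ν Q - tropW D ν P| ∧
          tropW D ν (Q - P) = foldSum (ν.v D.b) (tropW D ν Q) (tropW D ν P)) ∨
        (tropW D ν (Q + P) = foldSum (ν.v D.b) (tropW D ν Q) (tropW D ν P) ∧
          tropW D ν (Q - P) = |tropW D ν Q - tropW D ν P|))
    (hdblAll : ∀ P : G, P ≠ 0 → 0 < tropW D ν P →
      tropW D ν (P + P) = foldSum (ν.v D.b) (tropW D ν P) (tropW D ν P))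
    {P : G} (hP : P ≠ 0) (hc : 0 < tropW D ν P) (k : ℕ)
    (h1 : tropW D ν (k • P) = tropFold (ν.v D.b) (k * tropW D ν P))
    (h2 : tropW D ν ((k + 1) • P) = tropFold (ν.v D.b) ((k + 1 : ℕ) * tropW D ν P)) :
    tropW D ν ((k + 2) • P) = tropFold (ν.v D.b) ((k + 2 : ℕ) * tropW D ν P) := by
  have hdbl : tropW D ν (P + P) = foldSum (ν.v D.b) (tropW D ν P) (tropW D ν P) :=
    hdblAll P hP hc
  have hstepP : ∀ Q : G, Q ≠ 0 → D.X Q ≠ D.X P →
      (tropW D ν (Q + P) = |tropW D ν Q - tropW D ν P| ∧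
          tropW D ν (Q - P) = foldSum (ν.v D.b) (tropW D ν Q) (tropW D ν P)) ∨
        (tropW D ν (Q + P) = foldSum (ν.v D.b) (tropW D ν Q) (tropW D ν P) ∧
          tropW D ν (Q - P) = |tropW D ν Q - tropW D ν P|) :=
    fun Q hQ hne => hstepAll P Q hP hQ hne hc
  clear hstepAll hdblAll
  set h := ν.v D.b with hh
  set c := tropW D ν P with hcdef
  have hch : c ≤ h := tropW_le D ν hb P
  have e2 : (k + 2) • P = (k + 1) • P + P := succ_nsmul P (k + 1)
  have e0 : (k + 1) • P - P = k • P := by rw [succ_nsmul]; abel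
  have cast1 : ((k + 1 : ℕ) : ℝ) * c = k * c + c := by push_cast; ring
  have cast2 : ((k + 2 : ℕ) : ℝ) * c = k * c + c + c := by push_cast; ring
  rw [cast1] at h2
  rw [cast2, e2]
  by_cases hQ0 : (k + 1) • P = 0
  · -- `(k+1) P = 0`
    rw [hQ0, tropW_zero] at h2
    obtain ⟨n, hn⟩ := tropFold_eq_zero hb h2.symm
    rw [hQ0, zero_add, hn, add_comm, tropFold_add_int hb, tropFold_of_mem hb hc.le hch]
  by_cases hX : D.X ((k + 1) • P) = D.X P
  · rcases D.eq_or_eq_neg _ _ hQ0 hP hX with hQP | hQP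
    · -- `(k+1) P = P`, so `k P = 0`
      have hk0 : k • P = 0 := by rw [← e0, hQP, sub_self]
      rw [hk0, tropW_zero] at h1
      obtain ⟨n, hn⟩ := tropFold_eq_zero hb h1.symm
      rw [hQP, hdbl, hn]
      have : 2 * h * (n : ℝ) + c + c = (c + c) + 2 * h * n := by ring
      rw [this, tropFold_add_int hb, tropFold_add_eq_foldSum hb hc.le hch hc.le hch]
    · -- `(k+1) P = -P`, so `(k+2) P = 0`
      rw [hQP, neg_add_cancel, tropW_zero]
      rw [hQP, tropW_neg] at h2
      obtain ⟨n, hn | hn⟩ := tropFold_exists hb (k * c + c)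
      · -- `c = k c + c - 2 h n`, so `k c = 2 h n`
        have hkc : (k : ℝ) * c = 2 * h * n := by linarith
        rw [hkc, tropFold_int hb] at h1
        have hk : k • P = -(P + P) := by rw [← e0, hQP]; abel
        rw [hk, tropW_neg, hdbl] at h1
        have hc2 : c = h := by
          unfold foldSum at h1
          split_ifs at h1 with hle
          · linarith
          · linarith
        have : (k : ℝ) * c + c + c = 2 * h * ((n + 1 : ℤ) : ℝ) := by
          push_cast; rw [hkc, hc2]; ring
        rw [this, tropFold_int hb]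
      · have : (k : ℝ) * c + c + c = 2 * h * (n : ℝ) := by linarith
        rw [this, tropFold_int hb]
  · -- generic case
    have hstep := hstepP ((k + 1) • P) hQ0 hX
    rw [e0, h1] at hstep
    rw [h2] at hstep
    have hpair := tropFold_pair hb hc.le hch (k * c + c)
    have es : (k : ℝ) * c + c - c = k * c := by ring
    rw [es] at hpair
    rcases hpair with ⟨hp1, hp2⟩ | ⟨hp1, hp2⟩
    · rcases hstep with ⟨hs1, hs2⟩ | ⟨hs1, hs2⟩
      · rw [hs1, hp1, hs2, hp2]
      · rw [hs1, hp2]
    · rcases hstep with ⟨hs1, hs2⟩ | ⟨hs1, hs2⟩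
      · rw [hs1, hp1]
      · rw [hs1, hp2, hs2, hp1]

/-- The value of `tropW` at the multiples of a point `P` with `0 < tropW P`: it is the distance
from `k * tropW P` to the nearest multiple of `2 * v b`. -/
theorem tr2_nsmul {G K : Type} [AddCommGroup G] [Field K] (D : KummerData G K)
    (ν : AddVal K) (hb : 0 < ν.v D.b)
    (hstepAll : ∀ P Q : G, P ≠ 0 → Q ≠ 0 → D.X Q ≠ D.X P → 0 < tropW D ν P →
      (tropW D ν (Q + P) = |tropW D ν Q - tropW D ν P| ∧
          tropW D ν (Q - P) = foldSum (ν.v D.b) (tropW D ν Q) (tropW D ν P)) ∨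
        (tropW D ν (Q + P) = foldSum (ν.v D.b) (tropW D ν Q) (tropW D ν P) ∧
          tropW D ν (Q - P) = |tropW D ν Q - tropW D ν P|))
    (hdblAll : ∀ P : G, P ≠ 0 → 0 < tropW D ν P →
      tropW D ν (P + P) = foldSum (ν.v D.b) (tropW D ν P) (tropW D ν P))
    {P : G} (hP : P ≠ 0) (hc : 0 < tropW D ν P) (k : ℕ) :
    tropW D ν (k • P) = tropFold (ν.v D.b) (k * tropW D ν P) ∧
      tropW D ν ((k + 1) • P) = tropFold (ν.v D.b) ((k + 1 : ℕ) * tropW D ν P) := by
  induction k with
  | zero =>
    constructor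
    · simp only [zero_smul, Nat.cast_zero, zero_mul]
      rw [tropW_zero, tropFold_of_mem hb le_rfl hb.le]
    · simp only [zero_add, one_smul, Nat.cast_one, one_mul]
      rw [tropFold_of_mem hb hc.le (tropW_le D ν hb P)]
  | succ k ih =>
    exact ⟨ih.2, tr2_nsmul_step D ν hb hstepAll hdblAll hP hc k ih.1 ih.2⟩

/-- The valuation of the `X`-coordinate of a nonzero point of odd order `p`, deduced from the
tropical addition and duplication laws. -/
theorem tr2_torsion_val {G K : Type} [AddCommGroup G] [Field K] (D : KummerData G K)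
    (ν : AddVal K) (hb : 0 < ν.v D.b)
    (hstepAll : ∀ P Q : G, P ≠ 0 → Q ≠ 0 → D.X Q ≠ D.X P → 0 < tropW D ν P →
      (tropW D ν (Q + P) = |tropW D ν Q - tropW D ν P| ∧
          tropW D ν (Q - P) = foldSum (ν.v D.b) (tropW D ν Q) (tropW D ν P)) ∨
        (tropW D ν (Q + P) = foldSum (ν.v D.b) (tropW D ν Q) (tropW D ν P) ∧
          tropW D ν (Q - P) = |tropW D ν Q - tropW D ν P|))
    (hdblAll : ∀ P : G, P ≠ 0 → 0 < tropW D ν P →
      tropW D ν (P + P) = foldSum (ν.v D.b) (tropW D ν P) (tropW D ν P))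
    {p : ℕ} (hp : Odd p) {P : G} (hP : P ≠ 0) (hpP : p • P = 0) :
    D.X P ≠ 0 ∧ ν.v (D.X P) < ν.v D.b ∧
      (0 < ν.v (D.X P) → ∃ j : ℤ, (p : ℝ) * ν.v (D.X P) = 2 * ν.v D.b * j) := by
  rcases (tropW_nonneg D ν hb P).eq_or_lt with hc0 | hc
  · -- `tropW P = 0`
    have hX : D.X P ≠ 0 := by
      intro hX
      rw [tropW_of_X_eq_zero D ν hP hX] at hc0
      linarith
    rw [tropW_of_X_ne_zero D ν hP hX] at hc0
    have hmin : min (ν.v (D.X P)) (ν.v D.b) ≤ 0 := by
      have := le_max_right 0 (min (ν.v (D.X P)) (ν.v D.b))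
      linarith
    have hv : ν.v (D.X P) ≤ 0 := by
      rcases min_le_iff.mp hmin with h | h
      · exact h
      · linarith
    exact ⟨hX, by linarith, fun h => absurd h (by linarith)⟩
  · -- `tropW P > 0`
    have hS := (tr2_nsmul D ν hb hstepAll hdblAll hP hc p).1
    rw [hpP, tropW_zero] at hS
    obtain ⟨n, hn⟩ := tropFold_eq_zero hb hS.symm
    have hodd : ∀ m : ℤ, (p : ℝ) ≠ 2 * m := by
      intro m hm
      have h1 : (p : ℤ) = 2 * m := by exact_mod_cast hm
      obtain ⟨t, ht⟩ := hp
      omega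
    have hnotZh : tropW D ν P ≠ ν.v D.b := by
      intro heq
      rw [heq] at hn
      apply hodd n
      have hb' : ν.v D.b ≠ 0 := hb.ne'
      field_simp at hn
      linarith
    have hX : D.X P ≠ 0 := by
      intro hX
      exact hnotZh (tropW_of_X_eq_zero D ν hP hX)
    have hW := tropW_of_X_ne_zero D ν hP hX
    have hlt : ν.v (D.X P) < ν.v D.b := by
      by_contra hge
      push Not at hge
      apply hnotZh
      rw [hW, min_eq_right hge, max_eq_right hb.le]
    refine ⟨hX, hlt, fun hpos => ⟨n, ?_⟩⟩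
    have hWv : tropW D ν P = ν.v (D.X P) := by
      rw [hW, min_eq_left hlt.le, max_eq_right hpos.le]
    rw [hWv] at hn
    exact hn

/-! ### The points with `tropW = 0` are closed under addition -/

/-- If `tropW P = 0` and `tropW Q = 0` then `tropW (P + Q) = 0`, by the tropical addition law
applied to `P + Q` and `Q`. -/
theorem tr2_add_zero {G K : Type} [AddCommGroup G] [Field K] (D : KummerData G K)
    (ν : AddVal K) (hb : 0 < ν.v D.b)
    (hstepAll : ∀ P Q : G, P ≠ 0 → Q ≠ 0 → D.X Q ≠ D.X P → 0 < tropW D ν P →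
      (tropW D ν (Q + P) = |tropW D ν Q - tropW D ν P| ∧
          tropW D ν (Q - P) = foldSum (ν.v D.b) (tropW D ν Q) (tropW D ν P)) ∨
        (tropW D ν (Q + P) = foldSum (ν.v D.b) (tropW D ν Q) (tropW D ν P) ∧
          tropW D ν (Q - P) = |tropW D ν Q - tropW D ν P|))
    {P Q : G} (hP : tropW D ν P = 0) (hQ : tropW D ν Q = 0) : tropW D ν (P + Q) = 0 := by
  by_cases hQ0 : Q = 0
  · rw [hQ0, add_zero]
    exact hP
  rcases (tropW_nonneg D ν hb (P + Q)).eq_or_lt with hw0 | hw
  · exact hw0.symm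
  exfalso
  -- `S = P + Q` has `0 < tropW S`
  have hS0 : P + Q ≠ 0 := by
    intro h0
    rw [h0, tropW_zero] at hw
    exact lt_irrefl _ hw
  have hwh : tropW D ν (P + Q) ≤ ν.v D.b := tropW_le D ν hb (P + Q)
  by_cases hX : D.X Q = D.X (P + Q)
  · -- `Q = ± S`, so `tropW Q = tropW S > 0`
    rcases D.eq_or_eq_neg Q (P + Q) hQ0 hS0 hX with hQS | hQS
    · have h1 : tropW D ν Q = tropW D ν (P + Q) := congrArg (tropW D ν) hQS
      linarith
    · have h1 : tropW D ν Q = tropW D ν (-(P + Q)) := congrArg (tropW D ν) hQS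
      rw [tropW_neg] at h1
      linarith
  · -- the addition law for `S` and `Q`: `Q - S = -P`
    have hstep := hstepAll (P + Q) Q hS0 hQ0 hX hw
    have e : Q - (P + Q) = -P := by abel
    rw [e, tropW_neg, hP, hQ] at hstep
    rcases hstep with ⟨_, hs2⟩ | ⟨_, hs2⟩
    · unfold foldSum at hs2
      split_ifs at hs2 with hle
      · linarith
      · linarith
    · rw [zero_sub, abs_neg, abs_of_pos hw] at hs2
      linarith

/-! ### The main theorem -/

/-- WP `Tors2`: `Tors2Statement` follows from `Trop2Statement`. -/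
theorem tr2_tors2 (h : Trop2Statement) : Tors2Statement := by
  intro G K _ _ _ D ν hν2 ha0 ha hb0 hb
  obtain ⟨hstep, hdbl⟩ := h G K D ν hν2 ha0 ha hb0 hb
  exact ⟨fun p hp P hP hpP => tr2_torsion_val D ν hb hstep hdbl hp hP hpP,
    fun P Q hP hQ => tr2_add_zero D ν hb hstep hP hQ⟩

end Fermat.Agent.S13
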