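/-
S13, work package `Count`: there are exactly `n²` points killed by `n` on the Kummer data of
`Y² = X (X² + a X + b)` over an algebraically closed field of characteristic `0`.

Proof: with division polynomial data `(f, g)` (so `X (n • P) = f n (X P) / g n (X P)`), choose `c`
such that `F := f n - c * g n` (monic of degree `n²`) has only simple roots and such that the points
`± Q₀` with `X Q₀ = c` are distinct.  Then `P ↦ X P` is a bijection from `{P | n • P = Q₀}` onto the
set of roots of `F`, so this fibre has `n²` elements; it is a translate of the kernel of `n`.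
-/
import Mathlib
import Fermat.Agent.S13.Defs

set_option autoImplicit false

namespace Fermat.Agent.S13

open Fermat.Agent.S05 Polynomial

/-- The "Wronskian" `f' g - f g'` of two coprime polynomials, `f` non-constant, is nonzero in
characteristic `0`. -/
theorem ctb_wronskian_ne_zero {K : Type} [Field K] [CharZero K] (f g : K[X])
    (hco : IsCoprime f g) (hdeg : f.natDegree ≠ 0) :
    derivative f * g - f * derivative g ≠ 0 := by
  intro hW
  have h1 : f ∣ derivative f * g := ⟨derivative g, by linear_combination hW⟩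
  have h2 : f ∣ derivative f := hco.dvd_of_dvd_mul_right h1
  have h3 : derivative f ≠ 0 := derivative_ne_zero.mpr hdeg
  have h4 := natDegree_le_of_dvd h2 h3
  have h5 := natDegree_derivative_lt hdeg
  omega

/-- The cubic `X (X² + a X + b)` is a nonzero polynomial. -/
theorem ctb_cubic_ne_zero {K : Type} [Field K] (a b : K) :
    (X * (X ^ 2 + C a * X + C b) : K[X]) ≠ 0 := by
  intro h
  have h3 := congrArg (fun p : K[X] => p.coeff 3) h
  simp [mul_add, coeff_X_pow, ← mul_assoc, ← pow_succ'] at h3

/-- `f - c g` is monic when `f` is monic and `deg g < deg f`. -/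
theorem ctb_monic {K : Type} [Field K] (f g : K[X]) (hf : f.Monic)
    (hdeg : g.natDegree < f.natDegree) (c : K) : (f - C c * g).Monic :=
  hf.sub_of_left (degree_lt_degree (lt_of_le_of_lt (natDegree_C_mul_le c g) hdeg))

/-- `f - c g` has the same degree as `f` when `deg g < deg f`. -/
theorem ctb_natDegree {K : Type} [Field K] (f g : K[X])
    (hdeg : g.natDegree < f.natDegree) (c : K) : (f - C c * g).natDegree = f.natDegree :=
  natDegree_sub_eq_left_of_natDegree_lt (lt_of_le_of_lt (natDegree_C_mul_le c g) hdeg)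

/-- For coprime `f`, `g` with `f` monic and `deg g < deg f`, there is a `c` outside the zero set of
the cubic `X (X² + a X + b)` such that `f - c g` has only simple roots. -/
theorem ctb_exists_good {K : Type} [Field K] [CharZero K] (f g : K[X])
    (hco : IsCoprime f g) (hf : f.Monic) (hdeg : g.natDegree < f.natDegree) (a b : K) :
    ∃ c : K, c * (c ^ 2 + a * c + b) ≠ 0 ∧ (f - C c * g).roots.Nodup := by
  classical
  have hW0 : derivative f * g - f * derivative g ≠ 0 :=
    ctb_wronskian_ne_zero f g hco (by omega)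
  have hq0 := ctb_cubic_ne_zero a b
  obtain ⟨c, hc⟩ := Infinite.exists_notMem_finset
    ((derivative f * g - f * derivative g).roots.toFinset.image
        (fun x => f.eval x / g.eval x) ∪
      (X * (X ^ 2 + C a * X + C b) : K[X]).roots.toFinset)
  rw [Finset.mem_union, not_or] at hc
  obtain ⟨hc1, hc2⟩ := hc
  refine ⟨c, ?_, ?_⟩
  · intro h0
    apply hc2
    rw [Multiset.mem_toFinset, mem_roots hq0]
    simpa [IsRoot] using h0
  · have hF0 : f - C c * g ≠ 0 := (ctb_monic f g hf hdeg c).ne_zero
    rw [Multiset.nodup_iff_count_le_one]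
    intro x
    rw [count_roots]
    by_contra hcon
    rw [not_le] at hcon
    obtain ⟨hr, hr'⟩ := (one_lt_rootMultiplicity_iff_isRoot hF0).mp hcon
    have e1 : f.eval x = c * g.eval x := by
      have h := hr
      simp only [IsRoot, eval_sub, eval_mul, eval_C] at h
      linear_combination h
    have e2 : (derivative f).eval x = c * (derivative g).eval x := by
      have h := hr'
      simp only [IsRoot, derivative_sub, derivative_C_mul, eval_sub, eval_mul, eval_C] at h
      linear_combination h
    have hg : g.eval x ≠ 0 := by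
      intro hg0
      obtain ⟨u, v, huv⟩ := hco
      have h := congrArg (eval x) huv
      simp [eval_add, eval_mul, e1, hg0] at h
    apply hc1
    rw [Finset.mem_image]
    refine ⟨x, ?_, ?_⟩
    · rw [Multiset.mem_toFinset, mem_roots hW0]
      simp only [IsRoot, eval_sub, eval_mul, e1, e2]
      ring
    · rw [e1]
      field_simp

/-- WP `Count`. -/
theorem ctb_count (hE : DivExistsStatement) (hS : SpecStatement) : CountStatement := by
  intro G K _ _ _ _ D hb hdisc hsurj n hn
  classical
  obtain ⟨f, g, hfg⟩ := hE K D.a D.b hb hdisc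
  have hn2 : 0 < n ^ 2 := by positivity
  have hfm : (f n).Monic := hfg.f_monic n
  have hfd : (f n).natDegree = n ^ 2 := hfg.f_natDegree n
  have hgd : (g n).natDegree = n ^ 2 - 1 := hfg.g_natDegree n
  have hco : IsCoprime (f n) (g n) := hfg.coprime n
  have hlt : (g n).natDegree < (f n).natDegree := by omega
  obtain ⟨c, hc, hnodup⟩ := ctb_exists_good (f n) (g n) hco hfm hlt D.a D.b
  have hF0 : f n - C c * g n ≠ 0 := (ctb_monic (f n) (g n) hfm hlt c).ne_zero
  have hFd : (f n - C c * g n).natDegree = n ^ 2 := by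
    rw [ctb_natDegree (f n) (g n) hlt c, hfd]
  have hFcard : (f n - C c * g n).roots.toFinset.card = n ^ 2 := by
    rw [Multiset.toFinset_card_of_nodup hnodup,
      ← (IsAlgClosed.splits (f n - C c * g n)).natDegree_eq_card_roots, hFd]
  -- evaluation of `F`
  have hFeval : ∀ x : K, x ∈ (f n - C c * g n).roots.toFinset ↔
      (f n).eval x = c * (g n).eval x := by
    intro x
    rw [Multiset.mem_toFinset, mem_roots hF0]
    simp only [IsRoot, eval_sub, eval_mul, eval_C]
    exact sub_eq_zero
  -- the point `Q₀` with `X Q₀ = c`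
  obtain ⟨y₀, hy₀⟩ := IsAlgClosed.exists_pow_nat_eq (c * (c ^ 2 + D.a * c + D.b))
    (n := 2) (by norm_num)
  obtain ⟨Q₀, hQ₀, hXQ₀, hYQ₀⟩ := hsurj c y₀ hy₀
  have hy₀0 : y₀ ≠ 0 := by
    intro h
    apply hc
    rw [← hy₀, h]
    ring
  have hQ₀neg : Q₀ ≠ -Q₀ := by
    intro h
    have h2 : Q₀ + Q₀ = 0 := by
      nth_rewrite 1 [h]
      exact neg_add_cancel Q₀
    have h3 := (D.two_torsion Q₀ hQ₀).mp h2
    exact hy₀0 (hYQ₀ ▸ h3)
  have hnQ₀0 : -Q₀ ≠ 0 := neg_ne_zero.mpr hQ₀
  -- key equivalence
  have key : ∀ P : G, P ≠ 0 →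
      ((f n).eval (D.X P) = c * (g n).eval (D.X P) ↔ n • P = Q₀ ∨ n • P = -Q₀) := by
    intro P hP
    obtain ⟨h1, h2⟩ := hS G K D f g hfg P hP n
    constructor
    · intro hev
      have hnP : n • P ≠ 0 := by
        intro h0
        have hg0 := h1.mp h0
        obtain ⟨u, v, huv⟩ := hco
        have h := congrArg (eval (D.X P)) huv
        simp [eval_add, eval_mul, hev, hg0] at h
      have hg0 : (g n).eval (D.X P) ≠ 0 := fun h => hnP (h1.mpr h)
      have hX : D.X (n • P) = D.X Q₀ := by
        rw [hXQ₀]
        have h := h2 hnP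
        rw [hev] at h
        exact mul_right_cancel₀ hg0 h
      exact D.eq_or_eq_neg (n • P) Q₀ hnP hQ₀ hX
    · intro h
      have hnP : n • P ≠ 0 := by
        rcases h with h | h <;> rw [h] <;> assumption
      have hX : D.X (n • P) = c := by
        rcases h with h | h
        · rw [h, hXQ₀]
        · rw [h, D.X_neg, hXQ₀]
      rw [← h2 hnP, hX]
  -- the fibre over `Q₀` has `n²` elements
  have hne0 : ∀ P : G, n • P = Q₀ → P ≠ 0 := by
    intro P h h0
    rw [h0, smul_zero] at h
    exact hQ₀ h.symm
  have hmem : ∀ P : G, n • P = Q₀ → D.X P ∈ (f n - C c * g n).roots.toFinset := by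
    intro P h
    rw [hFeval]
    exact (key P (hne0 P h)).mpr (Or.inl h)
  have hcard : Nat.card {P : G // n • P = Q₀} = n ^ 2 := by
    rw [← hFcard, ← Nat.card_eq_finsetCard]
    refine Nat.card_eq_of_bijective
      (fun P : {P : G // n • P = Q₀} =>
        (⟨D.X P.1, hmem P.1 P.2⟩ : {x : K // x ∈ (f n - C c * g n).roots.toFinset})) ⟨?_, ?_⟩
    · rintro ⟨P, hP⟩ ⟨P', hP'⟩ h
      have hX : D.X P = D.X P' := congrArg Subtype.val h
      rcases D.eq_or_eq_neg P P' (hne0 P hP) (hne0 P' hP') hX with h | h
      · exact Subtype.ext h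
      · exfalso
        apply hQ₀neg
        rw [h, smul_neg, hP'] at hP
        exact hP.symm
    · rintro ⟨x, hx⟩
      obtain ⟨y, hy⟩ := IsAlgClosed.exists_pow_nat_eq (x * (x ^ 2 + D.a * x + D.b))
        (n := 2) (by norm_num)
      obtain ⟨P, hP, hXP, -⟩ := hsurj x y hy
      have hx' := (hFeval x).mp hx
      rw [← hXP] at hx'
      rcases (key P hP).mp hx' with h | h
      · exact ⟨⟨P, h⟩, Subtype.ext hXP⟩
      · refine ⟨⟨-P, by rw [smul_neg, h, neg_neg]⟩, Subtype.ext ?_⟩
        show D.X (-P) = x
        rw [D.X_neg, hXP]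
  -- translate
  have hne : Nonempty {P : G // n • P = Q₀} := by
    have hpos : 0 < Nat.card {P : G // n • P = Q₀} := by rw [hcard]; exact hn2
    exact (Nat.card_pos_iff.mp hpos).1
  obtain ⟨⟨P₁, hP₁⟩⟩ := hne
  rw [← hcard]
  refine Nat.card_congr (Equiv.subtypeEquiv (Equiv.addLeft P₁) ?_)
  intro P
  rw [Equiv.coe_addLeft, smul_add, hP₁]
  constructor
  · intro h
    rw [h, add_zero]
  · intro h
    exact add_eq_left.mp h

end Fermat.Agent.S13
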