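/-
S13, work package `InertiaLift` (file B): every element of the inertia group of a finite Galois
subextension `F/ℚ` of `ℚ̄` (at the prime cut out by a valuation subring `A` of `ℚ̄` lying over a
prime `ℓ`) is the restriction of an element of the inertia subgroup of `A`.

Proof: extend `σ₀` to `ℚ̄`; correct it by an element of `Gal(ℚ̄/F)` so that it stabilises the
prime `Q` of the ring of all algebraic integers cut out by `A` (transitivity of the profinite
group `Gal(ℚ̄/F)` on the primes above a prime of the ring of integers of `F`); correct it again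
by an element of `Gal(ℚ̄/F)` so that it acts trivially on the residue ring of `Q` (surjectivity of
the decomposition group onto the automorphism group of the residue extension); finally pass
from algebraic integers to the valuation subring `A`.
-/
import Mathlib
import Fermat.Agent.S13.Defs
import Fermat.Agent.Lib.FrobeniusExists

set_option autoImplicit false

namespace Fermat.Agent.S13

open scoped Pointwise
open Fermat.Agent.Lib.FrobeniusExists

section General

variable {L : Type*} [Field L] [Algebra ℚ L]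

/-- Step 4: an automorphism moving every algebraic integer by a non-unit of `A` lies in the
inertia subgroup of `A`. -/
theorem ilb_mem_inertia [IsAlgClosure ℚ L] {ℓ : ℕ} (hℓ : ℓ.Prime) (A : ValuationSubring L)
    (hA : (ℓ : L) ∈ A.nonunits) (σ : L ≃ₐ[ℚ] L)
    (hσ : ∀ s : L, IsIntegral ℤ s → σ s - s ∈ A.nonunits) : σ ∈ A.inertiaSubgroupIn ℚ := by
  have : Algebra.IsAlgebraic ℚ L := IsAlgClosure.isAlgebraic
  have : CharZero L := algebraRat.charZero L
  have hσ1 : ∀ s : L, IsIntegral ℤ s → (σ s ∈ A.nonunits ↔ s ∈ A.nonunits) := by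
    intro s hs
    constructor
    · intro h
      have h2 : s = σ s - (σ s - s) := by ring
      rw [h2]
      exact A.nonunits.sub_mem h (hσ s hs)
    · intro h
      have h2 : σ s = (σ s - s) + s := by ring
      rw [h2]
      exact A.nonunits.add_mem (hσ s hs) h
  have hσsymm : ∀ s : L, IsIntegral ℤ s → (σ.symm s ∈ A.nonunits ↔ s ∈ A.nonunits) := by
    intro s hs
    have h := hσ1 (σ.symm s) (map_isIntegral_int σ.symm hs)
    rw [AlgEquiv.apply_symm_apply] at h
    exact h.symm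
  have hmem : σ ∈ A.decompositionSubgroup ℚ := by
    rw [MulAction.mem_stabilizer_iff]
    refine SetLike.ext fun x => ?_
    rw [ValuationSubring.mem_pointwise_smul_iff_inv_smul_mem]
    constructor
    · intro h
      have h2 := map_mem_of_forall_integral hℓ A hA σ hσ1 h
      have h3 : σ (σ⁻¹ • x) = x := AlgEquiv.apply_symm_apply σ x
      rwa [h3] at h2
    · intro h
      exact map_mem_of_forall_integral hℓ A hA σ.symm hσsymm h
  have hcongr : ∀ x : L, x ∈ A → σ x - x ∈ A.nonunits := by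
    intro x hx
    have hxalg : IsAlgebraic ℤ x :=
      (IsFractionRing.isAlgebraic_iff ℤ ℚ L).mpr (Algebra.IsAlgebraic.isAlgebraic x)
    obtain ⟨a, s, ha, hs, hsA, hxs⟩ :=
      Fermat.Agent.Lib.IntegralFraction.exists_integral_fraction A hℓ hA hx hxalg
    have hv : ∀ t : L, IsIntegral ℤ t → A.valuation t ≤ 1 := fun t ht =>
      (A.valuation_le_one_iff _).mpr (mem_of_isIntegral_int A ht)
    have hs1 : A.valuation s = 1 :=
      le_antisymm (hv s hs) (not_lt.mp fun h => hsA (A.mem_nonunits_iff.mpr h))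
    have hσs1 : A.valuation (σ s) = 1 :=
      le_antisymm (hv _ (map_isIntegral_int σ hs))
        (not_lt.mp fun h => hsA ((hσ1 s hs).mp (A.mem_nonunits_iff.mpr h)))
    have hid : (σ x - x) * (σ s * s) = (σ a - a) * s - a * (σ s - s) := by
      have h1 : σ x * σ s = σ a := by rw [← map_mul, hxs]
      linear_combination s * h1 - (σ s) * hxs
    rw [A.mem_nonunits_iff]
    have h3 : A.valuation ((σ x - x) * (σ s * s)) < 1 := by
      rw [hid]
      apply Valuation.map_sub_lt
      · rw [map_mul, hs1, mul_one]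
        exact A.mem_nonunits_iff.mp (hσ a ha)
      · rw [map_mul]
        have h4 : A.valuation a ≤ 1 := hv _ ha
        have h5 : A.valuation (σ s - s) < 1 := A.mem_nonunits_iff.mp (hσ s hs)
        exact mul_lt_one_of_nonneg_of_lt_one_right h4 zero_le h5
    rwa [map_mul, map_mul, hs1, hσs1, mul_one, mul_one] at h3
  refine ⟨⟨σ, hmem⟩, ?_, rfl⟩
  show (⟨σ, hmem⟩ : A.decompositionSubgroup ℚ) ∈ A.inertiaSubgroup ℚ
  rw [ValuationSubring.inertiaSubgroup, MonoidHom.mem_ker]
  refine RingEquiv.ext fun x => ?_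
  obtain ⟨a, rfl⟩ := IsLocalRing.residue_surjective x
  show (⟨σ, hmem⟩ : A.decompositionSubgroup ℚ) • IsLocalRing.residue A a = IsLocalRing.residue A a
  rw [← IsLocalRing.ResidueField.residue_smul]
  refine Ideal.Quotient.eq.mpr ?_
  rw [← ValuationSubring.coe_mem_nonunits_iff]
  exact hcongr a a.2

/-- Steps 1-3: an element `σ₀` of the Galois group of a finite Galois subextension `F/ℚ` which
moves every algebraic integer of `F` by a non-unit of `A` extends to an automorphism `σ` of the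
algebraic closure which moves every algebraic integer by a non-unit of `A`. -/
theorem ilb_exists_lift [IsAlgClosure ℚ L] (A : ValuationSubring L)
    (F : IntermediateField ℚ L) [FiniteDimensional ℚ F] [IsGalois ℚ F] (σ₀ : F ≃ₐ[ℚ] F)
    (h₀ : ∀ x : F, IsIntegral ℤ x → ((σ₀ x : F) : L) - (x : L) ∈ A.nonunits) :
    ∃ σ : L ≃ₐ[ℚ] L, (∀ s : L, IsIntegral ℤ s → σ s - s ∈ A.nonunits) ∧
      ∀ x : F, σ (x : L) = ((σ₀ x : F) : L) := by
  classical
  have : IsAlgClosed L := IsAlgClosure.isAlgClosed ℚ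
  have : Algebra.IsAlgebraic ℚ L := IsAlgClosure.isAlgebraic
  let act : MulSemiringAction (L ≃ₐ[ℚ] L) (integralClosure ℤ L) := integralClosureAction
  let : TopologicalSpace (integralClosure ℤ L) := ⊥
  have : DiscreteTopology (integralClosure ℤ L) := ⟨rfl⟩
  have hcont : ContinuousSMul (L ≃ₐ[ℚ] L) (integralClosure ℤ L) := by
    rw [continuousSMul_iff_stabilizer_isOpen]
    intro x
    have h := stabilizer_isOpen_of_isIntegral (K := ℚ) (x : L)
    convert h using 1
    ext g
    simp only [SetLike.mem_coe, MulAction.mem_stabilizer_iff]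
    exact ⟨fun h => congrArg Subtype.val h, fun h => Subtype.ext h⟩
  let H : Subgroup (L ≃ₐ[ℚ] L) := F.fixingSubgroup
  have hHmem : ∀ g : H, ∀ x : F, (g : L ≃ₐ[ℚ] L) (x : L) = (x : L) := by
    intro g x
    exact (mem_fixingSubgroup_iff (L ≃ₐ[ℚ] L)).mp g.2 (x : L) x.2
  have j3 : CompactSpace H := isCompact_iff_compactSpace.mp (F.fixingSubgroup_isClosed).isCompact
  let A' := FixedPoints.subalgebra ℤ (integralClosure ℤ L) H
  have j7 : Algebra.IsInvariant A' (integralClosure ℤ L) H := ⟨fun b hb => ⟨⟨b, hb⟩, rfl⟩⟩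
  -- the prime of the ring of integers cut out by `A`
  let ι : integralClosure ℤ L →+* A :=
    (algebraMap (integralClosure ℤ L) L).codRestrict A (fun s => mem_of_isIntegral_int A s.2)
  let Q : Ideal (integralClosure ℤ L) := (IsLocalRing.maximalIdeal A).comap ι
  have hQmem : ∀ s : integralClosure ℤ L, s ∈ Q ↔ (s : L) ∈ A.nonunits := by
    intro s
    show ι s ∈ IsLocalRing.maximalIdeal A ↔ _
    rw [← ValuationSubring.coe_mem_nonunits_iff]
    rfl
  have hQprime : Q.IsPrime := Ideal.comap_isPrime ι _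
  -- the elements of `A'` are the algebraic integers of `F`
  have hA' : ∀ a : A', ∃ x : F, IsIntegral ℤ x ∧ (x : L) = ((a : integralClosure ℤ L) : L) := by
    intro a
    have h1 : ((a : integralClosure ℤ L) : L) ∈ IntermediateField.fixedField H := by
      rw [IntermediateField.mem_fixedField_iff]
      intro f hf
      exact congrArg Subtype.val (a.2 ⟨f, hf⟩)
    rw [InfiniteGalois.fixedField_fixingSubgroup] at h1
    refine ⟨⟨_, h1⟩, ?_, rfl⟩
    have h2 : IsIntegral ℤ ((a : integralClosure ℤ L) : L) := (a : integralClosure ℤ L).2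
    exact (isIntegral_algebraMap_iff (FaithfulSMul.algebraMap_injective F L)).mp h2
  -- `σ₀` preserves the prime of `F` below `Q`
  have hinv : ∀ x : F, IsIntegral ℤ x →
      (((σ₀ x : F) : L) ∈ A.nonunits ↔ (x : L) ∈ A.nonunits) := by
    intro x hx
    constructor
    · intro h
      have h2 : (x : L) = ((σ₀ x : F) : L) - (((σ₀ x : F) : L) - (x : L)) := by ring
      rw [h2]
      exact A.nonunits.sub_mem h (h₀ x hx)
    · intro h
      have h2 : ((σ₀ x : F) : L) = (((σ₀ x : F) : L) - (x : L)) + (x : L) := by ring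
      rw [h2]
      exact A.nonunits.add_mem (h₀ x hx) h
  -- Step 1: extend `σ₀`
  let σ₁ : L ≃ₐ[ℚ] L := σ₀.liftNormal L
  have hσ₁ : ∀ x : F, σ₁ (x : L) = ((σ₀ x : F) : L) := fun x => σ₀.liftNormal_commutes L x
  -- Step 2: correct by an element of `H` so that `Q` is stabilised
  have hQ₁prime : (σ₁ • Q).IsPrime := inferInstance
  have hunder : (σ₁ • Q).under A' = Q.under A' := by
    ext a
    rw [Ideal.under_def, Ideal.mem_comap, Ideal.mem_comap,
      Ideal.mem_pointwise_smul_iff_inv_smul_mem, hQmem, hQmem]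
    obtain ⟨x, hx, hxa⟩ := hA' a
    have h1 : ((σ₁⁻¹ • (algebraMap A' (integralClosure ℤ L) a) : integralClosure ℤ L) : L) =
        ((σ₀.symm x : F) : L) := by
      show σ₁.symm ((a : integralClosure ℤ L) : L) = _
      rw [AlgEquiv.symm_apply_eq, hσ₁, AlgEquiv.apply_symm_apply, hxa]
    have h2 : ((algebraMap A' (integralClosure ℤ L) a : integralClosure ℤ L) : L) = (x : L) :=
      hxa.symm
    rw [h1, h2]
    have h3 := hinv (σ₀.symm x) (map_isIntegral_int σ₀.symm hx)
    rw [AlgEquiv.apply_symm_apply] at h3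
    exact h3.symm
  obtain ⟨g, hg⟩ := Algebra.IsInvariant.exists_smul_of_under_eq_of_profinite (A := A') (G := H)
    (σ₁ • Q) Q hunder
  let σ₂ : L ≃ₐ[ℚ] L := (g : L ≃ₐ[ℚ] L) * σ₁
  have hσ₂F : ∀ x : F, σ₂ (x : L) = ((σ₀ x : F) : L) := by
    intro x
    show (g : L ≃ₐ[ℚ] L) (σ₁ (x : L)) = _
    rw [hσ₁, hHmem]
  have hσ₂mem : ∀ b : integralClosure ℤ L, σ₂ • b ∈ Q ↔ b ∈ Q := by
    intro b
    have h1 : σ₂ • b ∈ Q ↔ σ₁⁻¹ • g⁻¹ • σ₂ • b ∈ Q :=
      (Ideal.ext_iff.mp hg (σ₂ • b)).trans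
        (Ideal.mem_pointwise_smul_iff_inv_smul_mem.trans Ideal.mem_pointwise_smul_iff_inv_smul_mem)
    have h2 : σ₁⁻¹ • g⁻¹ • σ₂ • b = b := by
      apply Subtype.ext
      show σ₁.symm ((g : L ≃ₐ[ℚ] L).symm ((g : L ≃ₐ[ℚ] L) (σ₁ (b : L)))) = (b : L)
      rw [AlgEquiv.symm_apply_apply, AlgEquiv.symm_apply_apply]
    rw [h2] at h1
    exact h1
  have hσ₂stab : σ₂ • Q = Q := by
    ext b
    rw [Ideal.mem_pointwise_smul_iff_inv_smul_mem, ← hσ₂mem (σ₂⁻¹ • b), smul_inv_smul]
  -- Step 3: correct by an element of `H` so that the action on the residue ring is trivial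
  let P : Ideal A' := Q.under A'
  let φ₀ : (integralClosure ℤ L ⧸ Q) ≃ₐ[ℤ ⧸ Q.under ℤ] (integralClosure ℤ L ⧸ Q) :=
    Ideal.Quotient.stabilizerHom Q (Q.under ℤ) (L ≃ₐ[ℚ] L) ⟨σ₂, hσ₂stab⟩
  have hφ₀ : ∀ b : integralClosure ℤ L,
      φ₀ (Ideal.Quotient.mk Q b) = Ideal.Quotient.mk Q (σ₂ • b) := fun b => rfl
  let φ : (integralClosure ℤ L ⧸ Q) ≃ₐ[A' ⧸ P] (integralClosure ℤ L ⧸ Q) :=
    AlgEquiv.ofRingEquiv (f := φ₀.toRingEquiv) (by
      intro r
      obtain ⟨a, rfl⟩ := Ideal.Quotient.mk_surjective r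
      show φ₀ (Ideal.Quotient.mk Q (algebraMap A' (integralClosure ℤ L) a)) =
        Ideal.Quotient.mk Q (algebraMap A' (integralClosure ℤ L) a)
      rw [hφ₀, Ideal.Quotient.eq, hQmem]
      obtain ⟨x, hx, hxa⟩ := hA' a
      show σ₂ ((a : integralClosure ℤ L) : L) - ((a : integralClosure ℤ L) : L) ∈ A.nonunits
      rw [← hxa, hσ₂F]
      exact h₀ x hx)
  obtain ⟨⟨ρ, hρQ⟩, hρ⟩ :=
    Ideal.Quotient.stabilizerHom_surjective_of_profinite (G := H) P Q φ
  have hρ2 : ∀ b : integralClosure ℤ L,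
      (ρ : L ≃ₐ[ℚ] L) (b : L) - σ₂ (b : L) ∈ A.nonunits := by
    intro b
    have h1 : Ideal.Quotient.mk Q (ρ • b) = Ideal.Quotient.mk Q (σ₂ • b) :=
      congrArg (fun f => f (Ideal.Quotient.mk Q b)) hρ
    rw [Ideal.Quotient.eq, hQmem] at h1
    exact h1
  refine ⟨σ₂ * (ρ : L ≃ₐ[ℚ] L)⁻¹, fun s hs => ?_, fun x => ?_⟩
  · have h1 := hρ2 ⟨(ρ : L ≃ₐ[ℚ] L).symm s, map_isIntegral_int (ρ : L ≃ₐ[ℚ] L).symm hs⟩
    have h2 : (σ₂ * (ρ : L ≃ₐ[ℚ] L)⁻¹) s - s =
        -((ρ : L ≃ₐ[ℚ] L) ((ρ : L ≃ₐ[ℚ] L).symm s) - σ₂ ((ρ : L ≃ₐ[ℚ] L).symm s)) := by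
      rw [AlgEquiv.apply_symm_apply, neg_sub]
      rfl
    rw [h2]
    exact A.nonunits.neg_mem h1
  · show σ₂ ((ρ : L ≃ₐ[ℚ] L).symm (x : L)) = _
    have h1 : (ρ : L ≃ₐ[ℚ] L).symm (x : L) = (x : L) := by
      rw [AlgEquiv.symm_apply_eq, hHmem]
    rw [h1, hσ₂F]

end General

/-- WP `InertiaLift`. -/
theorem ilb_inertiaLift : InertiaLiftStatement := by
  intro A ℓ hℓ hA F _ _ σ₀ h₀
  have := isAlgClosure_rat
  obtain ⟨σ, hσ, hσF⟩ := ilb_exists_lift A F σ₀ h₀
  exact ⟨σ, ilb_mem_inertia hℓ A hA σ hσ, hσF⟩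

end Fermat.Agent.S13
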