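/-
S13, work package `MinkFin` (Hermite–Minkowski): a finite Galois extension of `ℚ` inside `ℚ̄` in
which, for every prime `ℓ`, the inertia group at one prime above `ℓ` is trivial, is `ℚ`.
-/
import Fermat.Agent.S13.Defs
import Fermat.Agent.Lib.FrobeniusExists

set_option autoImplicit false

namespace Fermat.Agent.S13

open NumberField

/-- WP `MinkFin`. -/
theorem mfa_minkFin : MinkFinStatement := by
  intro F _ _ hyp
  by_contra hF
  have hNF : NumberField F :=
    { to_charZero := inferInstance, to_finiteDimensional := ‹FiniteDimensional ℚ F› }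
  have H : 1 < Module.finrank ℚ F := by
    have h0 : 0 < Module.finrank ℚ F := Module.finrank_pos
    have h1 : Module.finrank ℚ F ≠ 1 := fun h => hF (IntermediateField.finrank_eq_one_iff.mp h)
    omega
  obtain ⟨p, hp, hram⟩ :=
    NumberField.exists_not_isUnramifiedAt_int_of_isGalois (K := F) (𝒪 := 𝓞 F) H
  obtain ⟨A, hA, hσ⟩ := hyp p hp
  -- the prime of the ring of integers cut out by `A`
  let ι : 𝓞 F →+* A :=
    ((algebraMap F Kbar).comp (algebraMap (𝓞 F) F)).codRestrict A
      (fun s => Fermat.Agent.Lib.FrobeniusExists.mem_of_isIntegral_int A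
        (map_isIntegral_int (algebraMap F Kbar) s.2))
  let P : Ideal (𝓞 F) := (IsLocalRing.maximalIdeal A).comap ι
  have hPmem : ∀ s : 𝓞 F, s ∈ P ↔ (((s : F) : Kbar)) ∈ A.nonunits := by
    intro s
    show ι s ∈ IsLocalRing.maximalIdeal A ↔ _
    rw [← ValuationSubring.coe_mem_nonunits_iff]
    rfl
  have hPprime : P.IsPrime := Ideal.comap_isPrime ι _
  have hpP : ((p : ℤ) : 𝓞 F) ∈ P := by
    rw [hPmem]
    have : (((((p : ℤ) : 𝓞 F) : F)) : Kbar) = (p : Kbar) := by simp
    rw [this]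
    exact hA
  refine hram P hPprime hpP ?_
  -- the inertia group of `P` is trivial
  have hfin : Finite (F ≃ₐ[ℚ] F) := inferInstance
  have hG : IsGaloisGroup (F ≃ₐ[ℚ] F) ℤ (𝓞 F) := inferInstance
  have hinertia : Ideal.inertia (F ≃ₐ[ℚ] F) P = ⊥ := by
    rw [eq_bot_iff]
    intro σ hσmem
    rw [Subgroup.mem_bot]
    refine hσ σ (fun x hx => ?_)
    have h1 := (hPmem _).mp (hσmem ⟨x, hx⟩)
    exact h1
  rw [← Ideal.ramificationIdx_eq_one_iff,
    ← Ideal.ramificationIdxIn_eq_ramificationIdx (P.under ℤ) P (F ≃ₐ[ℚ] F),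
    ← Ideal.card_inertia_eq_ramificationIdxIn (G := F ≃ₐ[ℚ] F) (P.under ℤ) P,
    Subgroup.card_eq_one]
  exact hinertia

end Fermat.Agent.S13
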