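/-
S13, work package `Trop2` (file A): the "tropical" addition and duplication laws for the clamped
valuation `tropW` of the `X`-coordinate on a Kummer line `Y² = X (X² + a X + b)` at a prime of
multiplicative reduction, in a form valid in every residue characteristic:
`v 2 ≥ 0`, `c = 4 a` a unit, `v b > 0`.

This is a port of `Fermat/Agent/S05/TropStep.lean` (where `v 2 = 0` and `v a = 0`); the generic
lemmas of that file which do not involve `v 2` are reused.  The second Kummer identity is used in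
the form `(p + m) (x - y)² = 2 (x + y) (x y + b) + c x y` with `c = 4 a`, and the duplication
formula in the form `d · (2 Y)² = (x² - b)²` with `(2 Y)² = x (4 x² + c x + 4 b)`.

Main result: `t2a_trop2 : Trop2Statement`.
-/
import Mathlib
import Fermat.Agent.S13.Defs
import Fermat.Agent.S05.TropStep

set_option autoImplicit false

namespace Fermat.Agent.S13

open Fermat.Agent.S05

section t2a_generic
variable {K : Type*} [Field K]

/-! ### Generic valuation lemmas -/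

/-- If `0 ≤ v 2` and "`v z ≥ r`", then "`v (2 z) ≥ r`". -/
theorem t2a_two_ge {ν : AddVal K} (hν2 : 0 ≤ ν.v 2) {z : K} {r : ℝ} (hz : ν.Ge z r) :
    ν.Ge (2 * z) r := by
  have h0 : ν.Ge (2 : K) 0 := AddVal.ge_of_ne hν2
  have h1 := h0.mul hz
  rw [zero_add] at h1
  exact h1

/-- If `0 ≤ v 2` and "`v z > r`", then "`v (2 z) > r`". -/
theorem t2a_two_gt {ν : AddVal K} (hν2 : 0 ≤ ν.v 2) {z : K} {r : ℝ} (hz : ν.Gt z r) :
    ν.Gt (2 * z) r := by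
  have h0 : ν.Ge (2 : K) 0 := AddVal.ge_of_ne hν2
  have h1 := h0.mul_gt hz
  rw [zero_add] at h1
  exact h1

/-- If `0 ≤ v 2` and "`v z ≥ r`", then "`v (4 z) ≥ r`". -/
theorem t2a_four_ge {ν : AddVal K} (hν2 : 0 ≤ ν.v 2) {z : K} {r : ℝ} (hz : ν.Ge z r) :
    ν.Ge (4 * z) r := by
  have e : (4 : K) * z = 2 * (2 * z) := by ring
  rw [e]
  exact t2a_two_ge hν2 (t2a_two_ge hν2 hz)

/-- If `0 ≤ v 2` and "`v z > r`", then "`v (4 z) > r`". -/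
theorem t2a_four_gt {ν : AddVal K} (hν2 : 0 ≤ ν.v 2) {z : K} {r : ℝ} (hz : ν.Gt z r) :
    ν.Gt (4 * z) r := by
  have e : (4 : K) * z = 2 * (2 * z) := by ring
  rw [e]
  exact t2a_two_gt hν2 (t2a_two_gt hν2 hz)

/-- Multiplying by a unit `c` preserves "`v z ≥ r`". -/
theorem t2a_c_ge {ν : AddVal K} {c : K} (hc : ν.v c = 0) {z : K} {r : ℝ} (hz : ν.Ge z r) :
    ν.Ge (c * z) r := by
  have h0 : ν.Ge c 0 := AddVal.ge_of_ne (le_of_eq hc.symm)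
  have h1 := h0.mul hz
  rw [zero_add] at h1
  exact h1

/-- Multiplying by a unit `c` preserves the valuation. -/
theorem t2a_c_eq {ν : AddVal K} {c : K} (hc0 : c ≠ 0) (hc : ν.v c = 0) {z : K} (hz : z ≠ 0) :
    ν.v (c * z) = ν.v z := by
  rw [ν.v_mul hc0 hz, hc, zero_add]

/-- From (K2): if `N₂ ≠ 0` then `p + m ≠ 0` and `v (p + m) = v N₂ - 2 v Dl`. -/
theorem t2a_sum_eq {ν : AddVal K} {p m dl n : K} (K2 : (p + m) * dl ^ 2 = n) (hdl : dl ≠ 0)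
    (hn : n ≠ 0) : p + m ≠ 0 ∧ ν.v (p + m) = ν.v n - 2 * ν.v dl := by
  obtain ⟨hpm, hv⟩ := trs_v_of_mul_eq (ν := ν) K2 (pow_ne_zero 2 hdl) hn
  refine ⟨hpm, ?_⟩
  rw [ν.v_sq hdl] at hv
  exact hv

/-- From (K2): if "`v N₂ ≥ r`" then "`v (p + m) ≥ r - 2 v Dl`". -/
theorem t2a_sum_ge {ν : AddVal K} {p m dl n : K} {r : ℝ} (K2 : (p + m) * dl ^ 2 = n)
    (hdl : dl ≠ 0) (hn : ν.Ge n r) : ν.Ge (p + m) (r - 2 * ν.v dl) := by
  have h1 := trs_ge_of_mul_eq K2 (pow_ne_zero 2 hdl) hn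
  rw [ν.v_sq hdl] at h1
  exact h1

/-! ### The case analysis for the addition law -/

variable {ν : AddVal K} {c b x y p m : K}

theorem t2a_K2_swap
    (K2 : (p + m) * (x - y) ^ 2 = 2 * ((x + y) * (x * y + b)) + c * (x * y)) :
    (p + m) * (y - x) ^ 2 = 2 * ((y + x) * (y * x + b)) + c * (y * x) := by
  have e : (y - x) ^ 2 = (x - y) ^ 2 := by ring
  rw [e, mul_comm y x, add_comm y x]
  exact K2

/-- Case 1: `x` in zone `Z0`, `y` in zone `Zmid`. -/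
theorem t2a_case1 (hν2 : 0 ≤ ν.v 2) (hc : ν.v c = 0) (hb0 : b ≠ 0) (hb : 0 < ν.v b)
    (K1 : p * m * (x - y) ^ 2 = (x * y - b) ^ 2)
    (K2 : (p + m) * (x - y) ^ 2 = 2 * ((x + y) * (x * y + b)) + c * (x * y))
    (hx : x ≠ 0) (hxv : ν.v x ≤ 0) (hy : y ≠ 0) (hy0 : 0 < ν.v y) (hyh : ν.v y < ν.v b) :
    trs_Concl (ν.v b) (trs_W ν b x) (trs_W ν b y) (trs_W ν b p) (trs_W ν b m) := by
  have hdl : x - y ≠ 0 ∧ ν.v (x - y) = ν.v x := ν.v_sub_eq_of_lt hx hy (by linarith)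
  have hxy : x * y ≠ 0 := mul_ne_zero hx hy
  have hvxy : ν.v (x * y) = ν.v x + ν.v y := ν.v_mul hx hy
  have hN1 : x * y - b ≠ 0 ∧ ν.v (x * y - b) = ν.v (x * y) :=
    ν.v_sub_eq_of_lt hxy hb0 (by rw [hvxy]; linarith)
  obtain ⟨hp, hm, hpm⟩ := trs_prod_eq (ν := ν) K1 hdl.1 hN1.1
  rw [hN1.2, hvxy, hdl.2] at hpm
  have hxy_sum : ν.Ge (x + y) (ν.v x) :=
    (AddVal.ge_self x).add (AddVal.ge_of_ne (by linarith))
  have hxyb : ν.Ge (x * y + b) (ν.v x + ν.v y) :=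
    (AddVal.ge_of_ne (le_of_eq hvxy.symm)).add (AddVal.ge_of_ne (by linarith))
  have hT12 : ν.Ge (2 * ((x + y) * (x * y + b))) (ν.v x + (ν.v x + ν.v y)) :=
    t2a_two_ge hν2 (hxy_sum.mul hxyb)
  have hT3 : ν.Ge (c * (x * y)) (ν.v x + ν.v y) :=
    t2a_c_ge hc (AddVal.ge_of_ne (le_of_eq hvxy.symm))
  have hN2 : ν.Ge (2 * ((x + y) * (x * y + b)) + c * (x * y)) (ν.v x + (ν.v x + ν.v y)) :=
    hT12.add (hT3.mono (by linarith))
  have hsum := t2a_sum_ge K2 hdl.1 hN2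
  rw [hdl.2] at hsum
  obtain ⟨hvp, hvm⟩ := AddVal.eq_eq_of_mul_of_add_ge hp hm (m := ν.v y) (by linarith)
    (hsum.mono (by linarith))
  have hWx : trs_W ν b x = 0 := trs_W_of_le hb hx hxv
  have hWy : trs_W ν b y = ν.v y := trs_W_of_mid hy hy0.le hyh.le
  have hWp : trs_W ν b p = ν.v y := trs_W_of_eq hp hvp hy0.le hyh.le
  have hWm : trs_W ν b m = ν.v y := trs_W_of_eq hm hvm hy0.le hyh.le
  have h1 : |(0 : ℝ) - ν.v y| = ν.v y := by rw [zero_sub, abs_neg, abs_of_pos hy0]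
  have hle : (0 : ℝ) + ν.v y ≤ ν.v b := by linarith
  have h2 : foldSum (ν.v b) 0 (ν.v y) = ν.v y := by rw [trs_fold_le hle, zero_add]
  exact trs_Concl_same hWx hWy hWp hWm h1 h2

/-- Case 2: `x` in zone `Z0`, `y` in zone `Zh`. -/
theorem t2a_case2 (hν2 : 0 ≤ ν.v 2) (hc : ν.v c = 0) (hb : 0 < ν.v b)
    (K1 : p * m * (x - y) ^ 2 = (x * y - b) ^ 2)
    (K2 : (p + m) * (x - y) ^ 2 = 2 * ((x + y) * (x * y + b)) + c * (x * y))
    (hx : x ≠ 0) (hxv : ν.v x ≤ 0) (hy : ν.Ge y (ν.v b)) :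
    trs_Concl (ν.v b) (trs_W ν b x) (trs_W ν b y) (trs_W ν b p) (trs_W ν b m) := by
  have hygt : ν.Gt y (ν.v x) := hy.gt_of_lt (by linarith)
  have hdl : x - y ≠ 0 ∧ ν.v (x - y) = ν.v x := AddVal.v_sub_eq_of_gt hx hygt
  have hxy : ν.Ge (x * y) (ν.v x + ν.v b) := (AddVal.ge_self x).mul hy
  have hbge : ν.Ge b (ν.v x + ν.v b) := AddVal.ge_of_ne (by linarith)
  have hN1 : ν.Ge (x * y - b) (ν.v x + ν.v b) := hxy.sub hbge
  have hprod := trs_prod_ge K1 hdl.1 hN1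
  rw [hdl.2] at hprod
  have hxy_sum : ν.Ge (x + y) (ν.v x) := (AddVal.ge_self x).add hygt.ge
  have hxyb : ν.Ge (x * y + b) (ν.v x + ν.v b) := hxy.add hbge
  have hT12 : ν.Ge (2 * ((x + y) * (x * y + b))) (ν.v x + (ν.v x + ν.v b)) :=
    t2a_two_ge hν2 (hxy_sum.mul hxyb)
  have hT3 : ν.Ge (c * (x * y)) (ν.v x + ν.v b) := t2a_c_ge hc hxy
  have hN2 : ν.Ge (2 * ((x + y) * (x * y + b)) + c * (x * y)) (ν.v x + (ν.v x + ν.v b)) :=
    hT12.add (hT3.mono (by linarith))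
  have hsum := t2a_sum_ge K2 hdl.1 hN2
  rw [hdl.2] at hsum
  obtain ⟨hgp, hgm⟩ := trs_np1 (r := ν.v b) (hprod.mono (by linarith)) (hsum.mono (by linarith))
  have hWx : trs_W ν b x = 0 := trs_W_of_le hb hx hxv
  have hWy : trs_W ν b y = ν.v b := trs_W_of_ge hb hy
  have hWp : trs_W ν b p = ν.v b := trs_W_of_ge hb hgp
  have hWm : trs_W ν b m = ν.v b := trs_W_of_ge hb hgm
  have h1 : |(0 : ℝ) - ν.v b| = ν.v b := by rw [zero_sub, abs_neg, abs_of_pos hb]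
  have hle : (0 : ℝ) + ν.v b ≤ ν.v b := by linarith
  have h2 : foldSum (ν.v b) 0 (ν.v b) = ν.v b := by rw [trs_fold_le hle, zero_add]
  exact trs_Concl_same hWx hWy hWp hWm h1 h2

/-- For `x`, `y` both in zone `Zmid`, the numerator `N₂` has valuation exactly `v x + v y`. -/
theorem t2a_N2_mid (hν2 : 0 ≤ ν.v 2) (hc0 : c ≠ 0) (hc : ν.v c = 0)
    (hx : x ≠ 0) (hx0 : 0 < ν.v x) (hxh : ν.v x < ν.v b)
    (hy : y ≠ 0) (hy0 : 0 < ν.v y) (hyh : ν.v y < ν.v b) :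
    2 * ((x + y) * (x * y + b)) + c * (x * y) ≠ 0 ∧
      ν.v (2 * ((x + y) * (x * y + b)) + c * (x * y)) = ν.v x + ν.v y := by
  have hxy : x * y ≠ 0 := mul_ne_zero hx hy
  have hvxy : ν.v (x * y) = ν.v x + ν.v y := ν.v_mul hx hy
  have hT3ne : c * (x * y) ≠ 0 := mul_ne_zero hc0 hxy
  have hT3 : ν.v (c * (x * y)) = ν.v x + ν.v y := by
    rw [t2a_c_eq hc0 hc hxy, hvxy]
  have hxy_sum : ν.Ge (x + y) (min (ν.v x) (ν.v y)) :=
    (AddVal.ge_of_ne (min_le_left _ _)).add (AddVal.ge_of_ne (min_le_right _ _))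
  have hlt1 : max (ν.v x) (ν.v y) < ν.v (x * y) := by
    rw [hvxy]
    exact max_lt (by linarith) (by linarith)
  have hxyb : ν.Gt (x * y + b) (max (ν.v x) (ν.v y)) :=
    (AddVal.gt_of_ne hlt1).add (AddVal.gt_of_ne (max_lt hxh hyh))
  have hT12 : ν.Gt (2 * ((x + y) * (x * y + b))) (ν.v (c * (x * y))) := by
    have h3 := hxy_sum.mul_gt hxyb
    rw [min_add_max] at h3
    rw [hT3]
    exact t2a_two_gt hν2 h3
  have h4 := AddVal.v_add_eq_of_gt' hT3ne hT12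
  rw [hT3] at h4
  exact h4

/-- Case 3 (both `x` and `y` in zone `Zmid`), assuming `v x ≤ v (x - y)` and the value of
`|v x - v y|` in terms of `v (x - y)`. -/
theorem t2a_case3_aux (hν2 : 0 ≤ ν.v 2) (hc0 : c ≠ 0) (hc : ν.v c = 0)
    (hb0 : b ≠ 0) (hb : 0 < ν.v b) (hne : x - y ≠ 0)
    (K1 : p * m * (x - y) ^ 2 = (x * y - b) ^ 2)
    (K2 : (p + m) * (x - y) ^ 2 = 2 * ((x + y) * (x * y + b)) + c * (x * y))
    (hx : x ≠ 0) (hx0 : 0 < ν.v x) (hxh : ν.v x < ν.v b)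
    (hy : y ≠ 0) (hy0 : 0 < ν.v y) (hyh : ν.v y < ν.v b)
    (hdlge : ν.v x ≤ ν.v (x - y))
    (habs : |ν.v x - ν.v y| = max 0 (ν.v x + ν.v y - 2 * ν.v (x - y))) :
    trs_Concl (ν.v b) (trs_W ν b x) (trs_W ν b y) (trs_W ν b p) (trs_W ν b m) := by
  have hN2 := t2a_N2_mid (b := b) hν2 hc0 hc hx hx0 hxh hy hy0 hyh
  obtain ⟨hsum0, hsum⟩ := t2a_sum_eq (ν := ν) K2 hne hN2.1
  rw [hN2.2] at hsum
  have hxy : x * y ≠ 0 := mul_ne_zero hx hy
  have hvxy : ν.v (x * y) = ν.v x + ν.v y := ν.v_mul hx hy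
  have hWx : trs_W ν b x = ν.v x := trs_W_of_mid hx hx0.le hxh.le
  have hWy : trs_W ν b y = ν.v y := trs_W_of_mid hy hy0.le hyh.le
  unfold trs_Concl
  rw [hWx, hWy, habs]
  rcases lt_trichotomy (ν.v x + ν.v y) (ν.v b) with hlt | heq | hgt
  · have hN1 : x * y - b ≠ 0 ∧ ν.v (x * y - b) = ν.v (x * y) :=
      ν.v_sub_eq_of_lt hxy hb0 (by rw [hvxy]; exact hlt)
    obtain ⟨hp, hm, hpm⟩ := trs_prod_eq (ν := ν) K1 hne hN1.1
    rw [hN1.2, hvxy] at hpm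
    rw [trs_fold_le hlt.le]
    exact trs_np2_W hb hsum0 hsum (by linarith) (by linarith) hlt.le
      (Or.inl ⟨hp, hm, by linarith⟩)
  · have hN1 : ν.Ge (x * y - b) (ν.v b) :=
      (AddVal.ge_of_ne (by rw [hvxy]; exact heq.ge)).sub (AddVal.ge_self b)
    have hprod := trs_prod_ge K1 hne hN1
    rw [trs_fold_le heq.le]
    exact trs_np2_W hb hsum0 hsum (by linarith) (by linarith) heq.le
      (Or.inr ⟨heq, hprod.mono (by linarith)⟩)
  · have hN1 : x * y - b ≠ 0 ∧ ν.v (x * y - b) = ν.v b :=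
      ν.v_sub_eq_of_lt' hxy hb0 (by rw [hvxy]; exact hgt)
    obtain ⟨hp, hm, hpm⟩ := trs_prod_eq (ν := ν) K1 hne hN1.1
    rw [hN1.2] at hpm
    rw [trs_fold_gt hgt]
    exact trs_np2_W hb hsum0 hsum (by linarith) (by linarith) (by linarith)
      (Or.inl ⟨hp, hm, by linarith⟩)

/-- Case 3 with `v x ≤ v y`. -/
theorem t2a_case3_le (hν2 : 0 ≤ ν.v 2) (hc0 : c ≠ 0) (hc : ν.v c = 0)
    (hb0 : b ≠ 0) (hb : 0 < ν.v b) (hne : x - y ≠ 0)
    (K1 : p * m * (x - y) ^ 2 = (x * y - b) ^ 2)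
    (K2 : (p + m) * (x - y) ^ 2 = 2 * ((x + y) * (x * y + b)) + c * (x * y))
    (hx : x ≠ 0) (hx0 : 0 < ν.v x) (hxh : ν.v x < ν.v b)
    (hy : y ≠ 0) (hy0 : 0 < ν.v y) (hyh : ν.v y < ν.v b) (hle : ν.v x ≤ ν.v y) :
    trs_Concl (ν.v b) (trs_W ν b x) (trs_W ν b y) (trs_W ν b p) (trs_W ν b m) := by
  rcases lt_or_eq_of_le hle with hlt | heq
  · have hdl : x - y ≠ 0 ∧ ν.v (x - y) = ν.v x := ν.v_sub_eq_of_lt hx hy hlt
    have habs : |ν.v x - ν.v y| = max 0 (ν.v x + ν.v y - 2 * ν.v (x - y)) := by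
      have e1 : ν.v x - ν.v y ≤ 0 := by linarith
      have e2 : (0 : ℝ) ≤ ν.v x + ν.v y - 2 * ν.v x := by linarith
      rw [hdl.2, abs_of_nonpos e1, max_eq_right e2]
      ring
    exact t2a_case3_aux hν2 hc0 hc hb0 hb hne K1 K2 hx hx0 hxh hy hy0 hyh hdl.2.ge habs
  · have hdlge : ν.v x ≤ ν.v (x - y) :=
      ((AddVal.ge_self x).sub (AddVal.ge_of_ne heq.le)).le hne
    have habs : |ν.v x - ν.v y| = max 0 (ν.v x + ν.v y - 2 * ν.v (x - y)) := by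
      have e2 : ν.v x + ν.v y - 2 * ν.v (x - y) ≤ 0 := by linarith
      have e3 : ν.v x - ν.v y = 0 := by linarith
      rw [e3, abs_zero, max_eq_left e2]
    exact t2a_case3_aux hν2 hc0 hc hb0 hb hne K1 K2 hx hx0 hxh hy hy0 hyh hdlge habs

/-- Case 3: both `x` and `y` in zone `Zmid`. -/
theorem t2a_case3 (hν2 : 0 ≤ ν.v 2) (hc0 : c ≠ 0) (hc : ν.v c = 0)
    (hb0 : b ≠ 0) (hb : 0 < ν.v b) (hne : x - y ≠ 0)
    (K1 : p * m * (x - y) ^ 2 = (x * y - b) ^ 2)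
    (K2 : (p + m) * (x - y) ^ 2 = 2 * ((x + y) * (x * y + b)) + c * (x * y))
    (hx : x ≠ 0) (hx0 : 0 < ν.v x) (hxh : ν.v x < ν.v b)
    (hy : y ≠ 0) (hy0 : 0 < ν.v y) (hyh : ν.v y < ν.v b) :
    trs_Concl (ν.v b) (trs_W ν b x) (trs_W ν b y) (trs_W ν b p) (trs_W ν b m) := by
  rcases le_total (ν.v x) (ν.v y) with hle | hle
  · exact t2a_case3_le hν2 hc0 hc hb0 hb hne K1 K2 hx hx0 hxh hy hy0 hyh hle
  · have hne' : y - x ≠ 0 := fun h0 => hne (by rw [sub_eq_zero.mp h0, sub_self])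
    exact trs_Concl_swap (t2a_case3_le hν2 hc0 hc hb0 hb hne' (trs_K1_swap K1)
      (t2a_K2_swap K2) hy hy0 hyh hx hx0 hxh hle)

/-- Case 4: `x` in zone `Zh`, `y` in zone `Zmid`. -/
theorem t2a_case4 (hν2 : 0 ≤ ν.v 2) (hc : ν.v c = 0) (hb0 : b ≠ 0) (hb : 0 < ν.v b)
    (K1 : p * m * (x - y) ^ 2 = (x * y - b) ^ 2)
    (K2 : (p + m) * (x - y) ^ 2 = 2 * ((x + y) * (x * y + b)) + c * (x * y))
    (hx : ν.Ge x (ν.v b)) (hy : y ≠ 0) (hy0 : 0 < ν.v y) (hyh : ν.v y < ν.v b) :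
    trs_Concl (ν.v b) (trs_W ν b x) (trs_W ν b y) (trs_W ν b p) (trs_W ν b m) := by
  have hxgt : ν.Gt x (ν.v y) := hx.gt_of_lt hyh
  have hdl : x - y ≠ 0 ∧ ν.v (x - y) = ν.v y := AddVal.v_sub_eq_of_gt' hy hxgt
  have hxy : ν.Gt (x * y) (ν.v b) := by
    have h3 := hx.mul_gt (AddVal.gt_of_ne hy0)
    rw [add_zero] at h3
    exact h3
  have hN1 : x * y - b ≠ 0 ∧ ν.v (x * y - b) = ν.v b := AddVal.v_sub_eq_of_gt' hb0 hxy
  obtain ⟨hp, hm, hpm⟩ := trs_prod_eq (ν := ν) K1 hdl.1 hN1.1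
  rw [hN1.2, hdl.2] at hpm
  have hxy_sum : ν.Ge (x + y) (ν.v y) := hxgt.ge.add (AddVal.ge_self y)
  have hxyb : ν.Ge (x * y + b) (ν.v b) := hxy.ge.add (AddVal.ge_self b)
  have hT12 : ν.Ge (2 * ((x + y) * (x * y + b))) (ν.v y + ν.v b) :=
    t2a_two_ge hν2 (hxy_sum.mul hxyb)
  have hxy' : ν.Ge (x * y) (ν.v b + ν.v y) := hx.mul (AddVal.ge_self y)
  have hT3 : ν.Ge (c * (x * y)) (ν.v b + ν.v y) := t2a_c_ge hc hxy'
  have hN2 : ν.Ge (2 * ((x + y) * (x * y + b)) + c * (x * y)) (ν.v y + ν.v b) :=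
    hT12.add (hT3.mono (by linarith))
  have hsum := t2a_sum_ge K2 hdl.1 hN2
  rw [hdl.2] at hsum
  obtain ⟨hvp, hvm⟩ := AddVal.eq_eq_of_mul_of_add_ge hp hm (m := ν.v b - ν.v y) (by linarith)
    (hsum.mono (by linarith))
  have hWx : trs_W ν b x = ν.v b := trs_W_of_ge hb hx
  have hWy : trs_W ν b y = ν.v y := trs_W_of_mid hy hy0.le hyh.le
  have hWp : trs_W ν b p = ν.v b - ν.v y := trs_W_of_eq hp hvp (by linarith) (by linarith)
  have hWm : trs_W ν b m = ν.v b - ν.v y := trs_W_of_eq hm hvm (by linarith) (by linarith)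
  have h1 : |ν.v b - ν.v y| = ν.v b - ν.v y := abs_of_pos (by linarith)
  have hlt : ν.v b < ν.v b + ν.v y := by linarith
  have h2 : foldSum (ν.v b) (ν.v b) (ν.v y) = ν.v b - ν.v y := by
    rw [trs_fold_gt hlt]
    ring
  exact trs_Concl_same hWx hWy hWp hWm h1 h2

/-- Case 5: `x` in zone `Zmid`, `y` in zone `Zh` (symmetric to Case 4). -/
theorem t2a_case5 (hν2 : 0 ≤ ν.v 2) (hc : ν.v c = 0) (hb0 : b ≠ 0) (hb : 0 < ν.v b)
    (K1 : p * m * (x - y) ^ 2 = (x * y - b) ^ 2)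
    (K2 : (p + m) * (x - y) ^ 2 = 2 * ((x + y) * (x * y + b)) + c * (x * y))
    (hx : x ≠ 0) (hx0 : 0 < ν.v x) (hxh : ν.v x < ν.v b) (hy : ν.Ge y (ν.v b)) :
    trs_Concl (ν.v b) (trs_W ν b x) (trs_W ν b y) (trs_W ν b p) (trs_W ν b m) :=
  trs_Concl_swap (t2a_case4 hν2 hc hb0 hb (trs_K1_swap K1) (t2a_K2_swap K2) hy hx hx0 hxh)

/-- Case 6: both `x` and `y` in zone `Zh`. -/
theorem t2a_case6 (hν2 : 0 ≤ ν.v 2) (hc : ν.v c = 0) (hb0 : b ≠ 0) (hb : 0 < ν.v b)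
    (hne : x - y ≠ 0)
    (K1 : p * m * (x - y) ^ 2 = (x * y - b) ^ 2)
    (K2 : (p + m) * (x - y) ^ 2 = 2 * ((x + y) * (x * y + b)) + c * (x * y))
    (hx : ν.Ge x (ν.v b)) (hy : ν.Ge y (ν.v b)) :
    trs_Concl (ν.v b) (trs_W ν b x) (trs_W ν b y) (trs_W ν b p) (trs_W ν b m) := by
  have hdlge : ν.v b ≤ ν.v (x - y) := (hx.sub hy).le hne
  have hxy2 : ν.Ge (x * y) (ν.v b + ν.v b) := hx.mul hy
  have hxy : ν.Gt (x * y) (ν.v b) := hxy2.gt_of_lt (by linarith)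
  have hN1 : x * y - b ≠ 0 ∧ ν.v (x * y - b) = ν.v b := AddVal.v_sub_eq_of_gt' hb0 hxy
  obtain ⟨hp, hm, hpm⟩ := trs_prod_eq (ν := ν) K1 hne hN1.1
  rw [hN1.2] at hpm
  have hxy_sum : ν.Ge (x + y) (ν.v b) := hx.add hy
  have hxyb : ν.Ge (x * y + b) (ν.v b) := hxy.ge.add (AddVal.ge_self b)
  have hT12 : ν.Ge (2 * ((x + y) * (x * y + b))) (ν.v b + ν.v b) :=
    t2a_two_ge hν2 (hxy_sum.mul hxyb)
  have hT3 : ν.Ge (c * (x * y)) (ν.v b + ν.v b) := t2a_c_ge hc hxy2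
  have hN2 : ν.Ge (2 * ((x + y) * (x * y + b)) + c * (x * y)) (ν.v b + ν.v b) := hT12.add hT3
  have hsum := t2a_sum_ge K2 hne hN2
  have hvp : ν.v p ≤ 0 := by
    by_contra hcon
    have hpos : 0 < ν.v p := not_le.mp hcon
    obtain ⟨hne0, hv⟩ := ν.v_add_eq_of_lt' hp hm (by linarith)
    have h3 := hsum.le hne0
    linarith
  have hvm : ν.v m ≤ 0 := by
    by_contra hcon
    have hpos : 0 < ν.v m := not_le.mp hcon
    obtain ⟨hne0, hv⟩ := ν.v_add_eq_of_lt hp hm (by linarith)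
    have h3 := hsum.le hne0
    linarith
  have hWx : trs_W ν b x = ν.v b := trs_W_of_ge hb hx
  have hWy : trs_W ν b y = ν.v b := trs_W_of_ge hb hy
  have hWp : trs_W ν b p = 0 := trs_W_of_le hb hp hvp
  have hWm : trs_W ν b m = 0 := trs_W_of_le hb hm hvm
  have h1 : |ν.v b - ν.v b| = 0 := by rw [sub_self, abs_zero]
  have hlt : ν.v b < ν.v b + ν.v b := by linarith
  have h2 : foldSum (ν.v b) (ν.v b) (ν.v b) = 0 := by
    rw [trs_fold_gt hlt]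
    ring
  exact trs_Concl_same hWx hWy hWp hWm h1 h2

/-- The tropical addition law, in purely field-theoretic form (`c = 4 a`). -/
theorem t2a_core (hν2 : 0 ≤ ν.v 2) (hc0 : c ≠ 0) (hc : ν.v c = 0)
    (hb0 : b ≠ 0) (hb : 0 < ν.v b) (hne : x - y ≠ 0)
    (K1 : p * m * (x - y) ^ 2 = (x * y - b) ^ 2)
    (K2 : (p + m) * (x - y) ^ 2 = 2 * ((x + y) * (x * y + b)) + c * (x * y))
    (hcW : 0 < trs_W ν b y) :
    trs_Concl (ν.v b) (trs_W ν b x) (trs_W ν b y) (trs_W ν b p) (trs_W ν b m) := by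
  rcases trs_zone ν b y with ⟨hy, hyv⟩ | ⟨hy, hy0, hyh⟩ | hy
  · exfalso
    rw [trs_W_of_le hb hy hyv] at hcW
    exact lt_irrefl _ hcW
  · rcases trs_zone ν b x with ⟨hx, hxv⟩ | ⟨hx, hx0, hxh⟩ | hx
    · exact t2a_case1 hν2 hc hb0 hb K1 K2 hx hxv hy hy0 hyh
    · exact t2a_case3 hν2 hc0 hc hb0 hb hne K1 K2 hx hx0 hxh hy hy0 hyh
    · exact t2a_case4 hν2 hc hb0 hb K1 K2 hx hy hy0 hyh
  · rcases trs_zone ν b x with ⟨hx, hxv⟩ | ⟨hx, hx0, hxh⟩ | hx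
    · exact t2a_case2 hν2 hc hb K1 K2 hx hxv hy
    · exact t2a_case5 hν2 hc hb0 hb K1 K2 hx hx0 hxh hy
    · exact t2a_case6 hν2 hc hb0 hb hne K1 K2 hx hy

/-! ### Doubling -/

/-- For `x` in zone `Zmid`, the factor `4 F = 4 x² + c x + 4 b` has valuation exactly `v x`. -/
theorem t2a_F_mid (hν2 : 0 ≤ ν.v 2) (hc0 : c ≠ 0) (hc : ν.v c = 0)
    (hx : x ≠ 0) (hx0 : 0 < ν.v x) (hxh : ν.v x < ν.v b) :
    4 * x ^ 2 + c * x + 4 * b ≠ 0 ∧ ν.v (4 * x ^ 2 + c * x + 4 * b) = ν.v x := by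
  have hcx : c * x ≠ 0 := mul_ne_zero hc0 hx
  have hvcx : ν.v (c * x) = ν.v x := t2a_c_eq hc0 hc hx
  have hx2 : ν.Gt (4 * x ^ 2) (ν.v (c * x)) :=
    t2a_four_gt hν2 (AddVal.gt_of_ne (by rw [ν.v_sq hx, hvcx]; linarith))
  have h1 : 4 * x ^ 2 + c * x ≠ 0 ∧ ν.v (4 * x ^ 2 + c * x) = ν.v (c * x) :=
    AddVal.v_add_eq_of_gt' hcx hx2
  have hbgt : ν.Gt (4 * b) (ν.v (4 * x ^ 2 + c * x)) :=
    t2a_four_gt hν2 (AddVal.gt_of_ne (by rw [h1.2, hvcx]; exact hxh))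
  have h3 := AddVal.v_add_eq_of_gt h1.1 hbgt
  rw [h1.2, hvcx] at h3
  exact h3

/-- A point with `x · 4 F(x) = 0` and positive clamped valuation lies in zone `Zh`. -/
theorem t2a_dbl_zero (hν2 : 0 ≤ ν.v 2) (hc0 : c ≠ 0) (hc : ν.v c = 0)
    (hb : 0 < ν.v b) (heq : x * (4 * x ^ 2 + c * x + 4 * b) = 0) (hcW : 0 < trs_W ν b x) :
    trs_W ν b x = ν.v b := by
  rcases trs_zone ν b x with ⟨hx, hxv⟩ | ⟨hx, hx0, hxh⟩ | hx
  · exfalso
    rw [trs_W_of_le hb hx hxv] at hcW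
    exact lt_irrefl _ hcW
  · exfalso
    exact mul_ne_zero hx (t2a_F_mid hν2 hc0 hc hx hx0 hxh).1 heq
  · exact trs_W_of_ge hb hx

/-- The tropical duplication law, in purely field-theoretic form: `e = (2 Y)²`, `c = 4 a`. -/
theorem t2a_dbl_core (hν2 : 0 ≤ ν.v 2) (hc0 : c ≠ 0) (hc : ν.v c = 0)
    (hb0 : b ≠ 0) (hb : 0 < ν.v b) {e d : K} (heq : e = x * (4 * x ^ 2 + c * x + 4 * b))
    (he : e ≠ 0) (hd : d * e = (x ^ 2 - b) ^ 2) (hcW : 0 < trs_W ν b x) :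
    trs_W ν b d = foldSum (ν.v b) (trs_W ν b x) (trs_W ν b x) := by
  have hxF : x * (4 * x ^ 2 + c * x + 4 * b) ≠ 0 := by
    rw [← heq]
    exact he
  have hx : x ≠ 0 := left_ne_zero_of_mul hxF
  have hF : 4 * x ^ 2 + c * x + 4 * b ≠ 0 := right_ne_zero_of_mul hxF
  have hvden : ν.v e = ν.v x + ν.v (4 * x ^ 2 + c * x + 4 * b) := by
    rw [heq, ν.v_mul hx hF]
  have hx2 : ν.v (x ^ 2) = 2 * ν.v x := ν.v_sq hx
  rcases trs_zone ν b x with ⟨_, hxv⟩ | ⟨_, hx0, hxh⟩ | hxge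
  · exfalso
    rw [trs_W_of_le hb hx hxv] at hcW
    exact lt_irrefl _ hcW
  · have hvF := (t2a_F_mid hν2 hc0 hc hx hx0 hxh).2
    rw [hvF] at hvden
    have hWx : trs_W ν b x = ν.v x := trs_W_of_mid hx hx0.le hxh.le
    rw [hWx]
    rcases lt_trichotomy (2 * ν.v x) (ν.v b) with hlt | heq' | hgt
    · have hN : x ^ 2 - b ≠ 0 ∧ ν.v (x ^ 2 - b) = ν.v (x ^ 2) :=
        ν.v_sub_eq_of_lt (pow_ne_zero 2 hx) hb0 (by rw [hx2]; exact hlt)
      obtain ⟨hd0, hvd⟩ := trs_v_of_mul_eq (ν := ν) hd he (pow_ne_zero 2 hN.1)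
      rw [ν.v_sq hN.1, hN.2, hx2, hvden] at hvd
      have hle : ν.v x + ν.v x ≤ ν.v b := by linarith
      rw [trs_fold_le hle]
      exact trs_W_of_eq hd0 (by linarith) (by linarith) (by linarith)
    · have hN : ν.Ge (x ^ 2 - b) (ν.v b) :=
        (AddVal.ge_of_ne (by rw [hx2]; exact heq'.ge)).sub (AddVal.ge_self b)
      have hge := trs_ge_of_mul_eq hd he (trs_ge_sq hN)
      rw [hvden] at hge
      have hle : ν.v x + ν.v x ≤ ν.v b := by linarith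
      have e3 : ν.v x + ν.v x = ν.v b := by linarith
      rw [trs_fold_le hle, e3]
      exact trs_W_of_ge hb (hge.mono (by linarith))
    · have hN : x ^ 2 - b ≠ 0 ∧ ν.v (x ^ 2 - b) = ν.v b :=
        ν.v_sub_eq_of_lt' (pow_ne_zero 2 hx) hb0 (by rw [hx2]; exact hgt)
      obtain ⟨hd0, hvd⟩ := trs_v_of_mul_eq (ν := ν) hd he (pow_ne_zero 2 hN.1)
      rw [ν.v_sq hN.1, hN.2, hvden] at hvd
      have hlt' : ν.v b < ν.v x + ν.v x := by linarith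
      rw [trs_fold_gt hlt']
      exact trs_W_of_eq hd0 (by linarith) (by linarith) (by linarith)
  · have hxv : ν.v b ≤ ν.v x := hxge.le hx
    have hFge : ν.v b ≤ ν.v (4 * x ^ 2 + c * x + 4 * b) := by
      have h3 : ν.Ge (4 * x ^ 2) (ν.v b) :=
        t2a_four_ge hν2 (AddVal.ge_of_ne (by rw [hx2]; linarith))
      have h4 : ν.Ge (c * x) (ν.v b) := t2a_c_ge hc hxge
      have h5 : ν.Ge (4 * b) (ν.v b) := t2a_four_ge hν2 (AddVal.ge_self b)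
      exact ((h3.add h4).add h5).le hF
    have hN : x ^ 2 - b ≠ 0 ∧ ν.v (x ^ 2 - b) = ν.v b :=
      AddVal.v_sub_eq_of_gt' hb0 (AddVal.gt_of_ne (by rw [hx2]; linarith))
    obtain ⟨hd0, hvd⟩ := trs_v_of_mul_eq (ν := ν) hd he (pow_ne_zero 2 hN.1)
    rw [ν.v_sq hN.1, hN.2, hvden] at hvd
    have hWx : trs_W ν b x = ν.v b := trs_W_of_ge hb hxge
    have hWd : trs_W ν b d = 0 := trs_W_of_le hb hd0 (by linarith)
    have hlt' : ν.v b < ν.v b + ν.v b := by linarith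
    rw [hWx, trs_fold_gt hlt', hWd]
    ring

end t2a_generic

/-! ### The statement of the work package -/

/-- WP `Trop2`: the tropical addition and duplication laws (`v 2 ≥ 0`, `v (4 a) = 0`,
`v b > 0`). -/
theorem t2a_trop2 : Trop2Statement := by
  intro G K _ _ _ D ν hν2 ha0 hc hb0 hb
  have h2 : (2 : K) ≠ 0 := two_ne_zero
  have h4 : (4 : K) ≠ 0 := by
    have e : (4 : K) = 2 * 2 := by norm_num
    rw [e]
    exact mul_ne_zero h2 h2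
  have hc0 : 4 * D.a ≠ 0 := mul_ne_zero h4 ha0
  refine ⟨?_, ?_⟩
  · intro P Q hP hQ hne hcW
    have hQP : Q + P ≠ 0 := by
      intro h0
      apply hne
      rw [eq_neg_of_add_eq_zero_left h0, D.X_neg]
    have hQP' : Q - P ≠ 0 := by
      intro h0
      apply hne
      rw [sub_eq_zero.mp h0]
    rw [trs_tropW_eq D ν hQP, trs_tropW_eq D ν hQP', trs_tropW_eq D ν hQ, trs_tropW_eq D ν hP]
    rw [trs_tropW_eq D ν hP] at hcW
    have K2 : (D.X (Q + P) + D.X (Q - P)) * (D.X Q - D.X P) ^ 2 =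
        2 * ((D.X Q + D.X P) * (D.X Q * D.X P + D.b)) + 4 * D.a * (D.X Q * D.X P) := by
      rw [D.addsub_add Q P hQ hP hne]
      ring
    exact t2a_core hν2 hc0 hc hb0 hb (sub_ne_zero.mpr hne) (D.addsub_mul Q P hQ hP hne) K2 hcW
  · intro P hP hcW
    by_cases hPP : P + P = 0
    · have hY : D.Y P = 0 := (D.two_torsion P hP).mp hPP
      have heq := D.eqn P hP
      rw [hY] at heq
      have heq' : D.X P * (4 * D.X P ^ 2 + 4 * D.a * D.X P + 4 * D.b) = 0 := by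
        have e : D.X P * (4 * D.X P ^ 2 + 4 * D.a * D.X P + 4 * D.b) =
            4 * (D.X P * (D.X P ^ 2 + D.a * D.X P + D.b)) := by ring
        rw [e, ← heq]
        simp
      have h0 : tropW D ν (P + P) = 0 := by
        rw [hPP]
        unfold tropW
        rw [if_pos rfl]
      rw [h0, trs_tropW_eq D ν hP]
      rw [trs_tropW_eq D ν hP] at hcW
      have hW := t2a_dbl_zero hν2 hc0 hc hb heq' hcW
      have hlt : ν.v D.b < ν.v D.b + ν.v D.b := by linarith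
      rw [hW, trs_fold_gt hlt]
      ring
    · have hY : D.Y P ≠ 0 := fun h => hPP ((D.two_torsion P hP).mpr h)
      rw [trs_tropW_eq D ν hPP, trs_tropW_eq D ν hP]
      rw [trs_tropW_eq D ν hP] at hcW
      have he : (2 * D.Y P) ^ 2 ≠ 0 := pow_ne_zero 2 (mul_ne_zero h2 hY)
      have heq : (2 * D.Y P) ^ 2 =
          D.X P * (4 * D.X P ^ 2 + 4 * D.a * D.X P + 4 * D.b) := by
        have e : (2 * D.Y P) ^ 2 = 4 * D.Y P ^ 2 := by ring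
        rw [e, D.eqn P hP]
        ring
      exact t2a_dbl_core hν2 hc0 hc hb0 hb heq he (D.dbl P hP hPP) hcW

end Fermat.Agent.S13
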